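import Fermat.Agent.S05.Core.Defs

/-!
# S05 core: symmetric formulas for the `X`-coordinates of `P + Q`, `P - Q`, `P + P`.
(one worker; statements frozen)

Pure algebra from `Model.coord_add`, `Model.coord_sub`, `Model.coord_two`, `Model.equation`
(`field_simp` / `ring` / `linear_combination`).  With `a = -(α+β)`, `b = αβ` the curve is
`Y² = X³ + aX² + bX` and (Silverman III.2.3 type identities)
`X(P+Q) + X(P-Q) = 2[(X₁+X₂)(X₁X₂+b) + 2aX₁X₂]/(X₁-X₂)²`, `X(P+Q)·X(P-Q) = (X₁X₂-b)²/(X₁-X₂)²`,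
`X(2P) = (X²-b)²/(4Y²)`.
-/

set_option autoImplicit false

namespace Fermat.Agent.S05

namespace Formulas

variable {K : Type*} [Field K]

/-- Rewriting the chord-rule `X`-coordinate over the common denominator `(X₁ - X₂) ^ 2`. -/
theorem chord_eq_div {α β X₁ X₂ Z : K} (hne : X₁ ≠ X₂) :
    (Z / (X₁ - X₂)) ^ 2 + α + β - X₁ - X₂
      = (Z ^ 2 + (α + β - X₁ - X₂) * (X₁ - X₂) ^ 2) / (X₁ - X₂) ^ 2 := by
  have hD : (X₁ - X₂) ^ 2 ≠ 0 := pow_ne_zero 2 (sub_ne_zero.mpr hne)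
  rw [eq_div_iff hD]
  have e : (Z / (X₁ - X₂)) ^ 2 * (X₁ - X₂) ^ 2 = Z ^ 2 := by
    rw [div_pow]
    exact div_mul_cancel₀ _ hD
  linear_combination e

/-- Numerator identity for the sum. -/
theorem sum_num {α β X₁ Y₁ X₂ Y₂ : K} (h1 : Y₁ ^ 2 = X₁ * (X₁ - α) * (X₁ - β))
    (h2 : Y₂ ^ 2 = X₂ * (X₂ - α) * (X₂ - β)) :
    ((Y₁ - Y₂) ^ 2 + (α + β - X₁ - X₂) * (X₁ - X₂) ^ 2)
        + ((Y₁ + Y₂) ^ 2 + (α + β - X₁ - X₂) * (X₁ - X₂) ^ 2)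
      = 2 * ((X₁ + X₂) * (X₁ * X₂ + α * β) - 2 * (α + β) * X₁ * X₂) := by
  linear_combination 2 * h1 + 2 * h2

/-- Numerator identity for the product. -/
theorem prod_num {α β X₁ Y₁ X₂ Y₂ : K} (h1 : Y₁ ^ 2 = X₁ * (X₁ - α) * (X₁ - β))
    (h2 : Y₂ ^ 2 = X₂ * (X₂ - α) * (X₂ - β)) :
    ((Y₁ - Y₂) ^ 2 + (α + β - X₁ - X₂) * (X₁ - X₂) ^ 2)
        * ((Y₁ + Y₂) ^ 2 + (α + β - X₁ - X₂) * (X₁ - X₂) ^ 2)
      = (X₁ * X₂ - α * β) ^ 2 * (X₁ - X₂) ^ 2 := by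
  linear_combination
    ((Y₁ ^ 2 - Y₂ ^ 2 + X₁ * (X₁ - α) * (X₁ - β) - X₂ * (X₂ - α) * (X₂ - β))
        + 2 * (α + β - X₁ - X₂) * (X₁ - X₂) ^ 2) * h1
      + (-(Y₁ ^ 2 - Y₂ ^ 2 + X₁ * (X₁ - α) * (X₁ - β) - X₂ * (X₂ - α) * (X₂ - β))
        + 2 * (α + β - X₁ - X₂) * (X₁ - X₂) ^ 2) * h2

/-- Sum of the chord-rule `X`-coordinates of `P + Q` and `P - Q`. -/
theorem sum_formula {α β X₁ Y₁ X₂ Y₂ : K} (h1 : Y₁ ^ 2 = X₁ * (X₁ - α) * (X₁ - β))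
    (h2 : Y₂ ^ 2 = X₂ * (X₂ - α) * (X₂ - β)) (hne : X₁ ≠ X₂) :
    (((Y₁ - Y₂) / (X₁ - X₂)) ^ 2 + α + β - X₁ - X₂)
        + (((Y₁ + Y₂) / (X₁ - X₂)) ^ 2 + α + β - X₁ - X₂)
      = 2 * ((X₁ + X₂) * (X₁ * X₂ + α * β) - 2 * (α + β) * X₁ * X₂) / (X₁ - X₂) ^ 2 := by
  rw [chord_eq_div hne, chord_eq_div hne, ← add_div, sum_num h1 h2]

/-- Product of the chord-rule `X`-coordinates of `P + Q` and `P - Q`. -/
theorem prod_formula {α β X₁ Y₁ X₂ Y₂ : K} (h1 : Y₁ ^ 2 = X₁ * (X₁ - α) * (X₁ - β))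
    (h2 : Y₂ ^ 2 = X₂ * (X₂ - α) * (X₂ - β)) (hne : X₁ ≠ X₂) :
    (((Y₁ - Y₂) / (X₁ - X₂)) ^ 2 + α + β - X₁ - X₂)
        * (((Y₁ + Y₂) / (X₁ - X₂)) ^ 2 + α + β - X₁ - X₂)
      = (X₁ * X₂ - α * β) ^ 2 / (X₁ - X₂) ^ 2 := by
  have hD : (X₁ - X₂) ^ 2 ≠ 0 := pow_ne_zero 2 (sub_ne_zero.mpr hne)
  rw [chord_eq_div hne, chord_eq_div hne, div_mul_div_comm, prod_num h1 h2,
    mul_div_mul_right _ _ hD]

/-- The tangent-rule `X`-coordinate in closed form. -/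
theorem two_formula {α β X Y : K} (h2 : (2 : K) ≠ 0) (h : Y ^ 2 = X * (X - α) * (X - β))
    (hY : Y ≠ 0) :
    ((3 * X ^ 2 - 2 * (α + β) * X + α * β) / (2 * Y)) ^ 2 + α + β - 2 * X
      = (X ^ 2 - α * β) ^ 2 / (4 * Y ^ 2) := by
  have h22 : ((2 : K) * Y) ^ 2 ≠ 0 := pow_ne_zero 2 (mul_ne_zero h2 hY)
  have h4 : (4 : K) * Y ^ 2 = (2 * Y) ^ 2 := by ring
  rw [h4, eq_div_iff h22]
  have e : ((3 * X ^ 2 - 2 * (α + β) * X + α * β) / (2 * Y)) ^ 2 * (2 * Y) ^ 2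
      = (3 * X ^ 2 - 2 * (α + β) * X + α * β) ^ 2 := by
    rw [div_pow]
    exact div_mul_cancel₀ _ h22
  linear_combination e + (4 * (α + β - 2 * X)) * h

end Formulas

namespace Model

variable {K : Type*} [Field K] {α β : K} {G : Type*} [AddCommGroup G] (M : Model K α β G)

/-- Sum and product of the `X`-coordinates of `P + Q` and `P - Q` (for `X₁ ≠ X₂`). -/
theorem exists_coord_add_sub {P Q : G} {X₁ Y₁ X₂ Y₂ : K} (hP : M.coord P = some (X₁, Y₁))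
    (hQ : M.coord Q = some (X₂, Y₂)) (hne : X₁ ≠ X₂) :
    ∃ Xp Yp Xm Ym, M.coord (P + Q) = some (Xp, Yp) ∧ M.coord (P - Q) = some (Xm, Ym) ∧
      Xp + Xm = 2 * ((X₁ + X₂) * (X₁ * X₂ + α * β) - 2 * (α + β) * X₁ * X₂) / (X₁ - X₂) ^ 2 ∧
      Xp * Xm = (X₁ * X₂ - α * β) ^ 2 / (X₁ - X₂) ^ 2 := by
  obtain ⟨Yp, hp⟩ := M.coord_add hP hQ hne
  obtain ⟨Ym, hm⟩ := M.coord_sub hP hQ hne
  have h1 := M.equation hP
  have h2 := M.equation hQ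
  exact ⟨_, Yp, _, Ym, hp, hm, Formulas.sum_formula h1 h2 hne, Formulas.prod_formula h1 h2 hne⟩

/-- Duplication formula for the `X`-coordinate. -/
theorem exists_coord_two {P : G} {X Y : K} (h2 : (2 : K) ≠ 0) (hP : M.coord P = some (X, Y))
    (hY : Y ≠ 0) :
    ∃ Y₃, M.coord (P + P) = some ((X ^ 2 - α * β) ^ 2 / (4 * Y ^ 2), Y₃) := by
  obtain ⟨Y₃, h₃⟩ := M.coord_two hP hY
  rw [Formulas.two_formula h2 (M.equation hP) hY] at h₃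
  exact ⟨Y₃, h₃⟩

end Model

end Fermat.Agent.S05
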