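import Fermat.Agent.S05.Core.Defs
import Fermat.Agent.S05.Core.Formulas

/-!
# S05 core: the kernel of reduction `G1 = {0} ∪ {P | 1 < v X(P)}` is a subgroup.
(one worker; statements frozen)

For `P, Q ∈ G1 \ {0}` with `X₁ ≠ X₂`: `v Π = v(X₁X₂)² / v(X₁-X₂)² ≥ min(v X₁, v X₂)² > 1` and
`v S ≤ max(v X₁, v X₂) * v(X₁X₂) / v(X₁-X₂)² < v Π`.  If `v Xp ≤ 1` then `v Xm = v Π / v Xp ≥ v Π > 1`,
so `v S = v Xm ≥ v Π`, contradiction.  For `X₁ = X₂`: `Q = ±P` (`Model.eq_or_eq_neg_of_X_eq`), and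
`v X(2P) = v X` by `exists_coord_two` (`v (Y²) = (v X)³`), or `2P = 0` if `Y = 0`.
-/

set_option autoImplicit false

namespace Fermat.Agent.S05

namespace G1

variable {K : Type*} [Field K] {Γ₀ : Type*} [LinearOrderedCommGroupWithZero Γ₀]
  (v : Valuation K Γ₀)

/-- If the sum of two elements has smaller valuation than their product and the product is
non-integral, then both elements are non-integral. -/
theorem one_lt_of_sum_prod {r₁ r₂ S Pr : K} (hS : r₁ + r₂ = S) (hPr : r₁ * r₂ = Pr)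
    (h1 : v S < v Pr) (h2 : 1 < v Pr) : 1 < v r₁ := by
  by_contra hcon
  rw [not_lt] at hcon
  have h3 : v Pr ≤ v r₂ := by
    rw [← hPr, map_mul]
    calc v r₁ * v r₂ ≤ 1 * v r₂ := mul_le_mul' hcon le_rfl
      _ = v r₂ := one_mul _
  have h4 : v r₁ < v r₂ := lt_of_le_of_lt hcon (lt_of_lt_of_le h2 h3)
  have h5 : v S = v r₂ := by
    rw [← hS]
    exact Valuation.map_add_eq_of_lt_right v h4
  rw [h5] at h1
  exact absurd h1 (not_lt.mpr h3)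

theorem pos_of_one_lt {a : Γ₀} (ha : 1 < a) : 0 < a := lt_trans zero_lt_one ha

/-- `max a b < a * b` for `1 < a`, `1 < b`. -/
theorem max_lt_mul {a b : Γ₀} (ha : 1 < a) (hb : 1 < b) : max a b < a * b := by
  have ha0 : 0 < a := pos_of_one_lt ha
  have hb0 : 0 < b := pos_of_one_lt hb
  apply max_lt
  · calc a = a * 1 := (mul_one a).symm
      _ < a * b := mul_lt_mul_of_pos_left hb ha0
  · calc b = 1 * b := (one_mul b).symm
      _ < a * b := mul_lt_mul_of_pos_right ha hb0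

theorem one_le_mul {a b : Γ₀} (ha : 1 < a) (hb : 1 < b) : 1 < a * b :=
  lt_of_le_of_lt (le_max_of_le_left ha.le) (max_lt_mul ha hb)

theorem v_mul_sub {X₁ X₂ α β : K} (hα : v α ≤ 1) (hβ : v β ≤ 1) (h1 : 1 < v X₁)
    (h2 : 1 < v X₂) : v (X₁ * X₂ - α * β) = v X₁ * v X₂ := by
  have h : v (α * β) < v (X₁ * X₂) := by
    rw [map_mul, map_mul]
    calc v α * v β ≤ 1 * 1 := mul_le_mul' hα hβ
      _ = 1 := one_mul 1
      _ < v X₁ * v X₂ := one_le_mul h1 h2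
  rw [Valuation.map_sub_eq_of_lt_left v h, map_mul]

theorem v_num_le {X₁ X₂ α β : K} (h2 : v 2 = 1) (hα : v α ≤ 1) (hβ : v β ≤ 1)
    (h1 : 1 < v X₁) (h2' : 1 < v X₂) :
    v (2 * ((X₁ + X₂) * (X₁ * X₂ + α * β) - 2 * (α + β) * X₁ * X₂))
      ≤ max (v X₁) (v X₂) * (v X₁ * v X₂) := by
  rw [map_mul, h2, one_mul]
  apply Valuation.map_sub_le
  · rw [map_mul]
    apply mul_le_mul' (v.map_add X₁ X₂)
    apply Valuation.map_add_le
    · rw [map_mul]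
    · rw [map_mul]
      calc v α * v β ≤ 1 * 1 := mul_le_mul' hα hβ
        _ = 1 := one_mul 1
        _ ≤ v X₁ * v X₂ := (one_le_mul h1 h2').le
  · rw [map_mul, map_mul, map_mul, h2, one_mul, mul_assoc]
    apply mul_le_mul' _ le_rfl
    exact le_trans (Valuation.map_add_le v hα hβ) (le_max_of_le_left h1.le)

/-- Both roots of the "sum/product" system for `X(P ± Q)` are non-integral. -/
theorem one_lt_add_sub {X₁ X₂ α β Xp Xm : K} (h2 : v 2 = 1) (hα : v α ≤ 1) (hβ : v β ≤ 1)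
    (h1 : 1 < v X₁) (h2' : 1 < v X₂) (hne : X₁ ≠ X₂)
    (hS : Xp + Xm =
      2 * ((X₁ + X₂) * (X₁ * X₂ + α * β) - 2 * (α + β) * X₁ * X₂) / (X₁ - X₂) ^ 2)
    (hPr : Xp * Xm = (X₁ * X₂ - α * β) ^ 2 / (X₁ - X₂) ^ 2) : 1 < v Xp ∧ 1 < v Xm := by
  have hd0 : v (X₁ - X₂) ≠ 0 := (Valuation.ne_zero_iff v).mpr (sub_ne_zero.mpr hne)
  have hdpos : 0 < v (X₁ - X₂) ^ 2 := pow_pos (zero_lt_iff.mpr hd0) 2
  have hd : v (X₁ - X₂) ≤ max (v X₁) (v X₂) := Valuation.map_sub v X₁ X₂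
  have hmax : max (v X₁) (v X₂) < v X₁ * v X₂ := max_lt_mul h1 h2'
  have hpos : 0 < v X₁ * v X₂ := pos_of_one_lt (one_le_mul h1 h2')
  have hSPr : v (2 * ((X₁ + X₂) * (X₁ * X₂ + α * β) - 2 * (α + β) * X₁ * X₂) / (X₁ - X₂) ^ 2)
      < v ((X₁ * X₂ - α * β) ^ 2 / (X₁ - X₂) ^ 2) := by
    rw [map_div₀, map_div₀, map_pow, map_pow, v_mul_sub v hα hβ h1 h2']
    apply div_lt_div_of_pos_right _ hdpos
    calc v (2 * ((X₁ + X₂) * (X₁ * X₂ + α * β) - 2 * (α + β) * X₁ * X₂))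
        ≤ max (v X₁) (v X₂) * (v X₁ * v X₂) := v_num_le v h2 hα hβ h1 h2'
      _ < (v X₁ * v X₂) * (v X₁ * v X₂) := mul_lt_mul_of_pos_right hmax hpos
      _ = (v X₁ * v X₂) ^ 2 := (pow_two _).symm
  have hPr1 : 1 < v ((X₁ * X₂ - α * β) ^ 2 / (X₁ - X₂) ^ 2) := by
    rw [map_div₀, map_pow, map_pow, v_mul_sub v hα hβ h1 h2', one_lt_div₀ hdpos]
    exact pow_lt_pow_left₀ (lt_of_le_of_lt hd hmax) zero_le two_ne_zero
  exact ⟨one_lt_of_sum_prod v hS hPr hSPr hPr1,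
    one_lt_of_sum_prod v ((add_comm Xm Xp).trans hS) ((mul_comm Xm Xp).trans hPr) hSPr hPr1⟩

/-- The valuation of `X(2P)` for `P` in the kernel of reduction. -/
theorem v_dbl {X Y α β : K} (h2 : v 2 = 1) (hα : v α ≤ 1) (hβ : v β ≤ 1) (h1 : 1 < v X)
    (heq : Y ^ 2 = X * (X - α) * (X - β)) :
    v ((X ^ 2 - α * β) ^ 2 / (4 * Y ^ 2)) = v X := by
  have h4 : v (4 : K) = 1 := by
    have h22 : (4 : K) = 2 * 2 := by norm_num
    rw [h22, map_mul, h2, one_mul]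
  have hXα : v (X - α) = v X := Valuation.map_sub_eq_of_lt_left v (lt_of_le_of_lt hα h1)
  have hXβ : v (X - β) = v X := Valuation.map_sub_eq_of_lt_left v (lt_of_le_of_lt hβ h1)
  have hnum : v (X ^ 2 - α * β) = v X * v X := by
    rw [pow_two, v_mul_sub v hα hβ h1 h1]
  have hX0 : v X ≠ 0 := (pos_of_one_lt h1).ne'
  rw [map_div₀, map_pow, hnum, map_mul, h4, one_mul, heq, map_mul, map_mul, hXα, hXβ,
    div_eq_iff (mul_ne_zero (mul_ne_zero hX0 hX0) hX0), pow_two, mul_assoc, mul_assoc]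

end G1

namespace Model

variable {K : Type*} [Field K] {α β : K} {G : Type*} [AddCommGroup G] (M : Model K α β G)
variable {Γ₀ : Type*} [LinearOrderedCommGroupWithZero Γ₀] (v : Valuation K Γ₀)

theorem G1_neg {P : G} (hP : P ∈ M.G1 v) : -P ∈ M.G1 v := by
  rcases hP with h0 | ⟨X, Y, h, hX⟩
  · rw [h0, neg_zero]
    exact M.zero_mem_G1 v
  · exact M.mem_G1_of_coord v (M.coord_neg h) hX

theorem G1_add (h2 : v 2 = 1) (hα : v α ≤ 1) (hβ : v β ≤ 1) {P Q : G} (hP : P ∈ M.G1 v)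
    (hQ : Q ∈ M.G1 v) : P + Q ∈ M.G1 v := by
  rcases hP with h0 | ⟨X₁, Y₁, hc₁, hX₁⟩
  · rw [h0, zero_add]
    exact hQ
  rcases hQ with h0 | ⟨X₂, Y₂, hc₂, hX₂⟩
  · rw [h0, add_zero]
    exact M.mem_G1_of_coord v hc₁ hX₁
  by_cases hne : X₁ = X₂
  · subst hne
    rcases M.eq_or_eq_neg_of_X_eq hc₁ hc₂ with hQP | hQP
    · rw [hQP]
      by_cases hY : Y₁ = 0
      · rw [hY] at hc₁
        rw [M.add_self_eq_zero_of_Y_eq_zero hc₁]
        exact M.zero_mem_G1 v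
      · have h20 : (2 : K) ≠ 0 := by
          intro h
          rw [h, map_zero] at h2
          exact zero_ne_one h2
        obtain ⟨Y₃, hY₃⟩ := M.exists_coord_two h20 hc₁ hY
        refine M.mem_G1_of_coord v hY₃ ?_
        rw [G1.v_dbl v h2 hα hβ hX₁ (M.equation hc₁)]
        exact hX₁
    · rw [hQP, add_neg_cancel]
      exact M.zero_mem_G1 v
  · obtain ⟨Xp, Yp, Xm, Ym, hp, hm, hS, hPr⟩ := M.exists_coord_add_sub hc₁ hc₂ hne
    exact M.mem_G1_of_coord v hp (G1.one_lt_add_sub v h2 hα hβ hX₁ hX₂ hne hS hPr).1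

theorem G1_sub (h2 : v 2 = 1) (hα : v α ≤ 1) (hβ : v β ≤ 1) {P Q : G} (hP : P ∈ M.G1 v)
    (hQ : Q ∈ M.G1 v) : P - Q ∈ M.G1 v := by
  rw [sub_eq_add_neg]
  exact M.G1_add v h2 hα hβ hP (M.G1_neg v hQ)

end Model

end Fermat.Agent.S05
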