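import Fermat.Agent.S05.Core.Defs
import Fermat.Agent.S05.Core.G1

/-!
# S05 core: an "inertia automorphism" moves a point with nonsingular reduction inside its
`G1`-coset.  (one worker; statements frozen)

`σ` is a field automorphism preserving `v` and acting trivially on the residue field
(`v x ≤ 1 → v (σ x - x) < 1`), `τ` the induced automorphism of `G`.
Proof of `inertia_sub_mem_G1` for `R = (X, Y)` integral (then `v Y ≤ 1`), `τ R = (σX, σY)`:
* `σX ≠ X`: by `Model.coord_sub`, `X(τR - R) = Λ² + α + β - σX - X` with `Λ = (σY + Y)/(σX - X)`, and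
  `v (σY + Y) > v (σX - X)`: if `v Y = 1` because `σY + Y = 2Y + (σY - Y)` is a unit; if `v Y < 1` because
  `(σY - Y)(σY + Y) = (σX - X) * h` with `h ≡ g'(X) = 3X² - 2(α+β)X + αβ` a unit and `0 < v (σY - Y) < 1`.
  So `v Λ > 1` and `v X(τR - R) = (v Λ)² > 1`.
* `σX = X`: `σY = Y` (then `τR = R`) or `σY = -Y ≠ Y`; then `τR = -R`, `v (2Y) = v (σY - Y) < 1`, so
  `g'(X)` is a unit and `X(R + R) = (g'(X)/(2Y))² + α + β - 2X` has `v > 1`; `τR - R = -(R + R)`.
For `R ∈ G1`: `τ R ∈ G1` and `G1_sub`.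
-/

set_option autoImplicit false

namespace Fermat.Agent.S05

variable {K : Type*} [Field K] {Γ₀ : Type*} [LinearOrderedCommGroupWithZero Γ₀]

namespace Inertia

variable (v : Valuation K Γ₀)

theorem val_two_le : v 2 ≤ 1 := by
  have h : (2 : K) = 1 + 1 := by norm_num
  rw [h]
  exact v.map_add_le (le_of_eq v.map_one) (le_of_eq v.map_one)

/-- `v (x * y) ≤ 1` for integral `x`, `y`. -/
theorem val_mul_le_one {x y : K} (hx : v x ≤ 1) (hy : v y ≤ 1) : v (x * y) ≤ 1 := by
  rw [map_mul]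
  calc v x * v y ≤ 1 * 1 := mul_le_mul' hx hy
    _ = 1 := mul_one 1

/-- `v (x * y) < 1` if `v x < 1` and `y` is integral. -/
theorem val_mul_lt_one {x y : K} (hx : v x < 1) (hy : v y ≤ 1) : v (x * y) < 1 := by
  rw [map_mul]
  calc v x * v y ≤ v x * 1 := mul_le_mul' le_rfl hy
    _ = v x := mul_one _
    _ < 1 := hx

/-- A unit plus an element of the maximal ideal is a unit. -/
theorem val_add_eq_one {x y : K} (hx : v x = 1) (hy : v y < 1) : v (x + y) = 1 := by
  rw [v.map_add_eq_of_lt_left (by rw [hx]; exact hy), hx]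

/-- An integral point of the cubic has integral `Y`. -/
theorem val_Y_le_one {α β X Y : K} (hα : v α ≤ 1) (hβ : v β ≤ 1)
    (heq : Y ^ 2 = X * (X - α) * (X - β)) (hX : v X ≤ 1) : v Y ≤ 1 := by
  by_contra h
  rw [not_le] at h
  have h1 : v (Y ^ 2) ≤ 1 := by
    rw [heq]
    exact val_mul_le_one v (val_mul_le_one v hX (v.map_sub_le hX hα)) (v.map_sub_le hX hβ)
  have h2 : 1 < v (Y ^ 2) := by
    rw [sq, map_mul]
    calc 1 < v Y := h
      _ = 1 * v Y := (one_mul _).symm
      _ ≤ v Y * v Y := mul_le_mul' h.le le_rfl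
  exact absurd h1 (not_le.mpr h2)

/-- If `L` is not integral and `c` is, then `L ^ 2 + c` is not integral. -/
theorem one_lt_val_sq_add {L c : K} (hL : 1 < v L) (hc : v c ≤ 1) : 1 < v (L ^ 2 + c) := by
  have h2 : 1 < v (L ^ 2) := by
    rw [sq, map_mul]
    calc 1 < v L := hL
      _ = 1 * v L := (one_mul _).symm
      _ ≤ v L * v L := mul_le_mul' hL.le le_rfl
  rw [v.map_add_eq_of_lt_left (lt_of_le_of_lt hc h2)]
  exact h2

theorem val_pos_of_ne {x y : K} (hne : x ≠ y) : 0 < v (x - y) := by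
  rw [zero_lt_iff]
  exact (v.ne_zero_iff).mpr (sub_ne_zero.mpr hne)

/-- The key inequality for the chord through `(X, Y)` and its conjugate `(X', Y')`. -/
theorem val_sub_lt_val_add {α β X Y X' Y' : K} (h2 : v 2 = 1) (hα : v α ≤ 1) (hβ : v β ≤ 1)
    (heq : Y ^ 2 = X * (X - α) * (X - β)) (heq' : Y' ^ 2 = X' * (X' - α) * (X' - β))
    (hX : v X ≤ 1) (hX' : v X' ≤ 1) (hY : v Y ≤ 1) (hXX : v (X' - X) < 1) (hYY : v (Y' - Y) < 1)
    (hne : X' ≠ X) (hns : v Y < 1 → v (3 * X ^ 2 - 2 * (α + β) * X + α * β) = 1) :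
    v (X' - X) < v (Y' + Y) := by
  by_cases hY1 : v Y < 1
  · have hg := hns hY1
    have hh : v (X' ^ 2 + X' * X + X ^ 2 - (α + β) * (X' + X) + α * β) = 1 := by
      have e : X' ^ 2 + X' * X + X ^ 2 - (α + β) * (X' + X) + α * β
          = (3 * X ^ 2 - 2 * (α + β) * X + α * β) + (X' - X) * (X' + 2 * X - α - β) := by ring
      rw [e]
      refine val_add_eq_one v hg (val_mul_lt_one v hXX ?_)
      exact v.map_sub_le (v.map_sub_le
        (v.map_add_le hX' (val_mul_le_one v h2.le hX)) hα) hβ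
    have hfac : (Y' - Y) * (Y' + Y)
        = (X' - X) * (X' ^ 2 + X' * X + X ^ 2 - (α + β) * (X' + X) + α * β) := by
      linear_combination heq' - heq
    have hv : v (Y' - Y) * v (Y' + Y) = v (X' - X) := by
      rw [← map_mul, hfac, map_mul, hh, mul_one]
    have hpos : 0 < v (X' - X) := val_pos_of_ne v hne
    have hpos' : 0 < v (Y' + Y) := by
      rw [zero_lt_iff]
      intro h0
      rw [h0, mul_zero] at hv
      exact hpos.ne hv
    rw [← hv]
    calc v (Y' - Y) * v (Y' + Y) < 1 * v (Y' + Y) := mul_lt_mul_of_pos_right hYY hpos'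
      _ = v (Y' + Y) := one_mul _
  · have hY1' : v Y = 1 := le_antisymm hY (not_lt.mp hY1)
    have e : Y' + Y = 2 * Y + (Y' - Y) := by ring
    have h1 : v (Y' + Y) = 1 := by
      rw [e]
      exact val_add_eq_one v (by rw [map_mul, h2, hY1', mul_one]) hYY
    rw [h1]
    exact hXX

/-- Chord case: the `X`-coordinate of `(X', Y') - (X, Y)` is not integral. -/
theorem one_lt_val_chord {α β X Y X' Y' : K} (h2 : v 2 = 1) (hα : v α ≤ 1) (hβ : v β ≤ 1)
    (heq : Y ^ 2 = X * (X - α) * (X - β)) (heq' : Y' ^ 2 = X' * (X' - α) * (X' - β))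
    (hX : v X ≤ 1) (hX' : v X' ≤ 1) (hY : v Y ≤ 1) (hXX : v (X' - X) < 1) (hYY : v (Y' - Y) < 1)
    (hne : X' ≠ X) (hns : v Y < 1 → v (3 * X ^ 2 - 2 * (α + β) * X + α * β) = 1) :
    1 < v (((Y' + Y) / (X' - X)) ^ 2 + α + β - X' - X) := by
  have hlt := val_sub_lt_val_add v h2 hα hβ heq heq' hX hX' hY hXX hYY hne hns
  have hpos : 0 < v (X' - X) := val_pos_of_ne v hne
  have hL : 1 < v ((Y' + Y) / (X' - X)) := by
    rw [map_div₀, lt_div_iff₀ hpos, one_mul]
    exact hlt
  have e : ((Y' + Y) / (X' - X)) ^ 2 + α + β - X' - X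
      = ((Y' + Y) / (X' - X)) ^ 2 + (α + β - X' - X) := by ring
  rw [e]
  exact one_lt_val_sq_add v hL (v.map_sub_le (v.map_sub_le (v.map_add_le hα hβ) hX') hX)

/-- Tangent case: the `X`-coordinate of `2 (X, Y)` is not integral when `v Y < 1` at a point of
nonsingular reduction. -/
theorem one_lt_val_tangent {α β X Y : K} (h2 : v 2 = 1) (hα : v α ≤ 1) (hβ : v β ≤ 1)
    (hX : v X ≤ 1) (hY0 : Y ≠ 0) (hY : v Y < 1)
    (hg : v (3 * X ^ 2 - 2 * (α + β) * X + α * β) = 1) :
    1 < v (((3 * X ^ 2 - 2 * (α + β) * X + α * β) / (2 * Y)) ^ 2 + α + β - 2 * X) := by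
  have hpos : 0 < v Y := by
    rw [zero_lt_iff]
    exact (v.ne_zero_iff).mpr hY0
  have hL : 1 < v ((3 * X ^ 2 - 2 * (α + β) * X + α * β) / (2 * Y)) := by
    rw [map_div₀, hg, map_mul, h2, one_mul, lt_div_iff₀ hpos, one_mul]
    exact hY
  have e : ((3 * X ^ 2 - 2 * (α + β) * X + α * β) / (2 * Y)) ^ 2 + α + β - 2 * X
      = ((3 * X ^ 2 - 2 * (α + β) * X + α * β) / (2 * Y)) ^ 2 + (α + β - 2 * X) := by ring
  rw [e]
  exact one_lt_val_sq_add v hL (v.map_sub_le (v.map_add_le hα hβ) (val_mul_le_one v h2.le hX))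

/-- `v (p * q + r * s) = 1` if `p`, `q` are units, `r` is in the maximal ideal, `s` integral. -/
theorem val_unit_add {p q r s : K} (hp : v p = 1) (hq : v q = 1) (hr : v r < 1) (hs : v s ≤ 1) :
    v (p * q + r * s) = 1 := by
  apply val_add_eq_one v _ (val_mul_lt_one v hr hs)
  rw [map_mul, hp, hq, mul_one]

/-- The valuation of the cubic at a point with `v Y < 1`. -/
theorem val_cubic_lt {α β X Y : K} (heq : Y ^ 2 = X * (X - α) * (X - β)) (hY : v Y < 1) :
    v X * v (X - α) * v (X - β) < 1 := by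
  rw [← map_mul, ← map_mul, ← heq, sq]
  exact val_mul_lt_one v hY hY.le

end Inertia

/-- Good reduction: an integral point with `v Y < 1` reduces to a `2`-torsion point, where the
derivative of the cubic is a unit. -/
theorem good_nonsing (v : Valuation K Γ₀) {α β X Y : K} (hα : v α = 1) (hβ : v β = 1)
    (hαβ : v (α - β) = 1) (heq : Y ^ 2 = X * (X - α) * (X - β)) (hX : v X ≤ 1) (hY : v Y < 1) :
    v (3 * X ^ 2 - 2 * (α + β) * X + α * β) = 1 := by
  have hprod := Inertia.val_cubic_lt v heq hY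
  have h2 : v (2 * X) ≤ 1 := Inertia.val_mul_le_one v (Inertia.val_two_le v) hX
  by_cases h1 : v X < 1
  · -- `X` reduces to `0`
    have hXα : v (X - α) = 1 := by
      rw [v.map_sub_eq_of_lt_right (by rw [hα]; exact h1), hα]
    have hXβ : v (X - β) = 1 := by
      rw [v.map_sub_eq_of_lt_right (by rw [hβ]; exact h1), hβ]
    have e : 3 * X ^ 2 - 2 * (α + β) * X + α * β = (X - α) * (X - β) + X * (2 * X - α - β) := by
      ring
    rw [e]
    exact Inertia.val_unit_add v hXα hXβ h1 (v.map_sub_le (v.map_sub_le h2 hα.le) hβ.le)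
  · have hX1 : v X = 1 := le_antisymm hX (not_lt.mp h1)
    by_cases h3 : v (X - α) < 1
    · -- `X` reduces to `α`
      have hXβ : v (X - β) = 1 := by
        have e : X - β = (α - β) + (X - α) := by ring
        rw [e]
        exact Inertia.val_add_eq_one v hαβ h3
      have e : 3 * X ^ 2 - 2 * (α + β) * X + α * β = X * (X - β) + (X - α) * (2 * X - β) := by
        ring
      rw [e]
      exact Inertia.val_unit_add v hX1 hXβ h3 (v.map_sub_le h2 hβ.le)
    · have hXα : v (X - α) = 1 :=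
        le_antisymm (v.map_sub_le hX hα.le) (not_lt.mp h3)
      -- `X` reduces to `β`
      have h4 : v (X - β) < 1 := by
        rw [hX1, hXα, one_mul, one_mul] at hprod
        exact hprod
      have e : 3 * X ^ 2 - 2 * (α + β) * X + α * β = X * (X - α) + (X - β) * (2 * X - α) := by
        ring
      rw [e]
      exact Inertia.val_unit_add v hX1 hXα h4 (v.map_sub_le h2 hα.le)

/-- Multiplicative reduction: the same for points with `v X = 1` (away from the node). -/
theorem mult_nonsing (v : Valuation K Γ₀) {α β X Y : K} (hα : v α < 1) (hβ : v β = 1)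
    (heq : Y ^ 2 = X * (X - α) * (X - β)) (hX : v X = 1) (hY : v Y < 1) :
    v (3 * X ^ 2 - 2 * (α + β) * X + α * β) = 1 := by
  have _ := hβ
  have hprod := Inertia.val_cubic_lt v heq hY
  have h2 : v (2 * X) ≤ 1 := Inertia.val_mul_le_one v (Inertia.val_two_le v) hX.le
  have hXα : v (X - α) = 1 := by
    rw [v.map_sub_eq_of_lt_left (by rw [hX]; exact hα), hX]
  have h4 : v (X - β) < 1 := by
    rw [hX, hXα, one_mul, one_mul] at hprod
    exact hprod
  have e : 3 * X ^ 2 - 2 * (α + β) * X + α * β = X * (X - α) + (X - β) * (2 * X - α) := by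
    ring
  rw [e]
  exact Inertia.val_unit_add v hX hXα h4 (v.map_sub_le h2 hα.le)

namespace Model

variable {α β : K} {G : Type*} [AddCommGroup G] (M : Model K α β G) (v : Valuation K Γ₀)

theorem inertia_sub_mem_G1 (h2 : v 2 = 1) (hα : v α ≤ 1) (hβ : v β ≤ 1)
    (σ : K ≃+* K) (hσv : ∀ x, v (σ x) = v x) (hσres : ∀ x, v x ≤ 1 → v (σ x - x) < 1)
    (τ : G →+ G) (hτ : ∀ Q, M.coord (τ Q) = (M.coord Q).map (Prod.map σ σ))
    (R : G)
    (hR : R ∈ M.G1 v ∨ ∃ X Y, M.coord R = some (X, Y) ∧ v X ≤ 1 ∧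
      (v Y < 1 → v (3 * X ^ 2 - 2 * (α + β) * X + α * β) = 1)) :
    τ R - R ∈ M.G1 v := by
  rcases hR with hR | ⟨X, Y, hc, hX, hns⟩
  · -- `R` in the kernel of reduction: so is `τ R`
    have hτR : τ R ∈ M.G1 v := by
      rcases hR with h0 | ⟨X, Y, hc, hX⟩
      · rw [h0, map_zero]
        exact M.zero_mem_G1 v
      · have hcτ : M.coord (τ R) = some (σ X, σ Y) := by rw [hτ R, hc]; rfl
        exact M.mem_G1_of_coord v hcτ (by rw [hσv]; exact hX)
    exact M.G1_sub v h2 hα hβ hτR hR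
  · have hcτ : M.coord (τ R) = some (σ X, σ Y) := by rw [hτ R, hc]; rfl
    have heq := M.equation hc
    have heqτ := M.equation hcτ
    have hY : v Y ≤ 1 := Inertia.val_Y_le_one v hα hβ heq hX
    by_cases hne : σ X = X
    · rw [hne] at hcτ
      rcases M.eq_or_eq_neg_of_X_eq hc hcτ with h | h
      · rw [h, sub_self]
        exact M.zero_mem_G1 v
      · have e : τ R - R = -(R + R) := by rw [h]; abel
        rw [e]
        apply M.G1_neg v
        by_cases hY0 : Y = 0
        · subst hY0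
          rw [M.add_self_eq_zero_of_Y_eq_zero hc]
          exact M.zero_mem_G1 v
        · have hσY : σ Y = -Y := by
            have h3 := M.coord_neg hc
            rw [← h, hcτ] at h3
            exact (Prod.mk.inj (Option.some.inj h3)).2
          have hYlt : v Y < 1 := by
            have h4 := hσres Y hY
            have e4 : σ Y - Y = -(2 * Y) := by rw [hσY]; ring
            rw [e4, v.map_neg, map_mul, h2, one_mul] at h4
            exact h4
          obtain ⟨Y₃, h5⟩ := M.coord_two hc hY0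
          exact M.mem_G1_of_coord v h5
            (Inertia.one_lt_val_tangent v h2 hα hβ hX hY0 hYlt (hns hYlt))
    · obtain ⟨Y₃, h5⟩ := M.coord_sub hcτ hc hne
      exact M.mem_G1_of_coord v h5 (Inertia.one_lt_val_chord v h2 hα hβ heq heqτ hX
        (by rw [hσv]; exact hX) hY (hσres X hX) (hσres Y hY) hne hns)

end Model

end Fermat.Agent.S05
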