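import Fermat.Agent.S05.Core.Defs
import Fermat.Agent.S05.Core.G1

/-!
# S05 core: the kernel of reduction has no `n`-torsion for `n` a unit.
(one worker; statement frozen)

Put `ξ(R) = 1 / X(R)` for `R ∈ G1 \ {0}` and `ξ(0) = 0` (so `v ξ < 1`).  From
`exists_coord_add_sub` / `exists_coord_two`, for ALL `P, Q ∈ G1` (including `P = ±Q`, `P = 0`, `Q = 0`):
`ξ(P+Q) + ξ(P-Q) = 2[(ξ_P+ξ_Q)(1 + αβ ξ_P ξ_Q) - 2(α+β) ξ_P ξ_Q] / (1 - αβ ξ_P ξ_Q)²`,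
hence `ξ(P+Q) + ξ(P-Q) - 2ξ_P - 2ξ_Q` has valuation `< v ξ_Q` whenever `v ξ_P ≤ v ξ_Q`... (any bound
of the form "`∈ ξ·𝔪`" suffices).  With `ξ = ξ(R)`, induction on `m` gives
`v (ξ(m • R) - m² ξ) < v ξ` for all `m : ℕ` (recurrence `ξ_{m+1} ≡ 2ξ_m + 2ξ - ξ_{m-1}`; all `m • R ∈ G1`
by `G1_add`).  If `n • R = 0` then `v (n² ξ) < v ξ`, contradicting `v n = 1`.
-/

set_option autoImplicit false

namespace Fermat.Agent.S05

namespace NoTorsion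

variable {K : Type*} [Field K] {α β : K} {G : Type*} [AddCommGroup G] (M : Model K α β G)
variable {Γ₀ : Type*} [LinearOrderedCommGroupWithZero Γ₀] (v : Valuation K Γ₀)

/-- The parameter `ξ = 1 / X` at infinity (`0` at the point at infinity). -/
noncomputable def xi (P : G) : K :=
  match M.coord P with
  | none => 0
  | some (X, _) => X⁻¹

/-- The rational function expressing `ξ(P+Q) + ξ(P-Q)` through `ξ(P)` and `ξ(Q)`. -/
noncomputable def F (α β ξ₁ ξ₂ : K) : K :=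
  2 * ((ξ₁ + ξ₂) * (1 + α * β * ξ₁ * ξ₂) - 2 * (α + β) * ξ₁ * ξ₂) / (1 - α * β * ξ₁ * ξ₂) ^ 2

theorem xi_zero : xi M 0 = 0 := by
  unfold xi
  rw [M.coord_zero]

theorem xi_of_coord {P : G} {X Y : K} (h : M.coord P = some (X, Y)) : xi M P = X⁻¹ := by
  unfold xi
  rw [h]

theorem xi_neg (P : G) : xi M (-P) = xi M P := by
  by_cases hP : P = 0
  · rw [hP, neg_zero]
  · obtain ⟨X, Y, h⟩ := M.exists_coord_of_ne_zero hP
    rw [xi_of_coord M (M.coord_neg h), xi_of_coord M h]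

theorem val_xi_lt_one {P : G} (hP : P ∈ M.G1 v) : v (xi M P) < 1 := by
  by_cases h0 : P = 0
  · rw [h0, xi_zero, map_zero]
    exact zero_lt_one
  · obtain ⟨X, Y, h⟩ := M.exists_coord_of_ne_zero h0
    have hX := M.one_lt_of_mem_G1 v hP h
    rw [xi_of_coord M h, map_inv₀]
    exact inv_lt_one_of_one_lt₀ hX

theorem val_xi_pos {P : G} (hP : P ∈ M.G1 v) (h0 : P ≠ 0) : 0 < v (xi M P) := by
  obtain ⟨X, Y, h⟩ := M.exists_coord_of_ne_zero h0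
  have hX := M.one_lt_of_mem_G1 v hP h
  rw [xi_of_coord M h, map_inv₀]
  exact inv_pos.mpr (zero_lt_one.trans hX)

/-! ### Field identities -/

theorem F_zero_left (ξ : K) : F α β 0 ξ = 2 * ξ := by
  unfold F
  simp

theorem F_zero_right (ξ : K) : F α β ξ 0 = 2 * ξ := by
  unfold F
  simp

/-- The denominator of `F` at `(X₁⁻¹, X₂⁻¹)`. -/
theorem denom_ne_zero {X₁ X₂ : K} (hX1 : X₁ ≠ 0) (hX2 : X₂ ≠ 0) (hab : X₁ * X₂ - α * β ≠ 0) :
    1 - α * β * X₁⁻¹ * X₂⁻¹ ≠ 0 := by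
  have h : 1 - α * β * X₁⁻¹ * X₂⁻¹ = (X₁ * X₂ - α * β) / (X₁ * X₂) := by
    field_simp
  rw [h]
  exact div_ne_zero hab (mul_ne_zero hX1 hX2)

/-- Chord case: `1/X(P+Q) + 1/X(P-Q)` in terms of `1/X(P)`, `1/X(Q)`. -/
theorem chord_identity {X₁ X₂ Xp Xm : K} (hX1 : X₁ ≠ 0) (hX2 : X₂ ≠ 0) (hne : X₁ ≠ X₂)
    (hab : X₁ * X₂ - α * β ≠ 0)
    (hsum : Xp + Xm =
      2 * ((X₁ + X₂) * (X₁ * X₂ + α * β) - 2 * (α + β) * X₁ * X₂) / (X₁ - X₂) ^ 2)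
    (hprod : Xp * Xm = (X₁ * X₂ - α * β) ^ 2 / (X₁ - X₂) ^ 2) :
    Xp⁻¹ + Xm⁻¹ = F α β X₁⁻¹ X₂⁻¹ := by
  have hd : X₁ - X₂ ≠ 0 := sub_ne_zero.mpr hne
  have hpm : Xp * Xm ≠ 0 := by
    rw [hprod]
    exact div_ne_zero (pow_ne_zero 2 hab) (pow_ne_zero 2 hd)
  have hXp : Xp ≠ 0 := left_ne_zero_of_mul hpm
  have hXm : Xm ≠ 0 := right_ne_zero_of_mul hpm
  have h1 : Xp⁻¹ + Xm⁻¹ = (Xp + Xm) / (Xp * Xm) := by
    field_simp
    ring
  have hD : 1 - α * β * X₁⁻¹ * X₂⁻¹ ≠ 0 := denom_ne_zero hX1 hX2 hab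
  rw [h1, hsum, hprod]
  unfold F
  field_simp
  ring

/-- Tangent case: `1/X(2P)` in terms of `1/X(P)`. -/
theorem tangent_identity {X Y : K} (hX : X ≠ 0) (hab : X * X - α * β ≠ 0)
    (hY : Y ^ 2 = X * (X - α) * (X - β)) :
    ((X ^ 2 - α * β) ^ 2 / (4 * Y ^ 2))⁻¹ = F α β X⁻¹ X⁻¹ := by
  have hab' : X ^ 2 - α * β ≠ 0 := by rwa [pow_two]
  have hD : 1 - α * β * X⁻¹ * X⁻¹ ≠ 0 := denom_ne_zero hX hX hab
  rw [inv_div, hY]
  unfold F
  field_simp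
  ring

/-- The error term of the approximate parallelogram law. -/
theorem F_sub_eq {ξ₁ ξ₂ : K} (hD : 1 - α * β * ξ₁ * ξ₂ ≠ 0) :
    F α β ξ₁ ξ₂ - 2 * ξ₁ - 2 * ξ₂ =
      ξ₁ * ξ₂ * (2 * (ξ₁ + ξ₂) * (α * β) * (3 - α * β * ξ₁ * ξ₂) - 4 * (α + β)) /
        (1 - α * β * ξ₁ * ξ₂) ^ 2 := by
  have hD2 : (1 - α * β * ξ₁ * ξ₂) ^ 2 ≠ 0 := pow_ne_zero 2 hD
  unfold F
  rw [eq_div_iff hD2, sub_mul, sub_mul, div_mul_cancel₀ _ hD2]
  ring

/-! ### Valuation estimates -/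

theorem F_bound (hα : v α ≤ 1) (hβ : v β ≤ 1) {ξ₁ ξ₂ : K} (h1 : v ξ₁ < 1) (h2 : v ξ₂ < 1) :
    v (F α β ξ₁ ξ₂ - 2 * ξ₁ - 2 * ξ₂) ≤ v ξ₁ * v ξ₂ := by
  have hαβ : v (α * β) ≤ 1 := by
    rw [map_mul]
    exact mul_le_one' hα hβ
  have ht : v (α * β * ξ₁ * ξ₂) < 1 := by
    have h12 : v (ξ₁ * ξ₂) < 1 := by
      rw [map_mul]
      exact lt_of_le_of_lt (mul_le_of_le_one_right' h2.le) h1
    rw [mul_assoc, map_mul]
    exact lt_of_le_of_lt (mul_le_of_le_one_left' hαβ) h12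
  have hD : v (1 - α * β * ξ₁ * ξ₂) = 1 := Valuation.map_one_sub_of_lt v ht
  have hD0 : 1 - α * β * ξ₁ * ξ₂ ≠ 0 := by
    intro h
    rw [h, map_zero] at hD
    exact zero_ne_one hD
  have hξ1 : ξ₁ ∈ v.integer := h1.le
  have hξ2 : ξ₂ ∈ v.integer := h2.le
  have hα' : α ∈ v.integer := hα
  have hβ' : β ∈ v.integer := hβ
  have hB : 2 * (ξ₁ + ξ₂) * (α * β) * (3 - α * β * ξ₁ * ξ₂) - 4 * (α + β) ∈ v.integer :=
    sub_mem
      (mul_mem (mul_mem (mul_mem (ofNat_mem _ 2) (add_mem hξ1 hξ2)) (mul_mem hα' hβ'))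
        (sub_mem (ofNat_mem _ 3) (mul_mem (mul_mem (mul_mem hα' hβ') hξ1) hξ2)))
      (mul_mem (ofNat_mem _ 4) (add_mem hα' hβ'))
  have hB' : v (2 * (ξ₁ + ξ₂) * (α * β) * (3 - α * β * ξ₁ * ξ₂) - 4 * (α + β)) ≤ 1 := hB
  rw [F_sub_eq hD0, map_div₀, map_pow, hD, one_pow, div_one, map_mul, map_mul]
  exact mul_le_of_le_one_right' hB'

/-- The `X`-coordinate of a nonzero point of `G1` is nonzero, different from the roots, and the
`Y`-coordinate is nonzero. -/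
theorem X_ne_zero {X : K} (hX : 1 < v X) : X ≠ 0 := by
  intro h
  rw [h, map_zero] at hX
  exact lt_asymm hX zero_lt_one

theorem mul_sub_ne_zero (hα : v α ≤ 1) (hβ : v β ≤ 1) {X₁ X₂ : K} (hX1 : 1 < v X₁)
    (hX2 : 1 < v X₂) : X₁ * X₂ - α * β ≠ 0 := by
  intro h
  have h1 : v (X₁ * X₂) = v (α * β) := by rw [sub_eq_zero.mp h]
  rw [map_mul, map_mul] at h1
  have h2 : v α * v β ≤ 1 := mul_le_one' hα hβ
  have h3 : 1 < v X₁ * v X₂ := one_lt_mul'' hX1 hX2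
  rw [h1] at h3
  exact not_lt_of_ge h2 h3

theorem Y_ne_zero (hα : v α ≤ 1) (hβ : v β ≤ 1) {X Y : K} (hX : 1 < v X)
    (hY : Y ^ 2 = X * (X - α) * (X - β)) : Y ≠ 0 := by
  intro h0
  rw [h0] at hY
  have h : X * (X - α) * (X - β) = 0 := by rw [← hY]; ring
  rcases mul_eq_zero.mp h with h | h
  · rcases mul_eq_zero.mp h with h | h
    · exact X_ne_zero v hX h
    · rw [sub_eq_zero.mp h] at hX
      exact not_lt_of_ge hα hX
  · rw [sub_eq_zero.mp h] at hX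
    exact not_lt_of_ge hβ hX

/-! ### The approximate parallelogram law on `G1` -/

theorem xi_add_sub (h2 : v 2 = 1) (hα : v α ≤ 1) (hβ : v β ≤ 1) {P Q : G} (hP : P ∈ M.G1 v)
    (hQ : Q ∈ M.G1 v) : xi M (P + Q) + xi M (P - Q) = F α β (xi M P) (xi M Q) := by
  by_cases hP0 : P = 0
  · rw [hP0, zero_add, zero_sub, xi_neg, xi_zero, F_zero_left]
    ring
  by_cases hQ0 : Q = 0
  · rw [hQ0, add_zero, sub_zero, xi_zero, F_zero_right]
    ring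
  obtain ⟨X₁, Y₁, h1⟩ := M.exists_coord_of_ne_zero hP0
  obtain ⟨X₂, Y₂, hc2⟩ := M.exists_coord_of_ne_zero hQ0
  have hX1 := M.one_lt_of_mem_G1 v hP h1
  have hX2 := M.one_lt_of_mem_G1 v hQ hc2
  have hX10 : X₁ ≠ 0 := X_ne_zero v hX1
  have hX20 : X₂ ≠ 0 := X_ne_zero v hX2
  rw [xi_of_coord M h1, xi_of_coord M hc2]
  by_cases hne : X₁ = X₂
  · subst hne
    have hY1 : Y₁ ≠ 0 := Y_ne_zero v hα hβ hX1 (M.equation h1)
    have h20 : (2 : K) ≠ 0 := by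
      intro h
      rw [h, map_zero] at h2
      exact zero_ne_one h2
    obtain ⟨Y₃, h3⟩ := M.exists_coord_two h20 h1 hY1
    have hT := tangent_identity hX10 (mul_sub_ne_zero v hα hβ hX1 hX1) (M.equation h1)
    rcases M.eq_or_eq_neg_of_X_eq h1 hc2 with hQP | hQP
    · rw [hQP, sub_self, xi_zero, add_zero, xi_of_coord M h3]
      exact hT
    · rw [hQP, add_neg_cancel, xi_zero, zero_add, sub_neg_eq_add, xi_of_coord M h3]
      exact hT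
  · obtain ⟨Xp, Yp, Xm, Ym, hp, hm, hsum, hprod⟩ := M.exists_coord_add_sub h1 hc2 hne
    rw [xi_of_coord M hp, xi_of_coord M hm]
    exact chord_identity hX10 hX20 hne (mul_sub_ne_zero v hα hβ hX1 hX2) hsum hprod

theorem nsmul_mem_G1 (h2 : v 2 = 1) (hα : v α ≤ 1) (hβ : v β ≤ 1) {R : G} (hR : R ∈ M.G1 v)
    (m : ℕ) : m • R ∈ M.G1 v := by
  induction m with
  | zero =>
    rw [zero_smul]
    exact M.zero_mem_G1 v
  | succ m ih =>
    rw [succ_nsmul]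
    exact M.G1_add v h2 hα hβ ih hR

/-- `ξ(m • R) ≡ m² ξ(R)` modulo `ξ(R) 𝔪`. -/
theorem val_xi_nsmul (h2 : v 2 = 1) (hα : v α ≤ 1) (hβ : v β ≤ 1) {R : G} (hR : R ∈ M.G1 v)
    (hR0 : R ≠ 0) (m : ℕ) :
    v (xi M (m • R) - (m : K) ^ 2 * xi M R) < v (xi M R) ∧
      v (xi M ((m + 1) • R) - ((m + 1 : ℕ) : K) ^ 2 * xi M R) < v (xi M R) := by
  have hpos : 0 < v (xi M R) := val_xi_pos M v hR hR0
  induction m with
  | zero =>
    constructor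
    · rw [zero_smul, xi_zero, Nat.cast_zero]
      simpa using hpos
    · rw [zero_add, one_smul, Nat.cast_one]
      simpa using hpos
  | succ m ih =>
    refine ⟨ih.2, ?_⟩
    have hP : (m + 1) • R ∈ M.G1 v := nsmul_mem_G1 M v h2 hα hβ hR (m + 1)
    have hadd : (m + 1) • R + R = (m + 1 + 1) • R := (succ_nsmul R (m + 1)).symm
    have hsub : (m + 1) • R - R = m • R := by rw [succ_nsmul, add_sub_cancel_right]
    have hF := xi_add_sub M v h2 hα hβ hP hR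
    rw [hadd, hsub] at hF
    have hE := F_bound v hα hβ (val_xi_lt_one M v hP) (val_xi_lt_one M v hR)
    have hE' : v (F α β (xi M ((m + 1) • R)) (xi M R) - 2 * xi M ((m + 1) • R) - 2 * xi M R)
        < v (xi M R) :=
      lt_of_le_of_lt hE (mul_lt_of_lt_one_left hpos (val_xi_lt_one M v hP))
    have hid : xi M ((m + 1 + 1) • R) - ((m + 1 + 1 : ℕ) : K) ^ 2 * xi M R =
        (F α β (xi M ((m + 1) • R)) (xi M R) - 2 * xi M ((m + 1) • R) - 2 * xi M R)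
          - (xi M (m • R) - (m : K) ^ 2 * xi M R)
          + 2 * (xi M ((m + 1) • R) - ((m + 1 : ℕ) : K) ^ 2 * xi M R) := by
      push_cast
      linear_combination hF
    rw [hid]
    refine Valuation.map_add_lt v (Valuation.map_sub_lt v hE' ih.1) ?_
    rw [map_mul, h2, one_mul]
    exact ih.2

end NoTorsion

namespace Model

variable {K : Type*} [Field K] {α β : K} {G : Type*} [AddCommGroup G] (M : Model K α β G)
variable {Γ₀ : Type*} [LinearOrderedCommGroupWithZero Γ₀] (v : Valuation K Γ₀)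

theorem G1_torsion_free (h2 : v 2 = 1) (hα : v α ≤ 1) (hβ : v β ≤ 1) {R : G}
    (hR : R ∈ M.G1 v) {n : ℕ} (hn : v (n : K) = 1) (hnR : n • R = 0) : R = 0 := by
  by_contra hR0
  have key := (NoTorsion.val_xi_nsmul M v h2 hα hβ hR hR0 n).1
  rw [hnR, NoTorsion.xi_zero, zero_sub, Valuation.map_neg, map_mul, map_pow, hn, one_pow,
    one_mul] at key
  exact lt_irrefl _ key

end Model

end Fermat.Agent.S05
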