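import Fermat.Agent.S05.Core.Defs
import Fermat.Agent.S05.Core.NoTorsion
import Fermat.Agent.S05.Core.Inertia

/-!
# S05 core: main theorem, good reduction case (assembly; owner helper20).

`τ Q - Q ∈ G1` by `inertia_sub_mem_G1` (+ `good_nonsing`), it is `n`-torsion, so it is `0` by
`G1_torsion_free`.
-/

set_option autoImplicit false

namespace Fermat.Agent.S05

namespace Model

variable {K : Type*} [Field K] {α β : K} {G : Type*} [AddCommGroup G] (M : Model K α β G)
variable {Γ₀ : Type*} [LinearOrderedCommGroupWithZero Γ₀] (v : Valuation K Γ₀)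

theorem main_good (h2 : v 2 = 1) (hα : v α = 1) (hβ : v β = 1) (hαβ : v (α - β) = 1)
    {n : ℕ} (hn : v (n : K) = 1)
    (σ : K ≃+* K) (hσv : ∀ x, v (σ x) = v x) (hσres : ∀ x, v x ≤ 1 → v (σ x - x) < 1)
    (τ : G →+ G) (hτ : ∀ Q, M.coord (τ Q) = (M.coord Q).map (Prod.map σ σ))
    (Q : G) (hQ : n • Q = 0) : τ Q = Q := by
  have hmem : τ Q - Q ∈ M.G1 v := by
    apply M.inertia_sub_mem_G1 v h2 hα.le hβ.le σ hσv hσres τ hτ Q
    by_cases hQ0 : Q = 0
    · left; rw [hQ0]; exact M.zero_mem_G1 v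
    · obtain ⟨X, Y, hc⟩ := M.exists_coord_of_ne_zero hQ0
      by_cases hX : v X ≤ 1
      · right
        exact ⟨X, Y, hc, hX, fun hY => good_nonsing v hα hβ hαβ (M.equation hc) hX hY⟩
      · left; exact M.mem_G1_of_coord v hc (not_le.mp hX)
  have htors : n • (τ Q - Q) = 0 := by
    rw [smul_sub, ← map_nsmul, hQ, map_zero, sub_zero]
  exact sub_eq_zero.mp (M.G1_torsion_free v h2 hα.le hβ.le hmem hn htors)

end Model

end Fermat.Agent.S05
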