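import Fermat.Agent.S05.Core.Defs

/-!
# S05 core: abstract iteration of the unordered rule.
(one worker; statement frozen)

Write `s ~ t` if `t = s * ε ^ (2k)` or `t = s⁻¹ * ε ^ (2k)` for some `k : ℤ` (an equivalence relation
on the nonzero elements of `Γ₀`).  Then `fold ε u ~ u`, `qt s t ~ s / t`, and the unordered rule gives
by two-step induction `f (m • P) ~ f P ^ m` for all `m` (use transitivity of `~` to resolve which of
`f ((m+1)•P)`, `f ((m-1)•P)` is which).  For `n • P = 0`: `1 = f 0 ~ f P ^ n`.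
-/

set_option autoImplicit false

namespace Fermat.Agent.S05

namespace Iter

/-- `E x y`: `x` equals `y` or its inverse (in the quotient of `Γ₀ˣ` by the powers of `ε ^ 2`,
this is the relation `~` of the file docstring). -/
def E {Q : Type*} [CommGroup Q] (x y : Q) : Prop := x = y ∨ x = y⁻¹

theorem E.symm {Q : Type*} [CommGroup Q] {x y : Q} (h : E x y) : E y x := by
  rcases h with h | h
  · exact Or.inl h.symm
  · exact Or.inr (by rw [h, inv_inv])

theorem E.trans {Q : Type*} [CommGroup Q] {x y z : Q} (h₁ : E x y) (h₂ : E y z) : E x z := by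
  rcases h₁ with h₁ | h₁ <;> rcases h₂ with h₂ | h₂
  · exact Or.inl (by rw [h₁, h₂])
  · exact Or.inr (by rw [h₁, h₂])
  · exact Or.inr (by rw [h₁, h₂])
  · exact Or.inl (by rw [h₁, h₂, inv_inv])

/-- One step of the two-step induction. -/
theorem abstract_step {Q : Type*} [CommGroup Q] {A x y z : Q} {m : ℕ}
    (hx : E x (A ^ (m + 1))) (hz : E z (A ^ m))
    (hUR : (E y (x * A) ∧ E z (x / A)) ∨ (E y (x / A) ∧ E z (x * A))) :
    E y (A ^ (m + 2)) := by
  have key : (E (x * A) (A ^ (m + 2)) ∧ E (x / A) (A ^ m)) ∨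
      (E (x * A) (A ^ m) ∧ E (x / A) (A ^ (m + 2))) := by
    rcases hx with hx | hx
    · left
      constructor
      · left
        rw [hx, ← pow_succ]
      · left
        rw [hx, pow_succ, mul_div_cancel_right]
    · right
      constructor
      · right
        rw [hx, pow_succ, mul_inv, inv_mul_cancel_right]
      · right
        rw [hx, inv_div_left, ← pow_succ']
  rcases hUR with ⟨h1, h2⟩ | ⟨h1, h2⟩ <;> rcases key with ⟨k1, k2⟩ | ⟨k1, k2⟩
  · exact h1.trans k1
  · exact (h1.trans k1).trans (hz.symm.trans (h2.trans k2))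
  · exact (h1.trans k2).trans (hz.symm.trans (h2.trans k1))
  · exact h1.trans k2

/-- The abstract two-step induction: `φ (m • P)` is `φ P ^ m` up to inversion. -/
theorem abstract {G Q : Type*} [AddCommGroup G] [CommGroup Q] (φ : G → Q) (h0 : φ 0 = 1)
    (hUR : ∀ P R, (E (φ (P + R)) (φ P * φ R) ∧ E (φ (P - R)) (φ P / φ R)) ∨
      (E (φ (P + R)) (φ P / φ R) ∧ E (φ (P - R)) (φ P * φ R)))
    (P : G) (m : ℕ) : E (φ (m • P)) (φ P ^ m) ∧ E (φ ((m + 1) • P)) (φ P ^ (m + 1)) := by
  induction m with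
  | zero =>
    constructor
    · left
      rw [zero_smul, h0, pow_zero]
    · left
      rw [zero_add, one_smul, pow_one]
  | succ m ih =>
    refine ⟨ih.2, ?_⟩
    have h := hUR ((m + 1) • P) P
    have e1 : (m + 1) • P + P = (m + 1 + 1) • P := by rw [succ_nsmul (M := G) P (m + 1)]
    have e2 : (m + 1) • P - P = m • P := by rw [succ_nsmul, add_sub_cancel_right]
    rw [e1, e2] at h
    exact abstract_step ih.2 ih.1 h

theorem fold_eq {Γ₀ : Type*} [LinearOrderedCommGroupWithZero Γ₀] (ε u : Γ₀) :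
    fold ε u = u ∨ fold ε u = ε ^ 2 / u := by
  unfold fold
  split_ifs
  · exact Or.inl rfl
  · exact Or.inr rfl

theorem qt_eq {Γ₀ : Type*} [LinearOrderedCommGroupWithZero Γ₀] (s t : Γ₀) :
    qt s t = s / t ∨ qt s t = t / s := by
  unfold qt
  exact min_choice _ _

end Iter

theorem iter {Γ₀ : Type*} [LinearOrderedCommGroupWithZero Γ₀] {G : Type*} [AddCommGroup G]
    (ε : Γ₀) (hε0 : 0 < ε) (hε1 : ε < 1) (f : G → Γ₀) (hf0 : f 0 = 1)
    (hfI : ∀ P, ε ≤ f P ∧ f P ≤ 1)
    (hUR : ∀ P Q, (f (P + Q) = fold ε (f P * f Q) ∧ f (P - Q) = qt (f P) (f Q)) ∨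
      (f (P + Q) = qt (f P) (f Q) ∧ f (P - Q) = fold ε (f P * f Q)))
    (P : G) (n : ℕ) (hn : n • P = 0) : ∃ k : ℤ, f P ^ n = ε ^ (2 * k) := by
  have _ := hε1
  have hε : ε ≠ 0 := hε0.ne'
  have hne : ∀ R, f R ≠ 0 := fun R => (lt_of_lt_of_le hε0 (hfI R).1).ne'
  let e : Γ₀ˣ := Units.mk0 ε hε
  let g : G → Γ₀ˣ := fun R => Units.mk0 (f R) (hne R)
  let N : Subgroup Γ₀ˣ := Subgroup.zpowers (e ^ 2)
  let π : Γ₀ˣ →* Γ₀ˣ ⧸ N := QuotientGroup.mk' N
  have hπe : π (e ^ 2) = 1 := (QuotientGroup.eq_one_iff _).mpr (Subgroup.mem_zpowers _)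
  have hfold : ∀ R P Q, f R = fold ε (f P * f Q) → Iter.E (π (g R)) (π (g P) * π (g Q)) := by
    intro R P Q h
    rcases Iter.fold_eq ε (f P * f Q) with h' | h'
    · left
      rw [← map_mul]
      congr 1
      apply Units.ext
      simp only [g, Units.val_mk0, Units.val_mul]
      rw [h, h']
    · right
      have hR : g R = e ^ 2 / (g P * g Q) := by
        apply Units.ext
        simp only [g, e, Units.val_mk0, Units.val_mul, Units.val_div_eq_div_val,
          Units.val_pow_eq_pow_val]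
        rw [h, h']
      rw [hR, map_div, hπe, one_div, map_mul]
  have hqt : ∀ R P Q, f R = qt (f P) (f Q) → Iter.E (π (g R)) (π (g P) / π (g Q)) := by
    intro R P Q h
    rcases Iter.qt_eq (f P) (f Q) with h' | h'
    · left
      rw [← map_div]
      congr 1
      apply Units.ext
      simp only [g, Units.val_mk0, Units.val_div_eq_div_val]
      rw [h, h']
    · right
      rw [inv_div, ← map_div]
      congr 1
      apply Units.ext
      simp only [g, Units.val_mk0, Units.val_div_eq_div_val]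
      rw [h, h']
  have h0 : π (g 0) = 1 := by
    have h1 : g 0 = 1 := by
      apply Units.ext
      simp only [g, Units.val_mk0, Units.val_one]
      exact hf0
    rw [h1, map_one]
  have hUR' : ∀ P R,
      (Iter.E (π (g (P + R))) (π (g P) * π (g R)) ∧ Iter.E (π (g (P - R))) (π (g P) / π (g R))) ∨
      (Iter.E (π (g (P + R))) (π (g P) / π (g R)) ∧ Iter.E (π (g (P - R))) (π (g P) * π (g R))) := by
    intro P R
    rcases hUR P R with ⟨h1, h2⟩ | ⟨h1, h2⟩
    · exact Or.inl ⟨hfold _ _ _ h1, hqt _ _ _ h2⟩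
    · exact Or.inr ⟨hqt _ _ _ h1, hfold _ _ _ h2⟩
  have hmain : Iter.E (π (g (n • P))) (π (g P) ^ n) :=
    (Iter.abstract (fun R => π (g R)) h0 hUR' P n).1
  rw [hn, h0] at hmain
  have h1 : π (g P) ^ n = 1 := by
    rcases hmain with h | h
    · exact h.symm
    · exact inv_eq_one.mp h.symm
  rw [← map_pow] at h1
  have h2 : g P ^ n ∈ N := (QuotientGroup.eq_one_iff _).mp h1
  obtain ⟨k, hk⟩ := Subgroup.mem_zpowers_iff.mp h2
  refine ⟨k, ?_⟩
  have h3 := congrArg Units.val hk
  simp only [g, e, Units.val_zpow_eq_zpow_val, Units.val_pow_eq_pow_val, Units.val_mk0] at h3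
  rw [← h3, zpow_mul, zpow_ofNat]

end Fermat.Agent.S05
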