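import Fermat.Agent.S05.Core.Defs

/-!
# S05 core: field-level duplication rule (multiplicative case).
(one worker; statement frozen)

`r = (X² - αβ)² / (4Y²)` is the `X`-coordinate of `2P` for `P = (X, Y)`, `Y² = X (X-α)(X-β)`, `Y ≠ 0`.
In additive notation (`w = -log v`, `N = w(α) > 0`, `i = w(X)`, `s = clip i`): `clip w(r) = 2s` if
`2s ≤ N`, `2N - 2s` otherwise.  Cases: `i < 0`: `w(r) = i`;  `i = 0`: `w(r) ≤ 0`;
`0 < i < N`: `w(Y²) = 2i`, `w(r) = 2 min(2i, N) - 2i` (`≥ N` if `2i = N`);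
`i = N`: `w(r) = N - w(X - α) ≤ 0`;  `i > N`: `w(r) = N - i < 0`.
-/

set_option autoImplicit false

namespace Fermat.Agent.S05

namespace Dbl

section Gamma
variable {Γ₀ : Type*} [LinearOrderedCommGroupWithZero Γ₀]

theorem clip_of_one_le {ε u : Γ₀} (hε : ε ≤ 1) (h : 1 ≤ u) : clip ε u = 1 := by
  unfold clip
  rw [min_eq_left h, max_eq_right hε]

theorem clip_of_le_of_le {ε u : Γ₀} (h1 : ε ≤ u) (h2 : u ≤ 1) : clip ε u = u := by
  unfold clip
  rw [min_eq_right h2, max_eq_right h1]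

theorem clip_of_le {ε u : Γ₀} (hε : ε ≤ 1) (h : u ≤ ε) : clip ε u = ε := by
  unfold clip
  rw [min_eq_right (h.trans hε), max_eq_left h]

theorem fold_of_le {ε u : Γ₀} (h : ε ≤ u) : fold ε u = u := by
  unfold fold
  rw [if_pos h]

theorem fold_of_lt {ε u : Γ₀} (h : u < ε) : fold ε u = ε ^ 2 / u := by
  unfold fold
  rw [if_neg (not_le.mpr h)]

/-- `x > 1`. -/
theorem case1 {ε x : Γ₀} (hε : ε < 1) (hx : 1 < x) :
    clip ε ((x ^ 2) ^ 2 / (x * x * x)) = fold ε (clip ε x * clip ε x) := by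
  have hx0 : x ≠ 0 := (zero_lt_one.trans hx).ne'
  have h1 : (x ^ 2) ^ 2 / (x * x * x) = x := by field_simp
  rw [h1, clip_of_one_le hε.le hx.le, mul_one, fold_of_le hε.le]

/-- `x = 1`. -/
theorem case2 {ε b : Γ₀} (hε : ε < 1) (hb0 : 0 < b) (hb : b ≤ 1) :
    clip ε ((1 : Γ₀) ^ 2 / (1 * 1 * b)) = fold ε (clip ε 1 * clip ε 1) := by
  have h1 : (1 : Γ₀) ≤ (1 : Γ₀) ^ 2 / (1 * 1 * b) := by
    rw [one_pow, one_mul, one_mul, le_div_iff₀ hb0, one_mul]
    exact hb
  rw [clip_of_one_le hε.le h1, clip_of_one_le hε.le le_rfl, mul_one, fold_of_le hε.le]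

/-- `ε < x < 1`, `ε < x ^ 2`. -/
theorem case3a {ε x : Γ₀} (hεx : ε < x) (hx : x < 1) (h : ε < x ^ 2) :
    clip ε ((x ^ 2) ^ 2 / (x * x * 1)) = fold ε (clip ε x * clip ε x) := by
  have hx0 : x ≠ 0 := (lt_of_le_of_lt zero_le hεx).ne'
  have h1 : (x ^ 2) ^ 2 / (x * x * 1) = x * x := by field_simp
  have h2 : x * x ≤ 1 := by
    calc x * x ≤ 1 * 1 := mul_le_mul' hx.le hx.le
      _ = 1 := one_mul 1
  have h3 : ε ≤ x * x := by rw [← pow_two]; exact h.le
  rw [h1, clip_of_le_of_le hεx.le hx.le, clip_of_le_of_le h3 h2, fold_of_le h3]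

/-- `ε < x < 1`, `x ^ 2 < ε`. -/
theorem case3b {ε x : Γ₀} (hεx : ε < x) (hx : x < 1) (h : x ^ 2 < ε) :
    clip ε (ε ^ 2 / (x * x * 1)) = fold ε (clip ε x * clip ε x) := by
  have hx0 : 0 < x := lt_of_le_of_lt zero_le hεx
  have hxx : 0 < x * x := mul_pos hx0 hx0
  have h3 : x * x < ε := by rw [← pow_two]; exact h
  have h4 : ε ≤ ε ^ 2 / (x * x) := by
    rw [le_div_iff₀ hxx, pow_two]
    exact mul_le_mul' le_rfl h3.le
  have h5 : ε ^ 2 / (x * x) ≤ 1 := by
    rw [div_le_one₀ hxx, pow_two]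
    exact mul_le_mul' hεx.le hεx.le
  rw [mul_one, clip_of_le_of_le hεx.le hx.le, clip_of_le_of_le h4 h5, fold_of_lt h3]

/-- `ε < x < 1`, `x ^ 2 = ε`. -/
theorem case3c {ε x n : Γ₀} (hεx : ε < x) (hx : x < 1) (h : x ^ 2 = ε) (hn : n ≤ ε) :
    clip ε (n ^ 2 / (x * x * 1)) = fold ε (clip ε x * clip ε x) := by
  have hx0 : 0 < x := lt_of_le_of_lt zero_le hεx
  have hxx : 0 < x * x := mul_pos hx0 hx0
  have h3 : x * x = ε := by rw [← pow_two]; exact h
  have h4 : n ^ 2 / (x * x) ≤ ε := by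
    rw [div_le_iff₀ hxx, pow_two, h3]
    exact mul_le_mul' hn hn
  rw [mul_one, clip_of_le_of_le hεx.le hx.le, clip_of_le (hεx.le.trans hx.le) h4, h3,
    fold_of_le le_rfl]

/-- `ε * ε < ε`. -/
theorem mul_self_lt {ε : Γ₀} (hε0 : 0 < ε) (hε : ε < 1) : ε * ε < ε := by
  calc ε * ε < ε * 1 := by
        rw [mul_lt_mul_iff_right₀ hε0]
        exact hε
    _ = ε := mul_one ε

theorem fold_mul_self {ε : Γ₀} (hε0 : 0 < ε) (hε : ε < 1) : fold ε (ε * ε) = 1 := by
  rw [fold_of_lt (mul_self_lt hε0 hε), pow_two, div_self (mul_pos hε0 hε0).ne']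

/-- `x = ε`. -/
theorem case4 {ε a : Γ₀} (hε0 : 0 < ε) (hε : ε < 1) (ha0 : 0 < a) (ha : a ≤ ε) :
    clip ε (ε ^ 2 / (ε * a * 1)) = fold ε (clip ε ε * clip ε ε) := by
  have h1 : (1 : Γ₀) ≤ ε ^ 2 / (ε * a * 1) := by
    rw [mul_one, le_div_iff₀ (mul_pos hε0 ha0), one_mul, pow_two]
    exact mul_le_mul' le_rfl ha
  rw [clip_of_one_le hε.le h1, clip_of_le_of_le le_rfl hε.le, fold_mul_self hε0 hε]

/-- `x < ε`. -/
theorem case5 {ε x : Γ₀} (hε0 : 0 < ε) (hε : ε < 1) (hx0 : 0 < x) (hx : x < ε) :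
    clip ε (ε ^ 2 / (x * ε * 1)) = fold ε (clip ε x * clip ε x) := by
  have h1 : (1 : Γ₀) ≤ ε ^ 2 / (x * ε * 1) := by
    rw [mul_one, le_div_iff₀ (mul_pos hx0 hε0), one_mul, pow_two]
    exact mul_le_mul' hx.le le_rfl
  rw [clip_of_one_le hε.le h1, clip_of_le hε.le hx.le, fold_mul_self hε0 hε]

end Gamma

section Field
variable {K : Type*} [Field K] {Γ₀ : Type*} [LinearOrderedCommGroupWithZero Γ₀]

/-- The valuation of `r = (X² - αβ)² / (4Y²)` in terms of the valuations of the factors. -/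
theorem map_r (v : Valuation K Γ₀) {α β X Y : K} (h2 : v 2 = 1)
    (heq : Y ^ 2 = X * (X - α) * (X - β)) :
    v ((X ^ 2 - α * β) ^ 2 / (4 * Y ^ 2)) =
      v (X ^ 2 - α * β) ^ 2 / (v X * v (X - α) * v (X - β)) := by
  have h4 : v 4 = 1 := by
    rw [show (4 : K) = 2 * 2 by norm_num, map_mul, h2, one_mul]
  rw [map_div₀, map_pow, map_mul, h4, one_mul, heq, map_mul, map_mul]

end Field

end Dbl

variable {K : Type*} [Field K] {Γ₀ : Type*} [LinearOrderedCommGroupWithZero Γ₀]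

theorem dbl_field (v : Valuation K Γ₀) {α β X Y : K} (h2 : v 2 = 1) (hα0 : α ≠ 0)
    (hα : v α < 1) (hβ : v β = 1) (heq : Y ^ 2 = X * (X - α) * (X - β)) (hY : Y ≠ 0) :
    clip (v α) (v ((X ^ 2 - α * β) ^ 2 / (4 * Y ^ 2))) =
      fold (v α) (clip (v α) (v X) * clip (v α) (v X)) := by
  have hX0 : X ≠ 0 := by
    intro h
    apply hY
    rw [h] at heq
    simpa using heq
  have hXα : X - α ≠ 0 := by
    intro h
    apply hY
    rw [h] at heq
    simpa using heq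
  have hXβ : X - β ≠ 0 := by
    intro h
    apply hY
    rw [h] at heq
    simpa using heq
  have hε0 : 0 < v α := zero_lt_iff.mpr ((Valuation.ne_zero_iff v).mpr hα0)
  have hx0 : 0 < v X := zero_lt_iff.mpr ((Valuation.ne_zero_iff v).mpr hX0)
  have ha0 : 0 < v (X - α) := zero_lt_iff.mpr ((Valuation.ne_zero_iff v).mpr hXα)
  have hb0 : 0 < v (X - β) := zero_lt_iff.mpr ((Valuation.ne_zero_iff v).mpr hXβ)
  have hαβ : v (α * β) = v α := by rw [map_mul, hβ, mul_one]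
  have hX2 : v (X ^ 2) = v X ^ 2 := map_pow v X 2
  rw [Dbl.map_r v h2 heq]
  rcases lt_trichotomy (v X) 1 with hx1 | hx1 | hx1
  · -- `v X < 1`, so `v (X - β) = 1`
    have hb : v (X - β) = 1 := by
      rw [Valuation.map_sub_eq_of_lt_right v (by rw [hβ]; exact hx1), hβ]
    have hX2lt : v X ^ 2 < v X := by
      rw [pow_two]
      exact Dbl.mul_self_lt hx0 hx1
    rcases lt_trichotomy (v X) (v α) with hxε | hxε | hxε
    · -- `v X < v α`
      have ha : v (X - α) = v α := Valuation.map_sub_eq_of_lt_right v hxε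
      have hn : v (X ^ 2 - α * β) = v α := by
        rw [Valuation.map_sub_eq_of_lt_right v (by rw [hαβ, hX2]; exact hX2lt.trans hxε), hαβ]
      rw [hn, ha, hb]
      exact Dbl.case5 hε0 hα hx0 hxε
    · -- `v X = v α`
      have ha : v (X - α) ≤ v α := Valuation.map_sub_le v hxε.le le_rfl
      have hn : v (X ^ 2 - α * β) = v α := by
        rw [Valuation.map_sub_eq_of_lt_right v (by rw [hαβ, hX2, ← hxε]; exact hX2lt), hαβ]
      rw [hn, hb, hxε]
      exact Dbl.case4 hε0 hα ha0 ha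
    · -- `v α < v X < 1`
      have ha : v (X - α) = v X := Valuation.map_sub_eq_of_lt_left v hxε
      rw [ha, hb]
      rcases lt_trichotomy (v X ^ 2) (v α) with h | h | h
      · have hn : v (X ^ 2 - α * β) = v α := by
          rw [Valuation.map_sub_eq_of_lt_right v (by rw [hαβ, hX2]; exact h), hαβ]
        rw [hn]
        exact Dbl.case3b hxε hx1 h
      · have hn : v (X ^ 2 - α * β) ≤ v α :=
          Valuation.map_sub_le v (by rw [hX2, h]) (by rw [hαβ])
        exact Dbl.case3c hxε hx1 h hn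
      · have hn : v (X ^ 2 - α * β) = v X ^ 2 := by
          rw [Valuation.map_sub_eq_of_lt_left v (by rw [hαβ, hX2]; exact h), hX2]
        rw [hn]
        exact Dbl.case3a hxε hx1 h
  · -- `v X = 1`
    have ha : v (X - α) = 1 := by
      rw [Valuation.map_sub_eq_of_lt_left v (by rw [hx1]; exact hα), hx1]
    have hb : v (X - β) ≤ 1 := Valuation.map_sub_le v hx1.le hβ.le
    have hn : v (X ^ 2 - α * β) = 1 := by
      rw [Valuation.map_sub_eq_of_lt_left v (by rw [hαβ, hX2, hx1, one_pow]; exact hα), hX2, hx1,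
        one_pow]
    rw [hn, ha, hx1]
    exact Dbl.case2 hα hb0 hb
  · -- `1 < v X`
    have ha : v (X - α) = v X := Valuation.map_sub_eq_of_lt_left v (hα.trans hx1)
    have hb : v (X - β) = v X := Valuation.map_sub_eq_of_lt_left v (by rw [hβ]; exact hx1)
    have h1 : 1 < v X ^ 2 := by
      calc (1 : Γ₀) < v X := hx1
        _ = v X * 1 := (mul_one _).symm
        _ ≤ v X * v X := mul_le_mul' le_rfl hx1.le
        _ = v X ^ 2 := (pow_two _).symm
    have hn : v (X ^ 2 - α * β) = v X ^ 2 := by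
      rw [Valuation.map_sub_eq_of_lt_left v (by rw [hαβ, hX2]; exact hα.trans h1), hX2]
    rw [hn, ha, hb]
    exact Dbl.case1 hα hx1

end Fermat.Agent.S05
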