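import Fermat.Agent.S05.Core.Defs

/-!
# S05 core: Newton polygon of a quadratic (valuations of two numbers with given sum and product).
(one worker; statement frozen)

If `v r₁ ≠ v r₂`, say `v r₁ > v r₂`, then `v S = v r₁` and `v T = v r₁ * v r₂ < (v S)²`
(`S` = sum, `T` = product).
-/

set_option autoImplicit false

namespace Fermat.Agent.S05

variable {K : Type*} [Field K] {Γ₀ : Type*} [LinearOrderedCommGroupWithZero Γ₀]

namespace Newton

/-- In a linearly ordered commutative group with zero, `a < b` implies `a * b < b ^ 2`. -/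
theorem mul_lt_sq {a b : Γ₀} (h : a < b) : a * b < b ^ 2 := by
  have hb : 0 < b := lt_of_le_of_lt zero_le h
  rw [sq]
  exact mul_lt_mul_of_pos_right h hb

/-- In a linearly ordered commutative group with zero, `a ≤ b` implies `a ^ 2 ≤ b ^ 2`. -/
theorem sq_le_sq_of_le {a b : Γ₀} (h : a ≤ b) : a ^ 2 ≤ b ^ 2 :=
  pow_le_pow_left₀ zero_le h 2

/-- The dominant case: if `v r₂ < v r₁` then `v (r₁ + r₂) = v r₁` and the product has strictly
smaller valuation than the square of the sum. -/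
theorem of_lt (v : Valuation K Γ₀) {r₁ r₂ : K} (h : v r₂ < v r₁) :
    v (r₁ + r₂) = v r₁ ∧ v (r₁ * r₂) < v (r₁ + r₂) ^ 2 := by
  have hS : v (r₁ + r₂) = v r₁ := Valuation.map_add_eq_of_lt_left v h
  refine ⟨hS, ?_⟩
  rw [hS, map_mul, mul_comm]
  exact mul_lt_sq h

/-- The balanced case: if `v r₁ = v r₂` then the square of the sum has valuation at most that of
the product. -/
theorem of_eq (v : Valuation K Γ₀) {r₁ r₂ : K} (h : v r₁ = v r₂) :
    v (r₁ + r₂) ^ 2 ≤ v (r₁ * r₂) := by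
  have hS : v (r₁ + r₂) ≤ v r₁ := by
    have h1 := v.map_add r₁ r₂
    rwa [← h, max_self] at h1
  calc v (r₁ + r₂) ^ 2 ≤ v r₁ ^ 2 := sq_le_sq_of_le hS
    _ = v (r₁ * r₂) := by rw [map_mul, ← h, sq]

end Newton

theorem newton_two_roots (v : Valuation K Γ₀) {r₁ r₂ S T : K} (hs : r₁ + r₂ = S)
    (hp : r₁ * r₂ = T) :
    (v T < v S ^ 2 →
      (v r₁ = v S ∧ v r₂ * v S = v T) ∨ (v r₂ = v S ∧ v r₁ * v S = v T)) ∧
    (v S ^ 2 ≤ v T → v r₁ = v r₂ ∧ v r₁ ^ 2 = v T) := by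
  subst hs hp
  rcases lt_trichotomy (v r₁) (v r₂) with h | h | h
  · -- `v r₁ < v r₂`: the second root dominates
    have h' : v (r₂ + r₁) = v r₂ ∧ v (r₂ * r₁) < v (r₂ + r₁) ^ 2 := Newton.of_lt v h
    rw [add_comm r₂ r₁, mul_comm r₂ r₁] at h'
    obtain ⟨hS, hlt⟩ := h'
    refine ⟨fun _ => Or.inr ⟨hS.symm, ?_⟩, fun hle => absurd hle (not_le.mpr hlt)⟩
    rw [hS, map_mul]
  · -- `v r₁ = v r₂`: balanced
    have hle := Newton.of_eq v h
    refine ⟨fun hlt => absurd hle (not_le.mpr hlt), fun _ => ⟨h, ?_⟩⟩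
    rw [map_mul, ← h, sq]
  · -- `v r₂ < v r₁`: the first root dominates
    obtain ⟨hS, hlt⟩ := Newton.of_lt v h
    refine ⟨fun _ => Or.inl ⟨hS.symm, ?_⟩, fun hle => absurd hle (not_le.mpr hlt)⟩
    rw [hS, map_mul, mul_comm]

end Fermat.Agent.S05
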