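import Fermat.Agent.S05.Core.Defs
import Fermat.Agent.S05.Core.Newton

/-!
# S05 core: field-level unordered rule, case family A (`v α < v X₁ * v X₂`, i.e. `i + j < N`, with `i < j`).
(one worker; statements frozen)

Setting (`URHyp`): `v 2 = 1`, `α ≠ 0`, `ε := v α < 1`, `v β = 1` (so `v (α+β) = 1`, `v (α β) = ε`),
`X₁ ≠ X₂`, and `r₁ + r₂ = S`, `r₁ r₂ = Π` with
`S = 2[(X₁+X₂)(X₁X₂+αβ) - 2(α+β)X₁X₂]/(X₁-X₂)²`, `Π = (X₁X₂-αβ)²/(X₁-X₂)²`.
Method: compute `v Π` and `v S` (exactly, or a bound) from `a = v X₁`, `b = v X₂` by the ultrametric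
inequality, then get `v r₁, v r₂` from `newton_two_roots` (Core/Newton.lean), then clip.
In ADDITIVE notation `w = -log v`, `N = w(α) > 0`, `i = w(X₁)`, `j = w(X₂)` (so `v X₂ < v X₁` means
`i < j`), `clip` = clipping of `w` to `[0, N]`, the claim is
`{clip w(r₁), clip w(r₂)} = {|s - t|, s + t if s + t ≤ N else 2N - s - t}`, `s = clip i`, `t = clip j`.
Family A: `w(Π) = 2j`.
* A1 (`0 < i`): `w(S) = j - i`, so `{w r₁, w r₂} = {j - i, j + i}` (here `0 < i < j`, `i + j < N`).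
* A2 (`i = 0`): `w(S) ≥ j`, so both roots have `w = j`; clipped: both `t`.
* A3 (`i < 0`): `w(S) = j`, both roots have `w = j`.
-/

set_option autoImplicit false

namespace Fermat.Agent.S05

variable {K : Type*} [Field K] {Γ₀ : Type*} [LinearOrderedCommGroupWithZero Γ₀]
variable {v : Valuation K Γ₀} {α β X₁ X₂ r₁ r₂ : K}

namespace URA

/-! ### Elementary facts on `clip`, `fold`, `qt` -/

theorem clip_eq_self {ε u : Γ₀} (h1 : ε ≤ u) (h2 : u ≤ 1) : clip ε u = u := by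
  unfold clip
  rw [min_eq_right h2, max_eq_right h1]

theorem clip_of_one_le {ε u : Γ₀} (hε : ε ≤ 1) (h : 1 ≤ u) : clip ε u = 1 := by
  unfold clip
  rw [min_eq_left h, max_eq_right hε]

theorem le_clip (ε u : Γ₀) : ε ≤ clip ε u := le_max_left _ _

theorem clip_le_one {ε : Γ₀} (hε : ε ≤ 1) (u : Γ₀) : clip ε u ≤ 1 :=
  max_le hε (min_le_left _ _)

theorem fold_eq_self {ε u : Γ₀} (h : ε ≤ u) : fold ε u = u := if_pos h

/-- `qt s t = t / s` for `0 < t ≤ s`. -/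
theorem qt_eq_div {s t : Γ₀} (ht : 0 < t) (h : t ≤ s) : qt s t = t / s := by
  unfold qt
  apply min_eq_right
  exact ((div_le_one₀ (ht.trans_le h)).mpr h).trans ((one_le_div₀ ht).mpr h)

/-- `qt 1 t = t` for `0 < t ≤ 1`. -/
theorem qt_one_left {t : Γ₀} (ht : 0 < t) (h : t ≤ 1) : qt 1 t = t := by
  rw [qt_eq_div ht h, div_one]

/-! ### Valuations of the ingredients (family A: `v X₂ < v X₁`, `v α < v X₁ * v X₂`) -/

theorem eps_pos (H : URHyp v α β X₁ X₂ r₁ r₂) : 0 < v α := v.pos_iff.mpr H.hα0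

theorem val_alpha_mul_beta (H : URHyp v α β X₁ X₂ r₁ r₂) : v (α * β) = v α := by
  rw [map_mul, H.hβ, mul_one]

theorem val_alpha_add_beta (H : URHyp v α β X₁ X₂ r₁ r₂) : v (α + β) = 1 := by
  have h : v α < v β := by
    rw [H.hβ]
    exact H.hα
  rw [Valuation.map_add_eq_of_lt_right v h, H.hβ]

theorem prod_pos (hA : v α < v X₁ * v X₂) : 0 < v X₁ * v X₂ := lt_of_le_of_lt zero_le hA

theorem a_pos (hA : v α < v X₁ * v X₂) : 0 < v X₁ :=
  zero_lt_iff.mpr (left_ne_zero_of_mul (prod_pos hA).ne')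

theorem b_pos (hA : v α < v X₁ * v X₂) : 0 < v X₂ :=
  zero_lt_iff.mpr (right_ne_zero_of_mul (prod_pos hA).ne')

theorem val_sub (hlt : v X₂ < v X₁) : v (X₁ - X₂) = v X₁ :=
  Valuation.map_sub_eq_of_lt_left v hlt

theorem val_add (hlt : v X₂ < v X₁) : v (X₁ + X₂) = v X₁ :=
  Valuation.map_add_eq_of_lt_left v hlt

theorem val_prod_sub (H : URHyp v α β X₁ X₂ r₁ r₂) (hA : v α < v X₁ * v X₂) :
    v (X₁ * X₂ - α * β) = v X₁ * v X₂ := by
  have h : v (α * β) < v (X₁ * X₂) := by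
    rw [val_alpha_mul_beta H, map_mul]
    exact hA
  rw [Valuation.map_sub_eq_of_lt_left v h, map_mul]

theorem val_prod_add (H : URHyp v α β X₁ X₂ r₁ r₂) (hA : v α < v X₁ * v X₂) :
    v (X₁ * X₂ + α * β) = v X₁ * v X₂ := by
  have h : v (α * β) < v (X₁ * X₂) := by
    rw [val_alpha_mul_beta H, map_mul]
    exact hA
  rw [Valuation.map_add_eq_of_lt_left v h, map_mul]

/-- `v Π = (v X₂)²`. -/
theorem val_Pi (H : URHyp v α β X₁ X₂ r₁ r₂) (hlt : v X₂ < v X₁) (hA : v α < v X₁ * v X₂) :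
    v ((X₁ * X₂ - α * β) ^ 2 / (X₁ - X₂) ^ 2) = v X₂ ^ 2 := by
  rw [map_div₀, map_pow, map_pow, val_prod_sub H hA, val_sub hlt, mul_pow, mul_comm,
    mul_div_assoc, div_self (pow_ne_zero 2 (a_pos hA).ne'), mul_one]

/-- The valuation of the first term of the numerator of `S`. -/
theorem val_num_fst (H : URHyp v α β X₁ X₂ r₁ r₂) (hlt : v X₂ < v X₁)
    (hA : v α < v X₁ * v X₂) :
    v ((X₁ + X₂) * (X₁ * X₂ + α * β)) = v X₁ * (v X₁ * v X₂) := by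
  rw [map_mul, val_add hlt, val_prod_add H hA]

/-- The valuation of the second term of the numerator of `S`. -/
theorem val_num_snd (H : URHyp v α β X₁ X₂ r₁ r₂) :
    v (2 * (α + β) * X₁ * X₂) = v X₁ * v X₂ := by
  rw [map_mul, map_mul, map_mul, H.h2, val_alpha_add_beta H, one_mul, one_mul]

/-- `v S = v (numerator) / (v X₁)²`. -/
theorem val_S (H : URHyp v α β X₁ X₂ r₁ r₂) (hlt : v X₂ < v X₁) :
    v (2 * ((X₁ + X₂) * (X₁ * X₂ + α * β) - 2 * (α + β) * X₁ * X₂) / (X₁ - X₂) ^ 2)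
      = v ((X₁ + X₂) * (X₁ * X₂ + α * β) - 2 * (α + β) * X₁ * X₂) / v X₁ ^ 2 := by
  rw [map_div₀, map_mul, H.h2, one_mul, map_pow, val_sub hlt]

/-! ### Case `v X₁ < 1` -/

/-- In case A1 the numerator of `S` has valuation `v X₁ * v X₂`. -/
theorem val_num_A1 (H : URHyp v α β X₁ X₂ r₁ r₂) (hlt : v X₂ < v X₁)
    (hA : v α < v X₁ * v X₂) (h1 : v X₁ < 1) :
    v ((X₁ + X₂) * (X₁ * X₂ + α * β) - 2 * (α + β) * X₁ * X₂) = v X₁ * v X₂ := by
  have h : v ((X₁ + X₂) * (X₁ * X₂ + α * β)) < v (2 * (α + β) * X₁ * X₂) := by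
    rw [val_num_fst H hlt hA, val_num_snd H]
    exact mul_lt_of_lt_one_left (prod_pos hA) h1
  rw [Valuation.map_sub_eq_of_lt_right v h, val_num_snd H]

/-- In case A1, `v S = v X₂ / v X₁`. -/
theorem val_S_A1 (H : URHyp v α β X₁ X₂ r₁ r₂) (hlt : v X₂ < v X₁)
    (hA : v α < v X₁ * v X₂) (h1 : v X₁ < 1) :
    v (r₁ + r₂) = v X₂ / v X₁ := by
  have ha := a_pos hA
  rw [H.hsum, val_S H hlt, val_num_A1 H hlt hA h1, pow_two, mul_comm (v X₁) (v X₂),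
    mul_div_mul_right _ _ ha.ne']

/-- In case A1 the valuations of the two roots are `v X₂ / v X₁` and `v X₁ * v X₂`. -/
theorem roots_A1 (H : URHyp v α β X₁ X₂ r₁ r₂) (hlt : v X₂ < v X₁)
    (hA : v α < v X₁ * v X₂) (h1 : v X₁ < 1) :
    (v r₁ = v X₂ / v X₁ ∧ v r₂ = v X₁ * v X₂) ∨ (v r₂ = v X₂ / v X₁ ∧ v r₁ = v X₁ * v X₂) := by
  have ha := a_pos hA
  have hb := b_pos hA
  have hS := val_S_A1 H hlt hA h1
  have hP : v (r₁ * r₂) = v X₂ ^ 2 := by rw [H.hprod, val_Pi H hlt hA]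
  have hq : v X₂ / v X₁ ≠ 0 := div_ne_zero hb.ne' ha.ne'
  have hlt' : v (r₁ * r₂) < v (r₁ + r₂) ^ 2 := by
    rw [hP, hS]
    apply pow_lt_pow_left₀ _ zero_le two_ne_zero
    rw [lt_div_iff₀ ha]
    exact mul_lt_of_lt_one_right hb h1
  have key : v X₁ * v X₂ * (v X₂ / v X₁) = v X₂ ^ 2 := by
    rw [mul_comm (v X₁) (v X₂), mul_assoc, mul_div_cancel₀ _ ha.ne', pow_two]
  rcases (newton_two_roots v rfl rfl).1 hlt' with ⟨h, h'⟩ | ⟨h, h'⟩
  · left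
    refine ⟨h.trans hS, ?_⟩
    rw [hS, hP, ← key] at h'
    exact mul_right_cancel₀ hq h'
  · right
    refine ⟨h.trans hS, ?_⟩
    rw [hS, hP, ← key] at h'
    exact mul_right_cancel₀ hq h'

/-! ### Case `1 ≤ v X₁` -/

/-- For `1 ≤ v X₁` the numerator of `S` has valuation at most `v X₂ * (v X₁)²`. -/
theorem val_num_le (H : URHyp v α β X₁ X₂ r₁ r₂) (hlt : v X₂ < v X₁)
    (hA : v α < v X₁ * v X₂) (h1 : 1 ≤ v X₁) :
    v ((X₁ + X₂) * (X₁ * X₂ + α * β) - 2 * (α + β) * X₁ * X₂) ≤ v X₂ * v X₁ ^ 2 := by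
  have e : v X₂ * v X₁ ^ 2 = v X₁ * (v X₁ * v X₂) := by
    rw [pow_two, mul_comm, mul_assoc]
  apply Valuation.map_sub_le
  · rw [val_num_fst H hlt hA, e]
  · rw [val_num_snd H, e]
    exact le_mul_of_one_le_left zero_le h1

/-- For `1 ≤ v X₁`, `v S ≤ v X₂`. -/
theorem val_S_le (H : URHyp v α β X₁ X₂ r₁ r₂) (hlt : v X₂ < v X₁)
    (hA : v α < v X₁ * v X₂) (h1 : 1 ≤ v X₁) :
    v (r₁ + r₂) ≤ v X₂ := by
  have ha := a_pos hA
  rw [H.hsum, val_S H hlt, div_le_iff₀ (pow_pos ha 2)]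
  exact val_num_le H hlt hA h1

/-- For `1 ≤ v X₁` both roots have valuation `v X₂`. -/
theorem roots_of_one_le (H : URHyp v α β X₁ X₂ r₁ r₂) (hlt : v X₂ < v X₁)
    (hA : v α < v X₁ * v X₂) (h1 : 1 ≤ v X₁) :
    v r₁ = v X₂ ∧ v r₂ = v X₂ := by
  have hP : v (r₁ * r₂) = v X₂ ^ 2 := by rw [H.hprod, val_Pi H hlt hA]
  have hle : v (r₁ + r₂) ^ 2 ≤ v (r₁ * r₂) := by
    rw [hP]
    exact pow_le_pow_left₀ zero_le (val_S_le H hlt hA h1) 2
  obtain ⟨h, h'⟩ := (newton_two_roots v rfl rfl).2 hle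
  have h1' : v r₁ = v X₂ := by
    rw [hP] at h'
    exact (pow_left_inj₀ zero_le zero_le two_ne_zero).mp h'
  exact ⟨h1', h.symm.trans h1'⟩

/-- The conclusion of the unordered rule when `1 ≤ v X₁` (cases A2 and A3). -/
theorem concl_of_one_le (H : URHyp v α β X₁ X₂ r₁ r₂) (hlt : v X₂ < v X₁)
    (hA : v α < v X₁ * v X₂) (h1 : 1 ≤ v X₁) :
    URConcl (v α) (v X₁) (v X₂) (v r₁) (v r₂) := by
  obtain ⟨hr₁, hr₂⟩ := roots_of_one_le H hlt hA h1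
  have hε := eps_pos H
  have hs : clip (v α) (v X₁) = 1 := clip_of_one_le H.hα.le h1
  have ht0 : 0 < clip (v α) (v X₂) := hε.trans_le (le_clip _ _)
  have ht1 : clip (v α) (v X₂) ≤ 1 := clip_le_one H.hα.le _
  left
  rw [hr₁, hr₂, hs, one_mul, fold_eq_self (le_clip _ _), qt_one_left ht0 ht1]
  exact ⟨rfl, rfl⟩

end URA

theorem ur_A1 (H : URHyp v α β X₁ X₂ r₁ r₂) (hlt : v X₂ < v X₁) (hA : v α < v X₁ * v X₂)
    (h1 : v X₁ < 1) : URConcl (v α) (v X₁) (v X₂) (v r₁) (v r₂) := by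
  have ha := URA.a_pos hA
  have hb := URA.b_pos hA
  have hb1 : v X₂ < 1 := hlt.trans h1
  -- `ε < a b < b < a < 1`
  have hab_b : v X₁ * v X₂ < v X₂ := mul_lt_of_lt_one_left hb h1
  have hab_a : v X₁ * v X₂ < v X₁ := mul_lt_of_lt_one_right ha hb1
  have hb_q : v X₂ ≤ v X₂ / v X₁ := by
    rw [le_div_iff₀ ha]
    exact mul_le_of_le_one_right zero_le h1.le
  have hq1 : v X₂ / v X₁ ≤ 1 := (div_le_one₀ ha).mpr hlt.le
  have hs : clip (v α) (v X₁) = v X₁ := URA.clip_eq_self (hA.trans hab_a).le h1.le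
  have ht : clip (v α) (v X₂) = v X₂ := URA.clip_eq_self (hA.trans hab_b).le hb1.le
  have hcq : clip (v α) (v X₂ / v X₁) = v X₂ / v X₁ :=
    URA.clip_eq_self ((hA.trans hab_b).le.trans hb_q) hq1
  have hcp : clip (v α) (v X₁ * v X₂) = v X₁ * v X₂ :=
    URA.clip_eq_self hA.le (hab_a.trans h1).le
  have hfold : fold (v α) (v X₁ * v X₂) = v X₁ * v X₂ := URA.fold_eq_self hA.le
  have hqt : qt (v X₁) (v X₂) = v X₂ / v X₁ := URA.qt_eq_div hb hlt.le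
  rcases URA.roots_A1 H hlt hA h1 with ⟨h, h'⟩ | ⟨h, h'⟩
  · right
    rw [h, h', hs, ht, hcq, hcp, hfold, hqt]
    exact ⟨rfl, rfl⟩
  · left
    rw [h, h', hs, ht, hcq, hcp, hfold, hqt]
    exact ⟨rfl, rfl⟩

theorem ur_A2 (H : URHyp v α β X₁ X₂ r₁ r₂) (hlt : v X₂ < v X₁) (hA : v α < v X₁ * v X₂)
    (h1 : v X₁ = 1) : URConcl (v α) (v X₁) (v X₂) (v r₁) (v r₂) :=
  URA.concl_of_one_le H hlt hA h1.ge

theorem ur_A3 (H : URHyp v α β X₁ X₂ r₁ r₂) (hlt : v X₂ < v X₁) (hA : v α < v X₁ * v X₂)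
    (h1 : 1 < v X₁) : URConcl (v α) (v X₁) (v X₂) (v r₁) (v r₂) :=
  URA.concl_of_one_le H hlt hA h1.le

end Fermat.Agent.S05
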