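import Fermat.Agent.S05.Core.Defs
import Fermat.Agent.S05.Core.Newton

/-!
# S05 core: field-level unordered rule, case family B (`v X₁ * v X₂ < v α`, i.e. `i + j > N`, with `i < j`).
(one worker; statements frozen)

Setting (`URHyp`): `v 2 = 1`, `α ≠ 0`, `ε := v α < 1`, `v β = 1` (so `v (α+β) = 1`, `v (α β) = ε`),
`X₁ ≠ X₂`, and `r₁ + r₂ = S`, `r₁ r₂ = Π` with
`S = 2[(X₁+X₂)(X₁X₂+αβ) - 2(α+β)X₁X₂]/(X₁-X₂)²`, `Π = (X₁X₂-αβ)²/(X₁-X₂)²`.
Method: compute `v Π` and `v S` (exactly, or a bound) from `a = v X₁`, `b = v X₂` by the ultrametric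
inequality, then get `v r₁, v r₂` from `newton_two_roots` (Core/Newton.lean), then clip.
In ADDITIVE notation `w = -log v`, `N = w(α) > 0`, `i = w(X₁)`, `j = w(X₂)` (so `v X₂ < v X₁` means
`i < j`), `clip` = clipping of `w` to `[0, N]`, the claim is
`{clip w(r₁), clip w(r₂)} = {|s - t|, s + t if s + t ≤ N else 2N - s - t}`, `s = clip i`, `t = clip j`.
Family B: `w(X₁X₂ - αβ) = N`, `w(Π) = 2N - 2i`.
* B1 (`j > N`, possibly `X₂ = 0`): `w(S) = N - i`, both roots have `w = N - i`; clipped: both `N - s`.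
* B2 (`j = N`): `w(S) ≥ N - i`, both roots have `w = N - i`.
* B3 (`j < N`, hence `0 < N - j < i < j < N`): `w(S) = j - i`, `{w r₁, w r₂} = {j - i, 2N - i - j}`.
-/

set_option autoImplicit false

namespace Fermat.Agent.S05

namespace URB

section Gamma

variable {Γ₀ : Type*} [LinearOrderedCommGroupWithZero Γ₀]

/-- `clip ε u = u` for `u` in `[ε, 1]`. -/
theorem clip_of_mem {ε u : Γ₀} (h0 : ε ≤ u) (h1 : u ≤ 1) : clip ε u = u := by
  unfold clip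
  rw [min_eq_right h1, max_eq_right h0]

/-- `clip ε u = ε` for `u ≤ ε`. -/
theorem clip_of_le {ε u : Γ₀} (h : u ≤ ε) : clip ε u = ε := by
  unfold clip
  exact max_eq_left ((min_le_right 1 u).trans h)

theorem le_clip (ε u : Γ₀) : ε ≤ clip ε u := le_max_left _ _

theorem clip_le_one {ε : Γ₀} (hε1 : ε ≤ 1) (u : Γ₀) : clip ε u ≤ 1 :=
  max_le hε1 (min_le_left _ _)

/-- Clipping is compatible with the reflection `u ↦ ε / u`. -/
theorem clip_div {ε a : Γ₀} (hε0 : 0 < ε) (hε1 : ε ≤ 1) (ha : 0 < a) :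
    clip ε (ε / a) = ε / clip ε a := by
  rcases lt_or_ge 1 a with h | h
  · -- `1 < a`
    have h1 : ε / a ≤ ε := (div_le_iff₀ ha).2 (le_mul_of_one_le_right' h.le)
    have h2 : clip ε a = 1 := by
      unfold clip
      rw [min_eq_left h.le, max_eq_right hε1]
    rw [clip_of_le h1, h2, div_one]
  · rcases le_or_gt ε a with h' | h'
    · -- `ε ≤ a ≤ 1`
      have h1 : ε / a ≤ 1 := (div_le_one₀ ha).2 h'
      have h2 : ε ≤ ε / a := (le_div_iff₀ ha).2 (mul_le_of_le_one_right' h)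
      rw [clip_of_mem h2 h1, clip_of_mem h' h]
    · -- `a < ε`
      have h1 : 1 < ε / a := (one_lt_div₀ ha).2 h'
      have h2 : clip ε (ε / a) = 1 := by
        unfold clip
        rw [min_eq_left h1.le, max_eq_right hε1]
      rw [h2, clip_of_le h'.le, div_self hε0.ne']

/-- `fold ε (s * ε) = ε / s` for `0 < s ≤ 1`. -/
theorem fold_mul_eps {ε s : Γ₀} (hε0 : 0 < ε) (hs1 : s ≤ 1) :
    fold ε (s * ε) = ε / s := by
  unfold fold
  split_ifs with h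
  · have h1 : 1 ≤ s := by
      have h' : 1 * ε ≤ s * ε := by rwa [one_mul]
      exact le_of_mul_le_mul_right h' hε0
    have hs : s = 1 := le_antisymm hs1 h1
    rw [hs, one_mul, div_one]
  · rw [sq, mul_div_mul_right _ _ hε0.ne']

/-- `qt s ε = ε / s` for `ε ≤ s`. -/
theorem qt_eps {ε s : Γ₀} (hε0 : 0 < ε) (hs : ε ≤ s) : qt s ε = ε / s := by
  unfold qt
  have hs0 : 0 < s := lt_of_lt_of_le hε0 hs
  exact min_eq_right (((div_le_one₀ hs0).2 hs).trans ((one_le_div₀ hε0).2 hs))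

/-- The second root from the product, in case B3. -/
theorem other_root {ε a b x : Γ₀} (ha : 0 < a) (hb : 0 < b) (h : x * (b / a) = (ε / a) ^ 2) :
    x = ε ^ 2 / (a * b) := by
  have ha' : a ≠ 0 := ha.ne'
  have hb' : b ≠ 0 := hb.ne'
  have hne : b / a ≠ 0 := div_ne_zero hb' ha'
  rw [eq_div_of_mul_eq hne h]
  field_simp

/-- Clipped values in case B3 (`ε < b < a < 1`, `a * b < ε`). -/
theorem concl_B3_aux {ε a b : Γ₀} (hε0 : 0 < ε) (hb : ε < b) (hab : b < a) (ha1 : a < 1)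
    (hB : a * b < ε) :
    clip ε (b / a) = qt (clip ε a) (clip ε b) ∧
      clip ε (ε ^ 2 / (a * b)) = fold ε (clip ε a * clip ε b) := by
  have ha0 : 0 < a := lt_trans (lt_trans hε0 hb) hab
  have hb0 : 0 < b := lt_trans hε0 hb
  have hca : clip ε a = a := clip_of_mem (hb.le.trans hab.le) ha1.le
  have hcb : clip ε b = b := clip_of_mem hb.le (hab.le.trans ha1.le)
  rw [hca, hcb]
  constructor
  · have h1 : b / a ≤ 1 := (div_le_one₀ ha0).2 hab.le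
    have h2 : ε ≤ b / a :=
      (le_div_iff₀ ha0).2 ((mul_le_of_le_one_right' ha1.le).trans hb.le)
    have h3 : qt a b = b / a := by
      unfold qt
      exact min_eq_right (h1.trans ((one_le_div₀ hb0).2 hab.le))
    rw [clip_of_mem h2 h1, h3]
  · have hab0 : 0 < a * b := mul_pos ha0 hb0
    have h1 : ε ^ 2 / (a * b) ≤ 1 := by
      rw [div_le_one₀ hab0, sq]
      exact mul_le_mul' (hb.le.trans hab.le) hb.le
    have h2 : ε ≤ ε ^ 2 / (a * b) := by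
      rw [le_div_iff₀ hab0, sq]
      exact mul_le_mul' le_rfl hB.le
    have h3 : fold ε (a * b) = ε ^ 2 / (a * b) := by
      unfold fold
      exact if_neg (not_le.2 hB)
    rw [clip_of_mem h2 h1, h3]

end Gamma

section Val

variable {K : Type*} [Field K] {Γ₀ : Type*} [LinearOrderedCommGroupWithZero Γ₀]
variable {v : Valuation K Γ₀} {α β X₁ X₂ r₁ r₂ : K}

theorem eps_pos (H : URHyp v α β X₁ X₂ r₁ r₂) : 0 < v α := v.pos_iff.2 H.hα0

theorem a_pos (hlt : v X₂ < v X₁) : 0 < v X₁ := lt_of_le_of_lt zero_le hlt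

theorem v_alpha_add_beta (H : URHyp v α β X₁ X₂ r₁ r₂) : v (α + β) = 1 := by
  rw [v.map_add_eq_of_lt_right (by rw [H.hβ]; exact H.hα), H.hβ]

theorem v_alpha_mul_beta (H : URHyp v α β X₁ X₂ r₁ r₂) : v (α * β) = v α := by
  rw [map_mul, H.hβ, mul_one]

theorem v_sub (hlt : v X₂ < v X₁) : v (X₁ - X₂) = v X₁ := v.map_sub_eq_of_lt_left hlt

theorem v_add (hlt : v X₂ < v X₁) : v (X₁ + X₂) = v X₁ := v.map_add_eq_of_lt_left hlt

theorem v_mul_sub (H : URHyp v α β X₁ X₂ r₁ r₂) (hB : v X₁ * v X₂ < v α) :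
    v (X₁ * X₂ - α * β) = v α := by
  rw [v.map_sub_eq_of_lt_right (by rw [map_mul, v_alpha_mul_beta H]; exact hB),
    v_alpha_mul_beta H]

theorem v_mul_add (H : URHyp v α β X₁ X₂ r₁ r₂) (hB : v X₁ * v X₂ < v α) :
    v (X₁ * X₂ + α * β) = v α := by
  rw [v.map_add_eq_of_lt_right (by rw [map_mul, v_alpha_mul_beta H]; exact hB),
    v_alpha_mul_beta H]

/-- `v Π = (ε / a)²`. -/
theorem v_prod (H : URHyp v α β X₁ X₂ r₁ r₂) (hlt : v X₂ < v X₁) (hB : v X₁ * v X₂ < v α) :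
    v (r₁ * r₂) = (v α / v X₁) ^ 2 := by
  rw [H.hprod, map_div₀, map_pow, map_pow, v_mul_sub H hB, v_sub hlt, div_pow]

theorem v_term1 (H : URHyp v α β X₁ X₂ r₁ r₂) (hlt : v X₂ < v X₁) (hB : v X₁ * v X₂ < v α) :
    v ((X₁ + X₂) * (X₁ * X₂ + α * β)) = v X₁ * v α := by
  rw [map_mul, v_add hlt, v_mul_add H hB]

theorem v_term2 (H : URHyp v α β X₁ X₂ r₁ r₂) :
    v (2 * (α + β) * X₁ * X₂) = v X₁ * v X₂ := by
  rw [map_mul, map_mul, map_mul, H.h2, v_alpha_add_beta H, one_mul, one_mul]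

/-- `v S = v (numerator) / a²`. -/
theorem v_sum (H : URHyp v α β X₁ X₂ r₁ r₂) (hlt : v X₂ < v X₁) :
    v (r₁ + r₂) =
      v ((X₁ + X₂) * (X₁ * X₂ + α * β) - 2 * (α + β) * X₁ * X₂) / v X₁ ^ 2 := by
  rw [H.hsum, map_div₀, map_mul, H.h2, one_mul, map_pow, v_sub hlt]

/-- Cases B1, B2: `v S ≤ ε / a`. -/
theorem v_sum_le (H : URHyp v α β X₁ X₂ r₁ r₂) (hlt : v X₂ < v X₁) (hB : v X₁ * v X₂ < v α)
    (h1 : v X₂ ≤ v α) : v (r₁ + r₂) ≤ v α / v X₁ := by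
  have ha := a_pos hlt
  have hnum : v ((X₁ + X₂) * (X₁ * X₂ + α * β) - 2 * (α + β) * X₁ * X₂) ≤ v X₁ * v α := by
    refine (v.map_sub _ _).trans (max_le ?_ ?_)
    · rw [v_term1 H hlt hB]
    · rw [v_term2 H]
      exact mul_le_mul' le_rfl h1
  rw [v_sum H hlt]
  calc v ((X₁ + X₂) * (X₁ * X₂ + α * β) - 2 * (α + β) * X₁ * X₂) / v X₁ ^ 2
      ≤ (v X₁ * v α) / v X₁ ^ 2 := (div_le_div_iff_of_pos_right (pow_pos ha 2)).mpr hnum
    _ = v α / v X₁ := by rw [sq, mul_div_mul_left _ _ ha.ne']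

/-- Cases B1, B2: both roots have valuation `ε / a`. -/
theorem roots_B12 (H : URHyp v α β X₁ X₂ r₁ r₂) (hlt : v X₂ < v X₁) (hB : v X₁ * v X₂ < v α)
    (h1 : v X₂ ≤ v α) : v r₁ = v α / v X₁ ∧ v r₂ = v α / v X₁ := by
  have hS := v_sum_le H hlt hB h1
  have hP := v_prod H hlt hB
  obtain ⟨h12, hsq⟩ := (newton_two_roots v (rfl : r₁ + r₂ = r₁ + r₂)
    (rfl : r₁ * r₂ = r₁ * r₂)).2 (by rw [hP]; exact pow_le_pow_left' hS 2)
  have hr1 : v r₁ = v α / v X₁ := (pow_left_inj₀ zero_le zero_le two_ne_zero).1 (hsq.trans hP)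
  exact ⟨hr1, h12 ▸ hr1⟩

/-- Cases B1, B2 together (`v X₂ ≤ v α`). -/
theorem concl_B12 (H : URHyp v α β X₁ X₂ r₁ r₂) (hlt : v X₂ < v X₁) (hB : v X₁ * v X₂ < v α)
    (h1 : v X₂ ≤ v α) : URConcl (v α) (v X₁) (v X₂) (v r₁) (v r₂) := by
  obtain ⟨hr1, hr2⟩ := roots_B12 H hlt hB h1
  have hε0 := eps_pos H
  have hε1 : v α ≤ 1 := H.hα.le
  have ha := a_pos hlt
  have hb : clip (v α) (v X₂) = v α := clip_of_le h1
  have hs0 : v α ≤ clip (v α) (v X₁) := le_clip _ _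
  have hs1 : clip (v α) (v X₁) ≤ 1 := clip_le_one hε1 _
  left
  rw [hr1, hr2, hb, clip_div hε0 hε1 ha, fold_mul_eps hε0 hs1, qt_eps hε0 hs0]
  exact ⟨rfl, rfl⟩

/-- Case B3: `a < 1`. -/
theorem a_lt_one (hB : v X₁ * v X₂ < v α) (h1 : v α < v X₂) : v X₁ < 1 := by
  by_contra h
  have h' : v X₂ ≤ v X₁ * v X₂ := le_mul_of_one_le_left' (not_lt.1 h)
  exact absurd (h'.trans_lt hB) (not_lt.2 h1.le)

/-- Case B3: `v (numerator) = a b`. -/
theorem v_num_B3 (H : URHyp v α β X₁ X₂ r₁ r₂) (hlt : v X₂ < v X₁) (hB : v X₁ * v X₂ < v α)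
    (h1 : v α < v X₂) :
    v ((X₁ + X₂) * (X₁ * X₂ + α * β) - 2 * (α + β) * X₁ * X₂) = v X₁ * v X₂ := by
  rw [v.map_sub_eq_of_lt_right (by
    rw [v_term1 H hlt hB, v_term2 H]
    exact (mul_lt_mul_iff_of_pos_left (a_pos hlt)).mpr h1), v_term2 H]

/-- Case B3: `v S = b / a`. -/
theorem v_sum_B3 (H : URHyp v α β X₁ X₂ r₁ r₂) (hlt : v X₂ < v X₁) (hB : v X₁ * v X₂ < v α)
    (h1 : v α < v X₂) : v (r₁ + r₂) = v X₂ / v X₁ := by
  rw [v_sum H hlt, v_num_B3 H hlt hB h1, sq, mul_div_mul_left _ _ (a_pos hlt).ne']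

/-- Case B3: the two roots have valuations `b / a` and `ε² / (a b)`. -/
theorem roots_B3 (H : URHyp v α β X₁ X₂ r₁ r₂) (hlt : v X₂ < v X₁) (hB : v X₁ * v X₂ < v α)
    (h1 : v α < v X₂) :
    (v r₁ = v X₂ / v X₁ ∧ v r₂ = v α ^ 2 / (v X₁ * v X₂)) ∨
      (v r₂ = v X₂ / v X₁ ∧ v r₁ = v α ^ 2 / (v X₁ * v X₂)) := by
  have ha := a_pos hlt
  have hb : 0 < v X₂ := lt_trans (eps_pos H) h1
  have hS := v_sum_B3 H hlt hB h1
  have hP := v_prod H hlt hB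
  have hlt' : v (r₁ * r₂) < v (r₁ + r₂) ^ 2 := by
    rw [hP, hS]
    exact pow_lt_pow_left₀ ((div_lt_div_iff_of_pos_right ha).mpr h1) zero_le two_ne_zero
  rcases (newton_two_roots v (rfl : r₁ + r₂ = r₁ + r₂) (rfl : r₁ * r₂ = r₁ * r₂)).1 hlt'
    with ⟨h, h'⟩ | ⟨h, h'⟩
  · left
    rw [hS] at h h'
    rw [hP] at h'
    exact ⟨h, other_root ha hb h'⟩
  · right
    rw [hS] at h h'
    rw [hP] at h'
    exact ⟨h, other_root ha hb h'⟩

end Val

end URB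

variable {K : Type*} [Field K] {Γ₀ : Type*} [LinearOrderedCommGroupWithZero Γ₀]
variable {v : Valuation K Γ₀} {α β X₁ X₂ r₁ r₂ : K}

theorem ur_B1 (H : URHyp v α β X₁ X₂ r₁ r₂) (hlt : v X₂ < v X₁) (hB : v X₁ * v X₂ < v α)
    (h1 : v X₂ < v α) : URConcl (v α) (v X₁) (v X₂) (v r₁) (v r₂) := by
  exact URB.concl_B12 H hlt hB h1.le

theorem ur_B2 (H : URHyp v α β X₁ X₂ r₁ r₂) (hlt : v X₂ < v X₁) (hB : v X₁ * v X₂ < v α)
    (h1 : v X₂ = v α) : URConcl (v α) (v X₁) (v X₂) (v r₁) (v r₂) := by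
  exact URB.concl_B12 H hlt hB h1.le

theorem ur_B3 (H : URHyp v α β X₁ X₂ r₁ r₂) (hlt : v X₂ < v X₁) (hB : v X₁ * v X₂ < v α)
    (h1 : v α < v X₂) : URConcl (v α) (v X₁) (v X₂) (v r₁) (v r₂) := by
  have hε0 := URB.eps_pos H
  obtain ⟨hq, hf⟩ := URB.concl_B3_aux hε0 h1 hlt (URB.a_lt_one hB h1) hB
  rcases URB.roots_B3 H hlt hB h1 with ⟨h, h'⟩ | ⟨h, h'⟩
  · right
    rw [h, h']
    exact ⟨hq, hf⟩
  · left
    rw [h, h']
    exact ⟨hf, hq⟩

end Fermat.Agent.S05
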