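import Fermat.Agent.S05.Core.Defs
import Fermat.Agent.S05.Core.Newton

/-!
# S05 core: field-level unordered rule, case family C (`v X₁ * v X₂ = v α`, i.e. `i + j = N`, with `i < j`).
(one worker; statements frozen)

Setting (`URHyp`): `v 2 = 1`, `α ≠ 0`, `ε := v α < 1`, `v β = 1` (so `v (α+β) = 1`, `v (α β) = ε`),
`X₁ ≠ X₂`, and `r₁ + r₂ = S`, `r₁ r₂ = Π` with
`S = 2[(X₁+X₂)(X₁X₂+αβ) - 2(α+β)X₁X₂]/(X₁-X₂)²`, `Π = (X₁X₂-αβ)²/(X₁-X₂)²`.
Method: compute `v Π` and `v S` (exactly, or a bound) from `a = v X₁`, `b = v X₂` by the ultrametric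
inequality, then get `v r₁, v r₂` from `newton_two_roots` (Core/Newton.lean), then clip.
In ADDITIVE notation `w = -log v`, `N = w(α) > 0`, `i = w(X₁)`, `j = w(X₂)` (so `v X₂ < v X₁` means
`i < j`), `clip` = clipping of `w` to `[0, N]`, the claim is
`{clip w(r₁), clip w(r₂)} = {|s - t|, s + t if s + t ≤ N else 2N - s - t}`, `s = clip i`, `t = clip j`.
Family C: `w(X₁X₂ - αβ) ≥ N` (possibly `X₁X₂ = αβ`, then `Π = 0` and one root is `0`), `w(Π) ≥ 2j`.
* C1 (`i > 0`, hence `0 < i < N/2 < j < N`): `w(S) = j - i` exactly (the term `2(α+β)X₁X₂` dominates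
  the numerator), so the roots have different valuations `j - i` and `≥ N`; clipped: `{j - i, N}`.
* C2 (`i ≤ 0`, hence `j ≥ N`, `s = 0`, `t = N`): `w(S) ≥ N - i ≥ N` and `w(Π) ≥ 2N - 2i`, so both
  roots have `w ≥ N`; clipped: both `N`.
-/

set_option autoImplicit false

namespace Fermat.Agent.S05

variable {K : Type*} [Field K] {Γ₀ : Type*} [LinearOrderedCommGroupWithZero Γ₀]
variable {v : Valuation K Γ₀} {α β X₁ X₂ r₁ r₂ : K}

namespace URC

/-! ### Valuation part -/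

theorem val_alpha_pos (H : URHyp v α β X₁ X₂ r₁ r₂) : 0 < v α :=
  zero_lt_iff.mpr ((Valuation.ne_zero_iff v).mpr H.hα0)

/-- `v (α + β) = 1`. -/
theorem val_add (H : URHyp v α β X₁ X₂ r₁ r₂) : v (α + β) = 1 := by
  have h : v α < v β := by rw [H.hβ]; exact H.hα
  rw [Valuation.map_add_eq_of_lt_right v h, H.hβ]

/-- `v (2 (α + β) X₁ X₂) = v α` in family C. -/
theorem val_main (H : URHyp v α β X₁ X₂ r₁ r₂) (hC : v X₁ * v X₂ = v α) :
    v (2 * (α + β) * X₁ * X₂) = v α := by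
  rw [map_mul, map_mul, map_mul, H.h2, val_add H, one_mul, one_mul, hC]

/-- `v (X₁ X₂ + α β) ≤ v α` in family C. -/
theorem val_plus_le (H : URHyp v α β X₁ X₂ r₁ r₂) (hC : v X₁ * v X₂ = v α) :
    v (X₁ * X₂ + α * β) ≤ v α := by
  refine Valuation.map_add_le v ?_ ?_
  · rw [map_mul, hC]
  · rw [map_mul, H.hβ, mul_one]

/-- `v (X₁ X₂ - α β) ≤ v α` in family C. -/
theorem val_minus_le (H : URHyp v α β X₁ X₂ r₁ r₂) (hC : v X₁ * v X₂ = v α) :
    v (X₁ * X₂ - α * β) ≤ v α := by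
  refine Valuation.map_sub_le v ?_ ?_
  · rw [map_mul, hC]
  · rw [map_mul, H.hβ, mul_one]

/-- `v (r₁ r₂) ≤ (v α)² / (v X₁)²` in family C. -/
theorem val_prod_le (H : URHyp v α β X₁ X₂ r₁ r₂) (hlt : v X₂ < v X₁)
    (hC : v X₁ * v X₂ = v α) : v (r₁ * r₂) ≤ v α ^ 2 / v X₁ ^ 2 := by
  have hD : v (X₁ - X₂) = v X₁ := Valuation.map_sub_eq_of_lt_left v hlt
  have hB := val_minus_le H hC
  rw [H.hprod, map_div₀, map_pow, map_pow, hD]
  gcongr
  exact zero_le

/-- `v (r₁ + r₂) = v α / (v X₁)²` in case C1. -/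
theorem val_sum_C1 (H : URHyp v α β X₁ X₂ r₁ r₂) (hlt : v X₂ < v X₁)
    (hC : v X₁ * v X₂ = v α) (h1 : v X₁ < 1) : v (r₁ + r₂) = v α / v X₁ ^ 2 := by
  have hD : v (X₁ - X₂) = v X₁ := Valuation.map_sub_eq_of_lt_left v hlt
  have hA : v (X₁ + X₂) = v X₁ := Valuation.map_add_eq_of_lt_left v hlt
  have hT := val_main H hC
  have hU : v ((X₁ + X₂) * (X₁ * X₂ + α * β)) < v (2 * (α + β) * X₁ * X₂) := by
    rw [hT, map_mul, hA]
    calc v X₁ * v (X₁ * X₂ + α * β) ≤ v X₁ * v α := by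
          gcongr
          exact val_plus_le H hC
      _ < v α := mul_lt_of_lt_one_left (val_alpha_pos H) h1
  have hnum : v ((X₁ + X₂) * (X₁ * X₂ + α * β) - 2 * (α + β) * X₁ * X₂) = v α := by
    rw [Valuation.map_sub_eq_of_lt_right v hU, hT]
  rw [H.hsum, map_div₀, map_pow, map_mul, H.h2, one_mul, hnum, hD]

/-- `v (r₁ + r₂) ≤ v α / v X₁` in case C2. -/
theorem val_sum_C2 (H : URHyp v α β X₁ X₂ r₁ r₂) (hlt : v X₂ < v X₁)
    (hC : v X₁ * v X₂ = v α) (h1 : 1 ≤ v X₁) : v (r₁ + r₂) ≤ v α / v X₁ := by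
  have hD : v (X₁ - X₂) = v X₁ := Valuation.map_sub_eq_of_lt_left v hlt
  have hA : v (X₁ + X₂) = v X₁ := Valuation.map_add_eq_of_lt_left v hlt
  have hT := val_main H hC
  have ha0 : v X₁ ≠ 0 := (lt_of_lt_of_le zero_lt_one h1).ne'
  have hU : v ((X₁ + X₂) * (X₁ * X₂ + α * β)) ≤ v X₁ * v α := by
    rw [map_mul, hA]
    gcongr
    exact val_plus_le H hC
  have hnum : v ((X₁ + X₂) * (X₁ * X₂ + α * β) - 2 * (α + β) * X₁ * X₂) ≤ v X₁ * v α :=
    Valuation.map_sub_le v hU (hT.le.trans (le_mul_of_one_le_left' h1))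
  rw [H.hsum, map_div₀, map_pow, map_mul, H.h2, one_mul, hD]
  calc v ((X₁ + X₂) * (X₁ * X₂ + α * β) - 2 * (α + β) * X₁ * X₂) / v X₁ ^ 2
      ≤ v X₁ * v α / v X₁ ^ 2 := by
        gcongr
        exact zero_le
    _ = v α / v X₁ := by field_simp

/-! ### Order part -/

/-- Conclusion in case C1, from the valuations of the sum and the product. -/
theorem concl_C1 {a b ε s p x y : Γ₀} (hε : ε ≠ 0) (hab : a * b = ε) (hba : b < a)
    (ha1 : a < 1) (hs : s = ε / a ^ 2) (hp : p ≤ ε ^ 2 / a ^ 2)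
    (hN : p < s ^ 2 → (x = s ∧ y * s = p) ∨ (y = s ∧ x * s = p)) :
    URConcl ε a b x y := by
  subst hab
  have ha0 : a ≠ 0 := left_ne_zero_of_mul hε
  have hb0 : b ≠ 0 := right_ne_zero_of_mul hε
  have hapos : 0 < a := zero_lt_iff.mpr ha0
  have hbpos : 0 < b := zero_lt_iff.mpr hb0
  have hb1 : b < 1 := hba.trans ha1
  -- `s = b / a`
  have hs' : s = b / a := by rw [hs]; field_simp
  have hp' : p ≤ b ^ 2 := by
    have : (a * b) ^ 2 / a ^ 2 = b ^ 2 := by field_simp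
    rwa [this] at hp
  have hspos : 0 < s := by rw [hs']; exact div_pos hbpos hapos
  -- the clipped values of `a`, `b`
  have hca : clip (a * b) a = a := by
    unfold clip
    rw [min_eq_right ha1.le, max_eq_right (mul_le_of_le_one_right' hb1.le)]
  have hcb : clip (a * b) b = b := by
    unfold clip
    rw [min_eq_right hb1.le, max_eq_right (mul_le_of_le_one_left' ha1.le)]
  have hfold : fold (a * b) (a * b) = a * b := by
    unfold fold
    rw [if_pos le_rfl]
  have hqt : qt a b = b / a := by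
    unfold qt
    exact min_eq_right (((div_le_one₀ hapos).mpr hba.le).trans ((one_le_div₀ hbpos).mpr hba.le))
  -- clipped value of `s`
  have hcs : clip (a * b) s = b / a := by
    unfold clip
    rw [hs', min_eq_right ((div_le_one₀ hapos).mpr hba.le), max_eq_right]
    rw [le_div_iff₀ hapos]
    calc a * b * a ≤ 1 * b * 1 := by gcongr
      _ = b := by rw [one_mul, mul_one]
  -- `p < s ^ 2`
  have hps : p < s ^ 2 := by
    refine lt_of_le_of_lt hp' ?_
    rw [hs', div_pow, lt_div_iff₀ (pow_pos hapos 2)]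
    exact mul_lt_of_lt_one_right (pow_pos hbpos 2) (pow_lt_one₀ zero_le ha1 two_ne_zero)
  -- the small root
  have hsmall : ∀ z : Γ₀, z * s = p → clip (a * b) z = a * b := by
    intro z hz
    have hz' : z ≤ a * b := by
      have h1 : z * s ≤ a * b * s := by
        rw [hz]
        refine hp'.trans (le_of_eq ?_)
        rw [hs']
        field_simp
      exact le_of_mul_le_mul_right h1 hspos
    unfold clip
    exact max_eq_left ((min_le_right _ _).trans hz')
  unfold URConcl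
  rw [hca, hcb, hfold, hqt]
  rcases hN hps with ⟨hx, hy⟩ | ⟨hy, hx⟩
  · right
    exact ⟨by rw [hx, hcs], hsmall y hy⟩
  · left
    exact ⟨hsmall x hx, by rw [hy, hcs]⟩

/-- Conclusion in case C2, from bounds for the valuations of the sum and the product. -/
theorem concl_C2 {a b ε s p x y : Γ₀} (hε : ε ≠ 0) (hε1 : ε < 1) (hab : a * b = ε)
    (ha1 : 1 ≤ a) (hs : s ≤ ε / a) (hp : p ≤ ε ^ 2 / a ^ 2)
    (hN : (p < s ^ 2 → (x = s ∧ y * s = p) ∨ (y = s ∧ x * s = p)) ∧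
      (s ^ 2 ≤ p → x = y ∧ x ^ 2 = p)) :
    URConcl ε a b x y := by
  have hapos : 0 < a := lt_of_lt_of_le zero_lt_one ha1
  have hεpos : 0 < ε := zero_lt_iff.mpr hε
  have hb : b ≤ ε := by rw [← hab]; exact le_mul_of_one_le_left' ha1
  -- `ε / a ≤ ε`
  have hεa : ε / a ≤ ε := by
    rw [div_le_iff₀ hapos]
    exact le_mul_of_one_le_right' ha1
  have hs' : s ≤ ε := hs.trans hεa
  -- the clipped values of `a`, `b`
  have hca : clip ε a = 1 := by
    unfold clip
    rw [min_eq_left ha1, max_eq_right hε1.le]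
  have hcb : clip ε b = ε := by
    unfold clip
    exact max_eq_left ((min_le_right _ _).trans hb)
  have hfold : fold ε (1 * ε) = ε := by
    unfold fold
    rw [one_mul, if_pos le_rfl]
  have hqt : qt 1 ε = ε := by
    unfold qt
    rw [div_one]
    exact min_eq_right (hε1.le.trans ((one_le_div₀ hεpos).mpr hε1.le))
  have hclip : ∀ z : Γ₀, z ≤ ε → clip ε z = ε := by
    intro z hz
    unfold clip
    exact max_eq_left ((min_le_right _ _).trans hz)
  -- both roots are `≤ ε`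
  have hxy : x ≤ ε ∧ y ≤ ε := by
    rcases lt_or_ge p (s ^ 2) with hps | hps
    · have hlt : ∀ z : Γ₀, z * s = p → z ≤ ε := by
        intro z hz
        have h1 : z * s < s * s := by rw [hz, ← pow_two]; exact hps
        exact (lt_of_mul_lt_mul_right h1 zero_le).le.trans hs'
      rcases hN.1 hps with ⟨hx, hy⟩ | ⟨hy, hx⟩
      · exact ⟨hx.le.trans hs', hlt y hy⟩
      · exact ⟨hlt x hx, hy.le.trans hs'⟩
    · obtain ⟨hxy, hx2⟩ := hN.2 hps
      have hx : x ≤ ε := by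
        have h2 : x ^ 2 ≤ (ε / a) ^ 2 := by rw [hx2, div_pow]; exact hp
        exact ((pow_le_pow_iff_left₀ zero_le zero_le two_ne_zero).mp h2).trans hεa
      exact ⟨hx, hxy ▸ hx⟩
  unfold URConcl
  rw [hca, hcb, hfold, hqt]
  left
  exact ⟨hclip x hxy.1, hclip y hxy.2⟩

end URC

theorem ur_C1 (H : URHyp v α β X₁ X₂ r₁ r₂) (hlt : v X₂ < v X₁) (hC : v X₁ * v X₂ = v α)
    (h1 : v X₁ < 1) : URConcl (v α) (v X₁) (v X₂) (v r₁) (v r₂) := by
  exact URC.concl_C1 ((Valuation.ne_zero_iff v).mpr H.hα0) hC hlt h1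
    (URC.val_sum_C1 H hlt hC h1) (URC.val_prod_le H hlt hC)
    (newton_two_roots v rfl rfl).1

theorem ur_C2 (H : URHyp v α β X₁ X₂ r₁ r₂) (hlt : v X₂ < v X₁) (hC : v X₁ * v X₂ = v α)
    (h1 : 1 ≤ v X₁) : URConcl (v α) (v X₁) (v X₂) (v r₁) (v r₂) := by
  exact URC.concl_C2 ((Valuation.ne_zero_iff v).mpr H.hα0) H.hα hC h1
    (URC.val_sum_C2 H hlt hC h1) (URC.val_prod_le H hlt hC)
    (newton_two_roots v rfl rfl)

end Fermat.Agent.S05
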