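import Fermat.Agent.S05.Core.Defs
import Fermat.Agent.S05.Core.Newton

/-!
# S05 core: field-level unordered rule, case family D, outer part (`v X₁ = v X₂`, i.e. `i = j`, and `i ≤ 0` or `i ≥ N`).
(one worker; statements frozen)

Setting (`URHyp`): `v 2 = 1`, `α ≠ 0`, `ε := v α < 1`, `v β = 1` (so `v (α+β) = 1`, `v (α β) = ε`),
`X₁ ≠ X₂`, and `r₁ + r₂ = S`, `r₁ r₂ = Π` with
`S = 2[(X₁+X₂)(X₁X₂+αβ) - 2(α+β)X₁X₂]/(X₁-X₂)²`, `Π = (X₁X₂-αβ)²/(X₁-X₂)²`.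
Method: compute `v Π` and `v S` (exactly, or a bound) from `a = v X₁`, `b = v X₂` by the ultrametric
inequality, then get `v r₁, v r₂` from `newton_two_roots` (Core/Newton.lean), then clip.
In ADDITIVE notation `w = -log v`, `N = w(α) > 0`, `i = w(X₁)`, `j = w(X₂)` (so `v X₂ < v X₁` means
`i < j`), `clip` = clipping of `w` to `[0, N]`, the claim is
`{clip w(r₁), clip w(r₂)} = {|s - t|, s + t if s + t ≤ N else 2N - s - t}`, `s = clip i`, `t = clip j`.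
Family D: put `d = w(X₁ - X₂) ≥ i`.  In all three cases below both roots have `w ≤ 0`, i.e.
`1 ≤ v r₁` and `1 ≤ v r₂`, and `s = t`, so `qt s t = 1` and `fold ε (s * t) = 1`
(`s = t = 1`, resp. `s = t = ε` and `fold ε (ε²) = 1`).
* D1 (`i < 0`): `w(Π) = 4i - 2d ≤ 2i`, `w(S) ≥ 3i - 2d`  ⇒ both `w(r) ≤ i < 0`.
* D2 (`i = 0`): `w(Π) = -2d ≤ 0`, `w(S) ≥ -2d`  ⇒ both `w(r) ≤ 0`.
* D4 (`i ≥ N`): `w(X₁X₂ - αβ) = N`, `w(Π) = 2N - 2d ≤ 0`, `w(S) ≥ min(i + N, 2i) - 2d`  ⇒ both `w(r) ≤ 0`.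
(If the roots have different valuations the smaller `w` is `w(S)` and the other is `w(Π) - w(S)`.)
-/

set_option autoImplicit false

namespace Fermat.Agent.S05

variable {K : Type*} [Field K] {Γ₀ : Type*} [LinearOrderedCommGroupWithZero Γ₀]
variable {v : Valuation K Γ₀} {α β X₁ X₂ r₁ r₂ : K}

namespace URD

/-- If the product of two numbers has valuation `≥ 1` and dominates the valuation of their sum,
then the first number has valuation `≥ 1`. -/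
theorem one_le_left (w : Valuation K Γ₀) {x y S T : K} (hs : x + y = S) (hp : x * y = T)
    (h1 : 1 ≤ w T) (h2 : w S ≤ w T) : 1 ≤ w x := by
  by_contra hlt
  rw [not_le] at hlt
  have hT : w T = w x * w y := by rw [← hp, map_mul]
  have hy : 1 < w y := by
    by_contra hle
    rw [not_lt] at hle
    have h3 : w x * w y ≤ w x * 1 := mul_le_mul' le_rfl hle
    rw [mul_one, ← hT] at h3
    exact absurd (h1.trans h3) (not_le.mpr hlt)
  have hS : w S = w y := by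
    rw [← hs]
    exact Valuation.map_add_eq_of_lt_right w (hlt.trans hy)
  have hpos : 0 < w y := (zero_lt_one' Γ₀).trans hy
  have h4 : w T < w S := by
    rw [hT, hS]
    calc w x * w y < 1 * w y := mul_lt_mul_of_pos_right hlt hpos
      _ = w y := one_mul _
  exact absurd h2 (not_le.mpr h4)

/-- Both roots have valuation `≥ 1` as soon as `v (X₁ - X₂) ≤ v (X₁ X₂ - α β)` and the numerator
of the sum is bounded by `v (X₁ X₂ - α β) ^ 2`. -/
theorem one_le_both (H : URHyp v α β X₁ X₂ r₁ r₂)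
    (hm : v (X₁ - X₂) ≤ v (X₁ * X₂ - α * β))
    (hn : v ((X₁ + X₂) * (X₁ * X₂ + α * β) - 2 * (α + β) * X₁ * X₂)
      ≤ v (X₁ * X₂ - α * β) ^ 2) :
    1 ≤ v r₁ ∧ 1 ≤ v r₂ := by
  have hδ : v (X₁ - X₂) ≠ 0 := (Valuation.ne_zero_iff v).mpr (sub_ne_zero.mpr H.hne)
  have hδ2 : 0 < v (X₁ - X₂) ^ 2 := pow_pos (zero_lt_iff.mpr hδ) 2
  have hT : v ((X₁ * X₂ - α * β) ^ 2 / (X₁ - X₂) ^ 2)
      = v (X₁ * X₂ - α * β) ^ 2 / v (X₁ - X₂) ^ 2 := by
    rw [map_div₀, map_pow, map_pow]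
  have hS : v (2 * ((X₁ + X₂) * (X₁ * X₂ + α * β) - 2 * (α + β) * X₁ * X₂) / (X₁ - X₂) ^ 2)
      = v ((X₁ + X₂) * (X₁ * X₂ + α * β) - 2 * (α + β) * X₁ * X₂) / v (X₁ - X₂) ^ 2 := by
    rw [map_div₀, map_mul, H.h2, one_mul, map_pow]
  have h1 : 1 ≤ v ((X₁ * X₂ - α * β) ^ 2 / (X₁ - X₂) ^ 2) := by
    rw [hT, one_le_div₀ hδ2]
    exact pow_le_pow_left' hm 2
  have h2 : v (2 * ((X₁ + X₂) * (X₁ * X₂ + α * β) - 2 * (α + β) * X₁ * X₂) / (X₁ - X₂) ^ 2)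
      ≤ v ((X₁ * X₂ - α * β) ^ 2 / (X₁ - X₂) ^ 2) := by
    rw [hS, hT, div_le_div_iff_of_pos_right hδ2]
    exact hn
  exact ⟨one_le_left v H.hsum H.hprod h1 h2,
    one_le_left v ((add_comm r₂ r₁).trans H.hsum) ((mul_comm r₂ r₁).trans H.hprod) h1 h2⟩

theorem clip_eq_one {ε u : Γ₀} (hε : ε ≤ 1) (hu : 1 ≤ u) : clip ε u = 1 := by
  unfold clip
  rw [min_eq_left hu, max_eq_right hε]

theorem clip_eq_left {ε u : Γ₀} (hε : ε ≤ 1) (hu : u ≤ ε) : clip ε u = ε := by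
  unfold clip
  rw [min_eq_right (hu.trans hε), max_eq_left hu]

theorem fold_one_mul_one {ε : Γ₀} (hε : ε ≤ 1) : fold ε (1 * 1) = 1 := by
  unfold fold
  rw [mul_one, if_pos hε]

theorem qt_self {s : Γ₀} (hs : s ≠ 0) : qt s s = 1 := by
  unfold qt
  rw [div_self hs, min_self]

theorem mul_self_lt {ε : Γ₀} (h0 : ε ≠ 0) (hε : ε < 1) : ε * ε < ε :=
  calc ε * ε < 1 * ε := mul_lt_mul_of_pos_right hε (zero_lt_iff.mpr h0)
    _ = ε := one_mul _

theorem fold_mul_self {ε : Γ₀} (h0 : ε ≠ 0) (hε : ε < 1) : fold ε (ε * ε) = 1 := by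
  unfold fold
  rw [if_neg (not_le.mpr (mul_self_lt h0 hε)), sq, div_self (mul_ne_zero h0 h0)]

/-- The conclusion when both levels are `1` and both roots have valuation `≥ 1`. -/
theorem concl_one {ε a b c₁ c₂ : Γ₀} (hε : ε ≤ 1) (ha : 1 ≤ a) (hb : 1 ≤ b) (h1 : 1 ≤ c₁)
    (h2 : 1 ≤ c₂) : URConcl ε a b c₁ c₂ := by
  refine Or.inl ⟨?_, ?_⟩
  · rw [clip_eq_one hε ha, clip_eq_one hε hb, clip_eq_one hε h1, fold_one_mul_one hε]
  · rw [clip_eq_one hε ha, clip_eq_one hε hb, clip_eq_one hε h2, qt_self one_ne_zero]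

/-- The conclusion when both levels are `ε` and both roots have valuation `≥ 1`. -/
theorem concl_eps {ε a b c₁ c₂ : Γ₀} (h0 : ε ≠ 0) (hε : ε < 1) (ha : a ≤ ε) (hb : b ≤ ε)
    (h1 : 1 ≤ c₁) (h2 : 1 ≤ c₂) : URConcl ε a b c₁ c₂ := by
  refine Or.inl ⟨?_, ?_⟩
  · rw [clip_eq_left hε.le ha, clip_eq_left hε.le hb, clip_eq_one hε.le h1, fold_mul_self h0 hε]
  · rw [clip_eq_left hε.le ha, clip_eq_left hε.le hb, clip_eq_one hε.le h2, qt_self h0]

theorem v_alpha_mul_beta (H : URHyp v α β X₁ X₂ r₁ r₂) : v (α * β) = v α := by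
  rw [map_mul, H.hβ, mul_one]

theorem v_alpha_add_beta_le (H : URHyp v α β X₁ X₂ r₁ r₂) : v (α + β) ≤ 1 :=
  Valuation.map_add_le v H.hα.le H.hβ.le

/-- Bound for the numerator of the sum. -/
theorem num_le (H : URHyp v α β X₁ X₂ r₁ r₂) {a c g : Γ₀} (h1 : v X₁ ≤ a) (h2 : v X₂ ≤ a)
    (hc : v (X₁ * X₂ + α * β) ≤ c) (hac : a * c ≤ g) (haa : a * a ≤ g) :
    v ((X₁ + X₂) * (X₁ * X₂ + α * β) - 2 * (α + β) * X₁ * X₂) ≤ g := by
  apply Valuation.map_sub_le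
  · rw [map_mul]
    exact (mul_le_mul' (Valuation.map_add_le v h1 h2) hc).trans hac
  · rw [map_mul, map_mul, map_mul, H.h2, one_mul]
    calc v (α + β) * v X₁ * v X₂ ≤ 1 * a * a :=
          mul_le_mul' (mul_le_mul' (v_alpha_add_beta_le H) h1) h2
      _ = a * a := by rw [one_mul]
      _ ≤ g := haa

end URD

theorem ur_D1 (H : URHyp v α β X₁ X₂ r₁ r₂) (heq : v X₁ = v X₂) (h1 : 1 < v X₁) :
    URConcl (v α) (v X₁) (v X₂) (v r₁) (v r₂) := by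
  have hαβ : v (α * β) = v α := URD.v_alpha_mul_beta H
  have h12 : v (X₁ * X₂) = v X₁ * v X₁ := by rw [map_mul, ← heq]
  have haa : 1 ≤ v X₁ * v X₁ := Right.one_le_mul h1.le h1.le
  have hlt : v (α * β) < v (X₁ * X₂) := by
    rw [hαβ, h12]
    exact H.hα.trans_le haa
  have hm : v (X₁ * X₂ - α * β) = v X₁ * v X₁ := by
    rw [Valuation.map_sub_eq_of_lt_left v hlt, h12]
  have hδ : v (X₁ - X₂) ≤ v X₁ := Valuation.map_sub_le v le_rfl heq.ge
  have hc : v (X₁ * X₂ + α * β) ≤ v X₁ * v X₁ :=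
    Valuation.map_add_le v h12.le (hlt.le.trans h12.le)
  have hm' : v (X₁ - X₂) ≤ v (X₁ * X₂ - α * β) := by
    rw [hm]
    exact hδ.trans (le_mul_of_one_le_left' h1.le)
  have hn : v ((X₁ + X₂) * (X₁ * X₂ + α * β) - 2 * (α + β) * X₁ * X₂)
      ≤ v (X₁ * X₂ - α * β) ^ 2 := by
    rw [hm, sq]
    exact URD.num_le H le_rfl heq.ge hc (mul_le_mul' (le_mul_of_one_le_left' h1.le) le_rfl)
      (le_mul_of_one_le_left' haa)
  have hboth := URD.one_le_both H hm' hn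
  exact URD.concl_one H.hα.le h1.le (heq ▸ h1.le) hboth.1 hboth.2

theorem ur_D2 (H : URHyp v α β X₁ X₂ r₁ r₂) (heq : v X₁ = v X₂) (h1 : v X₁ = 1) :
    URConcl (v α) (v X₁) (v X₂) (v r₁) (v r₂) := by
  have h2 : v X₂ = 1 := heq.symm.trans h1
  have hαβ : v (α * β) = v α := URD.v_alpha_mul_beta H
  have h12 : v (X₁ * X₂) = 1 := by rw [map_mul, h1, h2, one_mul]
  have hlt : v (α * β) < v (X₁ * X₂) := by
    rw [hαβ, h12]
    exact H.hα
  have hm : v (X₁ * X₂ - α * β) = 1 := by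
    rw [Valuation.map_sub_eq_of_lt_left v hlt, h12]
  have hδ : v (X₁ - X₂) ≤ 1 := Valuation.map_sub_le v h1.le h2.le
  have hc : v (X₁ * X₂ + α * β) ≤ 1 := Valuation.map_add_le v h12.le (hlt.le.trans h12.le)
  have hm' : v (X₁ - X₂) ≤ v (X₁ * X₂ - α * β) := by
    rw [hm]
    exact hδ
  have hn : v ((X₁ + X₂) * (X₁ * X₂ + α * β) - 2 * (α + β) * X₁ * X₂)
      ≤ v (X₁ * X₂ - α * β) ^ 2 := by
    rw [hm, one_pow]
    exact URD.num_le H h1.le h2.le hc (mul_one (1 : Γ₀)).le (mul_one (1 : Γ₀)).le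
  have hboth := URD.one_le_both H hm' hn
  exact URD.concl_one H.hα.le h1.ge h2.ge hboth.1 hboth.2

theorem ur_D4 (H : URHyp v α β X₁ X₂ r₁ r₂) (heq : v X₁ = v X₂) (h1 : v X₁ ≤ v α) :
    URConcl (v α) (v X₁) (v X₂) (v r₁) (v r₂) := by
  have h2 : v X₂ ≤ v α := heq.symm.le.trans h1
  have hε0 : v α ≠ 0 := (Valuation.ne_zero_iff v).mpr H.hα0
  have hαβ : v (α * β) = v α := URD.v_alpha_mul_beta H
  have h12 : v (X₁ * X₂) ≤ v α * v α := by
    rw [map_mul]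
    exact mul_le_mul' h1 h2
  have hεε : v α * v α < v α := URD.mul_self_lt hε0 H.hα
  have hlt : v (X₁ * X₂) < v (α * β) := by
    rw [hαβ]
    exact h12.trans_lt hεε
  have hm : v (X₁ * X₂ - α * β) = v α := by
    rw [Valuation.map_sub_eq_of_lt_right v hlt, hαβ]
  have hδ : v (X₁ - X₂) ≤ v α := Valuation.map_sub_le v h1 h2
  have hc : v (X₁ * X₂ + α * β) ≤ v α :=
    Valuation.map_add_le v (h12.trans hεε.le) hαβ.le
  have hm' : v (X₁ - X₂) ≤ v (X₁ * X₂ - α * β) := by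
    rw [hm]
    exact hδ
  have hn : v ((X₁ + X₂) * (X₁ * X₂ + α * β) - 2 * (α + β) * X₁ * X₂)
      ≤ v (X₁ * X₂ - α * β) ^ 2 := by
    rw [hm, sq]
    exact URD.num_le H h1 h2 hc le_rfl le_rfl
  have hboth := URD.one_le_both H hm' hn
  exact URD.concl_eps hε0 H.hα h1 h2 hboth.1 hboth.2

end Fermat.Agent.S05
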