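import Fermat.Agent.S05.Core.Defs
import Fermat.Agent.S05.Core.Newton

/-!
# S05 core: field-level unordered rule, case family D3 (`v X₁ = v X₂`, i.e. `i = j`, with `0 < i < N`).
(one worker; statements frozen)

Setting (`URHyp`): `v 2 = 1`, `α ≠ 0`, `ε := v α < 1`, `v β = 1` (so `v (α+β) = 1`, `v (α β) = ε`),
`X₁ ≠ X₂`, and `r₁ + r₂ = S`, `r₁ r₂ = Π` with
`S = 2[(X₁+X₂)(X₁X₂+αβ) - 2(α+β)X₁X₂]/(X₁-X₂)²`, `Π = (X₁X₂-αβ)²/(X₁-X₂)²`.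
Method: compute `v Π` and `v S` (exactly, or a bound) from `a = v X₁`, `b = v X₂` by the ultrametric
inequality, then get `v r₁, v r₂` from `newton_two_roots` (Core/Newton.lean), then clip.
In ADDITIVE notation `w = -log v`, `N = w(α) > 0`, `i = w(X₁)`, `j = w(X₂)` (so `v X₂ < v X₁` means
`i < j`), `clip` = clipping of `w` to `[0, N]`, the claim is
`{clip w(r₁), clip w(r₂)} = {|s - t|, s + t if s + t ≤ N else 2N - s - t}`, `s = clip i`, `t = clip j`.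
Family D3: `d = w(X₁ - X₂) ≥ i`; the numerator of `S` has `w = 2i` exactly (the term `2(α+β)X₁X₂`
dominates, since `w((X₁+X₂)(X₁X₂+αβ)) ≥ i + min(2i, N) > 2i`), so `w(S) = 2i - 2d ≤ 0`.
* D3a (`2i < N`): `w(Π) = 4i - 2d`; roots have different valuations `2i - 2d ≤ 0` and `2i`.
* D3b (`2i > N`): `w(Π) = 2N - 2d`; roots: `2i - 2d ≤ 0` and `2N - 2i`.
* D3c (`2i = N`): `w(Π) ≥ 2N - 2d` (possibly `Π = 0`); roots: `2i - 2d ≤ 0` and `≥ N`.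
Clipped: `{0, fold(2i)}`; and `qt s s = 1` (level `0`).
-/

set_option autoImplicit false

namespace Fermat.Agent.S05

variable {K : Type*} [Field K] {Γ₀ : Type*} [LinearOrderedCommGroupWithZero Γ₀]
variable {v : Valuation K Γ₀} {α β X₁ X₂ r₁ r₂ : K}

namespace URD3

/-! ### Order lemmas in `Γ₀` -/

theorem sq_lt_self {a : Γ₀} (h0 : 0 < a) (h1 : a < 1) : a ^ 2 < a := by
  rw [pow_two]
  exact mul_lt_of_lt_one_right h0 h1

theorem sq_lt_one {a : Γ₀} (h0 : 0 < a) (h1 : a < 1) : a ^ 2 < 1 :=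
  lt_trans (sq_lt_self h0 h1) h1

/-- `clip ε x = 1` if `1 ≤ x` (and `ε ≤ 1`). -/
theorem clip_of_one_le {ε x : Γ₀} (hε : ε ≤ 1) (hx : 1 ≤ x) : clip ε x = 1 := by
  unfold clip
  rw [min_eq_left hx, max_eq_right hε]

/-- `clip ε x = x` if `ε ≤ x ≤ 1`. -/
theorem clip_of_mem {ε x : Γ₀} (hε : ε ≤ x) (hx : x ≤ 1) : clip ε x = x := by
  unfold clip
  rw [min_eq_right hx, max_eq_right hε]

/-- `clip ε x = ε` if `x ≤ ε` (and `ε ≤ 1`). -/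
theorem clip_of_le {ε x : Γ₀} (hε : ε ≤ 1) (hx : x ≤ ε) : clip ε x = ε := by
  unfold clip
  rw [min_eq_right (le_trans hx hε), max_eq_left hx]

theorem qt_self {a : Γ₀} (ha : a ≠ 0) : qt a a = 1 := by
  unfold qt
  rw [min_self, div_self ha]

/-- The final assembly: one root is a unit or non-integral (clipped level `1 = qt a a`), the
other one has clipped level `fold ε (a * a)`. -/
theorem concl_of {ε a c₁ c₂ : Γ₀} (hεa : ε < a) (ha1 : a < 1)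
    (h : (1 ≤ c₁ ∧ clip ε c₂ = fold ε (a * a)) ∨ (1 ≤ c₂ ∧ clip ε c₁ = fold ε (a * a))) :
    URConcl ε a a c₁ c₂ := by
  have ha0 : a ≠ 0 := (lt_of_le_of_lt zero_le hεa).ne'
  have hε1 : ε ≤ 1 := (lt_trans hεa ha1).le
  have hca : clip ε a = a := clip_of_mem hεa.le ha1.le
  unfold URConcl
  rw [hca, qt_self ha0]
  rcases h with ⟨h1, h2⟩ | ⟨h1, h2⟩
  · exact Or.inr ⟨clip_of_one_le hε1 h1, h2⟩
  · exact Or.inl ⟨h2, clip_of_one_le hε1 h1⟩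

/-! ### Valuations of the ingredients -/

theorem vX₁_pos (hε : v α < v X₁) : 0 < v X₁ := lt_of_le_of_lt zero_le hε

theorem vsub_pos (H : URHyp v α β X₁ X₂ r₁ r₂) : 0 < v (X₁ - X₂) :=
  v.pos_iff.2 (sub_ne_zero.2 H.hne)

theorem vsub_le (heq : v X₁ = v X₂) : v (X₁ - X₂) ≤ v X₁ :=
  v.map_sub_le le_rfl heq.ge

theorem v_add (H : URHyp v α β X₁ X₂ r₁ r₂) : v (α + β) = 1 := by
  rw [Valuation.map_add_eq_of_lt_right v (by rw [H.hβ]; exact H.hα), H.hβ]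

theorem v_mul (H : URHyp v α β X₁ X₂ r₁ r₂) : v (α * β) = v α := by
  rw [map_mul, H.hβ, mul_one]

theorem v_XX (heq : v X₁ = v X₂) : v (X₁ * X₂) = v X₁ ^ 2 := by
  rw [map_mul, ← heq, pow_two]

/-- The dominant term of the numerator of `S`. -/
theorem v_dom (H : URHyp v α β X₁ X₂ r₁ r₂) (heq : v X₁ = v X₂) :
    v (2 * (α + β) * X₁ * X₂) = v X₁ ^ 2 := by
  rw [map_mul, map_mul, map_mul, H.h2, v_add H, ← heq, one_mul, one_mul, pow_two]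

/-- The other term of the numerator of `S` is strictly smaller. -/
theorem v_small (H : URHyp v α β X₁ X₂ r₁ r₂) (heq : v X₁ = v X₂) (h1 : v X₁ < 1)
    (hε : v α < v X₁) : v ((X₁ + X₂) * (X₁ * X₂ + α * β)) < v X₁ ^ 2 := by
  have h0 : 0 < v X₁ := vX₁_pos hε
  have hA : v (X₁ + X₂) ≤ v X₁ := v.map_add_le le_rfl heq.ge
  have hB : v (X₁ * X₂ + α * β) < v X₁ := by
    refine v.map_add_lt ?_ ?_
    · rw [v_XX heq]
      exact sq_lt_self h0 h1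
    · rw [v_mul H]
      exact hε
  rw [map_mul, pow_two]
  exact lt_of_le_of_lt (mul_le_mul' hA le_rfl) (mul_lt_mul_of_pos_left hB h0)

/-- The numerator of `S` has valuation exactly `(v X₁)²`. -/
theorem v_num (H : URHyp v α β X₁ X₂ r₁ r₂) (heq : v X₁ = v X₂) (h1 : v X₁ < 1)
    (hε : v α < v X₁) :
    v ((X₁ + X₂) * (X₁ * X₂ + α * β) - 2 * (α + β) * X₁ * X₂) = v X₁ ^ 2 := by
  rw [Valuation.map_sub_eq_of_lt_right v (by rw [v_dom H heq]; exact v_small H heq h1 hε),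
    v_dom H heq]

/-- `v S = (v X₁)² / (v (X₁ - X₂))²`. -/
theorem v_sum (H : URHyp v α β X₁ X₂ r₁ r₂) (heq : v X₁ = v X₂) (h1 : v X₁ < 1)
    (hε : v α < v X₁) :
    v (2 * ((X₁ + X₂) * (X₁ * X₂ + α * β) - 2 * (α + β) * X₁ * X₂) / (X₁ - X₂) ^ 2) =
      v X₁ ^ 2 / v (X₁ - X₂) ^ 2 := by
  rw [map_div₀, map_mul, H.h2, one_mul, v_num H heq h1 hε, map_pow]

/-- `v Π = (v (X₁ X₂ - α β))² / (v (X₁ - X₂))²`. -/
theorem v_prod : v ((X₁ * X₂ - α * β) ^ 2 / (X₁ - X₂) ^ 2) =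
    v (X₁ * X₂ - α * β) ^ 2 / v (X₁ - X₂) ^ 2 := by
  rw [map_div₀, map_pow, map_pow]

/-- `v (X₁ X₂ - α β) < v X₁`. -/
theorem v_tau_lt (H : URHyp v α β X₁ X₂ r₁ r₂) (heq : v X₁ = v X₂) (h1 : v X₁ < 1)
    (hε : v α < v X₁) : v (X₁ * X₂ - α * β) < v X₁ := by
  refine v.map_sub_lt ?_ ?_
  · rw [v_XX heq]
    exact sq_lt_self (vX₁_pos hε) h1
  · rw [v_mul H]
    exact hε

/-- `1 ≤ v S`. -/
theorem one_le_v_sum (H : URHyp v α β X₁ X₂ r₁ r₂) (heq : v X₁ = v X₂) :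
    1 ≤ v X₁ ^ 2 / v (X₁ - X₂) ^ 2 := by
  rw [one_le_div₀ (pow_pos (vsub_pos H) 2)]
  exact pow_le_pow_left₀ zero_le (vsub_le heq) 2

/-- The Newton polygon: one root has `1 ≤ v r`, the other one satisfies
`v r * (v X₁)² = (v (X₁ X₂ - α β))²`. -/
theorem roots (H : URHyp v α β X₁ X₂ r₁ r₂) (heq : v X₁ = v X₂) (h1 : v X₁ < 1)
    (hε : v α < v X₁) :
    (1 ≤ v r₁ ∧ v r₂ * v X₁ ^ 2 = v (X₁ * X₂ - α * β) ^ 2) ∨
      (1 ≤ v r₂ ∧ v r₁ * v X₁ ^ 2 = v (X₁ * X₂ - α * β) ^ 2) := by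
  have hd0 : 0 < v (X₁ - X₂) ^ 2 := pow_pos (vsub_pos H) 2
  have hS1 : 1 ≤ v X₁ ^ 2 / v (X₁ - X₂) ^ 2 := one_le_v_sum H heq
  have hlt : v ((X₁ * X₂ - α * β) ^ 2 / (X₁ - X₂) ^ 2) <
      v (2 * ((X₁ + X₂) * (X₁ * X₂ + α * β) - 2 * (α + β) * X₁ * X₂) / (X₁ - X₂) ^ 2) ^ 2 := by
    rw [v_prod, v_sum H heq h1 hε]
    refine lt_of_lt_of_le ?_ (le_self_pow₀ hS1 two_ne_zero)
    exact (div_lt_div_iff_of_pos_right hd0).mpr
      (pow_lt_pow_left₀ (v_tau_lt H heq h1 hε) zero_le two_ne_zero)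
  have key : ∀ x : Γ₀, x * (v X₁ ^ 2 / v (X₁ - X₂) ^ 2) =
      v (X₁ * X₂ - α * β) ^ 2 / v (X₁ - X₂) ^ 2 → x * v X₁ ^ 2 = v (X₁ * X₂ - α * β) ^ 2 := by
    intro x hx
    rw [← mul_div_assoc] at hx
    exact (div_left_inj' hd0.ne').mp hx
  rcases (newton_two_roots v H.hsum H.hprod).1 hlt with ⟨h1', h2'⟩ | ⟨h1', h2'⟩
  · rw [v_sum H heq h1 hε] at h1' h2'
    rw [v_prod] at h2'
    exact Or.inl ⟨h1'.symm ▸ hS1, key _ h2'⟩
  · rw [v_sum H heq h1 hε] at h1' h2'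
    rw [v_prod] at h2'
    exact Or.inr ⟨h1'.symm ▸ hS1, key _ h2'⟩

/-- Reduction of the three cases to a statement on the small root. -/
theorem concl (H : URHyp v α β X₁ X₂ r₁ r₂) (heq : v X₁ = v X₂) (h1 : v X₁ < 1)
    (hε : v α < v X₁)
    (hx : ∀ x : Γ₀, x * v X₁ ^ 2 = v (X₁ * X₂ - α * β) ^ 2 →
      clip (v α) x = fold (v α) (v X₁ * v X₁)) :
    URConcl (v α) (v X₁) (v X₂) (v r₁) (v r₂) := by
  rw [← heq]
  refine concl_of hε h1 ?_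
  rcases roots H heq h1 hε with ⟨h, h'⟩ | ⟨h, h'⟩
  · exact Or.inl ⟨h, hx _ h'⟩
  · exact Or.inr ⟨h, hx _ h'⟩

end URD3

open URD3

theorem ur_D3a (H : URHyp v α β X₁ X₂ r₁ r₂) (heq : v X₁ = v X₂) (h1 : v X₁ < 1)
    (hε : v α < v X₁) (h3 : v α < v X₁ ^ 2) : URConcl (v α) (v X₁) (v X₂) (v r₁) (v r₂) := by
  have h0 : 0 < v X₁ := vX₁_pos hε
  have hτ : v (X₁ * X₂ - α * β) = v X₁ ^ 2 := by
    rw [Valuation.map_sub_eq_of_lt_left v (by rw [v_mul H, v_XX heq]; exact h3), v_XX heq]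
  refine concl H heq h1 hε fun x hx => ?_
  rw [hτ, pow_two (v X₁ ^ 2)] at hx
  have hx' : x = v X₁ ^ 2 := mul_right_cancel₀ (pow_pos h0 2).ne' hx
  rw [hx', ← pow_two, fold, if_pos h3.le]
  exact clip_of_mem h3.le (sq_lt_one h0 h1).le

theorem ur_D3b (H : URHyp v α β X₁ X₂ r₁ r₂) (heq : v X₁ = v X₂) (h1 : v X₁ < 1)
    (hε : v α < v X₁) (h3 : v X₁ ^ 2 < v α) : URConcl (v α) (v X₁) (v X₂) (v r₁) (v r₂) := by
  have h0 : 0 < v X₁ := vX₁_pos hε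
  have h20 : 0 < v X₁ ^ 2 := pow_pos h0 2
  have hτ : v (X₁ * X₂ - α * β) = v α := by
    rw [Valuation.map_sub_eq_of_lt_right v (by rw [v_mul H, v_XX heq]; exact h3), v_mul H]
  refine concl H heq h1 hε fun x hx => ?_
  rw [hτ] at hx
  have hx' : x = v α ^ 2 / v X₁ ^ 2 := (eq_div_iff h20.ne').mpr hx
  rw [hx', ← pow_two, fold, if_neg (not_le.mpr h3)]
  refine clip_of_mem ?_ ?_
  · rw [le_div_iff₀ h20, pow_two (v α)]
    exact mul_le_mul' le_rfl h3.le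
  · rw [div_le_one₀ h20]
    exact pow_le_pow_left₀ zero_le hε.le 2

theorem ur_D3c (H : URHyp v α β X₁ X₂ r₁ r₂) (heq : v X₁ = v X₂) (h1 : v X₁ < 1)
    (hε : v α < v X₁) (h3 : v X₁ ^ 2 = v α) : URConcl (v α) (v X₁) (v X₂) (v r₁) (v r₂) := by
  have h0 : 0 < v X₁ := vX₁_pos hε
  have h20 : 0 < v X₁ ^ 2 := pow_pos h0 2
  have hτ : v (X₁ * X₂ - α * β) ≤ v α := by
    refine v.map_sub_le ?_ ?_
    · rw [v_XX heq, h3]
    · rw [v_mul H]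
  refine concl H heq h1 hε fun x hx => ?_
  have hxle : x ≤ v α := by
    refine le_of_mul_le_mul_right ?_ h20
    rw [hx]
    rw [h3, ← pow_two]
    exact pow_le_pow_left₀ zero_le hτ 2
  rw [← pow_two, fold, if_pos h3.ge, h3]
  exact clip_of_le H.hα.le hxle

end Fermat.Agent.S05
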