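import Fermat.Agent.S05.Core.Defs
import Fermat.Agent.S05.Core.Formulas
import Fermat.Agent.S05.Core.URA
import Fermat.Agent.S05.Core.URB
import Fermat.Agent.S05.Core.URC
import Fermat.Agent.S05.Core.URD
import Fermat.Agent.S05.Core.URD3
import Fermat.Agent.S05.Core.Dbl

/-!
# S05 core: the unordered parallelogram rule (assembly).
(one worker; statements frozen)

`ur_field`: case distinction `v X₂ < v X₁` / `v X₁ < v X₂` (swap `X₁, X₂`; `S`, `Π` and `URConcl` are
symmetric: `qt s t = qt t s`, `s * t = t * s`) / `v X₁ = v X₂`, then the case lemmas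
`ur_A1 … ur_D4` (compare `v X₁ * v X₂` with `v α`, etc.).
`Model.ur`: `P = 0` or `Q = 0` (`fold ε t = t`, `qt 1 t = t` for `ε ≤ t ≤ 1`); both affine with `X₁ ≠ X₂`
(`exists_coord_add_sub` + `ur_field`); `X₁ = X₂`: `Q = P` or `Q = -P` (`Model.eq_or_eq_neg_of_X_eq`), then
`{P + Q, P - Q} = {P + P, 0}`, `lvl 0 = 1 = qt s s`, and `lvl (P + P) = fold ε (s * s)` by
`exists_coord_two` + `dbl_field` if `Y ≠ 0`; if `Y = 0` then `P + P = 0` and `X ∈ {0, α, β}`, so `s = ε` or
`s = 1` and `fold ε (s * s) = 1`.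
-/

set_option autoImplicit false

namespace Fermat.Agent.S05

variable {K : Type*} [Field K] {Γ₀ : Type*} [LinearOrderedCommGroupWithZero Γ₀]

namespace URAll

/-! ### Elementary facts on `fold` and `qt` -/

theorem qt_comm (s t : Γ₀) : qt s t = qt t s := by
  unfold qt
  exact min_comm _ _

theorem qt_self {s : Γ₀} (hs : s ≠ 0) : qt s s = 1 := by
  unfold qt
  rw [div_self hs, min_self]

theorem qt_one_right {s : Γ₀} (hs0 : s ≠ 0) (hs : s ≤ 1) : qt s 1 = s := by
  unfold qt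
  rw [div_one, one_div]
  exact min_eq_left (hs.trans ((one_le_inv₀ (zero_lt_iff.mpr hs0)).mpr hs))

theorem qt_one_left {t : Γ₀} (ht0 : t ≠ 0) (ht : t ≤ 1) : qt 1 t = t := by
  rw [qt_comm]
  exact qt_one_right ht0 ht

theorem fold_of_le {ε u : Γ₀} (h : ε ≤ u) : fold ε u = u := by
  unfold fold
  exact if_pos h

theorem fold_one_mul_one {ε : Γ₀} (h : ε ≤ 1) : fold ε (1 * 1) = 1 := by
  rw [one_mul]
  exact fold_of_le h

theorem fold_self_mul_self {ε : Γ₀} (h0 : ε ≠ 0) (h1 : ε < 1) : fold ε (ε * ε) = 1 := by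
  have hlt : ε * ε < ε := mul_lt_of_lt_one_right (zero_lt_iff.mpr h0) h1
  unfold fold
  rw [if_neg (not_le.mpr hlt), sq]
  exact div_self (mul_ne_zero h0 h0)

/-! ### Symmetry in `X₁ ↔ X₂` -/

theorem urConcl_swap {ε a b c₁ c₂ : Γ₀} (h : URConcl ε b a c₁ c₂) : URConcl ε a b c₁ c₂ := by
  unfold URConcl at h ⊢
  rw [mul_comm (clip ε a) (clip ε b), qt_comm (clip ε a) (clip ε b)]
  exact h

theorem urHyp_swap {v : Valuation K Γ₀} {α β X₁ X₂ r₁ r₂ : K}
    (H : URHyp v α β X₁ X₂ r₁ r₂) : URHyp v α β X₂ X₁ r₁ r₂ where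
  h2 := H.h2
  hα0 := H.hα0
  hα := H.hα
  hβ := H.hβ
  hne := H.hne.symm
  hsum := by
    have e1 : (X₂ - X₁) ^ 2 = (X₁ - X₂) ^ 2 := by ring
    have e2 : (X₂ + X₁) * (X₂ * X₁ + α * β) - 2 * (α + β) * X₂ * X₁
        = (X₁ + X₂) * (X₁ * X₂ + α * β) - 2 * (α + β) * X₁ * X₂ := by ring
    rw [e1, e2]
    exact H.hsum
  hprod := by
    have e1 : (X₂ - X₁) ^ 2 = (X₁ - X₂) ^ 2 := by ring
    rw [e1, mul_comm X₂ X₁]
    exact H.hprod

/-! ### The case distinction for `ur_field` -/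

theorem ur_field_lt {v : Valuation K Γ₀} {α β X₁ X₂ r₁ r₂ : K}
    (H : URHyp v α β X₁ X₂ r₁ r₂) (hlt : v X₂ < v X₁) :
    URConcl (v α) (v X₁) (v X₂) (v r₁) (v r₂) := by
  rcases lt_trichotomy (v α) (v X₁ * v X₂) with hA | hC | hB
  · rcases lt_trichotomy (v X₁) 1 with h1 | h1 | h1
    · exact ur_A1 H hlt hA h1
    · exact ur_A2 H hlt hA h1
    · exact ur_A3 H hlt hA h1
  · rcases lt_or_ge (v X₁) 1 with h1 | h1
    · exact ur_C1 H hlt hC.symm h1
    · exact ur_C2 H hlt hC.symm h1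
  · rcases lt_trichotomy (v X₂) (v α) with h1 | h1 | h1
    · exact ur_B1 H hlt hB h1
    · exact ur_B2 H hlt hB h1
    · exact ur_B3 H hlt hB h1

theorem ur_field_eq {v : Valuation K Γ₀} {α β X₁ X₂ r₁ r₂ : K}
    (H : URHyp v α β X₁ X₂ r₁ r₂) (heq : v X₁ = v X₂) :
    URConcl (v α) (v X₁) (v X₂) (v r₁) (v r₂) := by
  rcases lt_trichotomy (v X₁) 1 with h1 | h1 | h1
  · rcases le_or_gt (v X₁) (v α) with h4 | hε
    · exact ur_D4 H heq h4
    · rcases lt_trichotomy (v α) (v X₁ ^ 2) with h3 | h3 | h3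
      · exact ur_D3a H heq h1 hε h3
      · exact ur_D3c H heq h1 hε h3.symm
      · exact ur_D3b H heq h1 hε h3
  · exact ur_D2 H heq h1
  · exact ur_D1 H heq h1

/-! ### Basic facts on the level function -/

section Level

variable {α β : K} {G : Type*} [AddCommGroup G] (M : Model K α β G) (v : Valuation K Γ₀)

theorem lvl_neg (P : G) : M.lvl v (-P) = M.lvl v P := by
  by_cases h : P = 0
  · rw [h, neg_zero]
  · obtain ⟨X, Y, hc⟩ := M.exists_coord_of_ne_zero h
    rw [M.lvl_of_coord v hc, M.lvl_of_coord v (M.coord_neg hc)]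

theorem le_lvl (hα : v α < 1) (P : G) : v α ≤ M.lvl v P := by
  by_cases h : P = 0
  · rw [h, M.lvl_zero]
    exact hα.le
  · obtain ⟨X, Y, hc⟩ := M.exists_coord_of_ne_zero h
    rw [M.lvl_of_coord v hc]
    exact le_max_left _ _

theorem lvl_le_one (hα : v α < 1) (P : G) : M.lvl v P ≤ 1 := by
  by_cases h : P = 0
  · rw [h, M.lvl_zero]
  · obtain ⟨X, Y, hc⟩ := M.exists_coord_of_ne_zero h
    rw [M.lvl_of_coord v hc]
    exact max_le hα.le (min_le_left _ _)

theorem lvl_ne_zero (hα0 : α ≠ 0) (hα : v α < 1) (P : G) : M.lvl v P ≠ 0 := by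
  have h0 : 0 < v α := zero_lt_iff.mpr (v.ne_zero_iff.mpr hα0)
  exact (lt_of_lt_of_le h0 (le_lvl M v hα P)).ne'

/-- The level of a point with `Y = 0` (a `2`-torsion point) is `v α` or `1`. -/
theorem lvl_of_Y_eq_zero (hα : v α < 1) (hβ : v β = 1) {P : G} {X : K}
    (hc : M.coord P = some (X, 0)) : M.lvl v P = v α ∨ M.lvl v P = 1 := by
  have heq := M.equation hc
  have h0 : X * (X - α) * (X - β) = 0 := by
    rw [← heq]
    exact zero_pow two_ne_zero
  rw [M.lvl_of_coord v hc]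
  rcases mul_eq_zero.mp h0 with h | h
  · rcases mul_eq_zero.mp h with h | h
    · left
      rw [h, map_zero, min_eq_right zero_le_one]
      exact max_eq_left zero_le
    · left
      rw [sub_eq_zero.mp h, min_eq_right hα.le]
      exact max_self _
  · right
    rw [sub_eq_zero.mp h, hβ, min_self]
    exact max_eq_right hα.le

/-- The duplication rule for the level function. -/
theorem lvl_two (h2 : v 2 = 1) (hα0 : α ≠ 0) (hα : v α < 1) (hβ : v β = 1) (P : G) :
    M.lvl v (P + P) = fold (v α) (M.lvl v P * M.lvl v P) := by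
  by_cases hP : P = 0
  · rw [hP, add_zero, M.lvl_zero]
    exact (fold_one_mul_one hα.le).symm
  obtain ⟨X, Y, hc⟩ := M.exists_coord_of_ne_zero hP
  by_cases hY : Y = 0
  · rw [hY] at hc
    rw [M.add_self_eq_zero_of_Y_eq_zero hc, M.lvl_zero]
    rcases lvl_of_Y_eq_zero M v hα hβ hc with h | h
    · rw [h]
      exact (fold_self_mul_self (v.ne_zero_iff.mpr hα0) hα).symm
    · rw [h]
      exact (fold_one_mul_one hα.le).symm
  · have h2' : (2 : K) ≠ 0 := by
      apply v.ne_zero_iff.mp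
      rw [h2]
      exact one_ne_zero
    obtain ⟨Y₃, hc2⟩ := M.exists_coord_two h2' hc hY
    rw [M.lvl_of_coord v hc2, M.lvl_of_coord v hc]
    exact dbl_field v h2 hα0 hα hβ (M.equation hc) hY

end Level

end URAll

/-- Field-level unordered rule. -/
theorem ur_field {v : Valuation K Γ₀} {α β X₁ X₂ r₁ r₂ : K} (H : URHyp v α β X₁ X₂ r₁ r₂) :
    URConcl (v α) (v X₁) (v X₂) (v r₁) (v r₂) := by
  rcases lt_trichotomy (v X₂) (v X₁) with hlt | heq | hgt
  · exact URAll.ur_field_lt H hlt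
  · exact URAll.ur_field_eq H heq.symm
  · exact URAll.urConcl_swap (URAll.ur_field_lt (URAll.urHyp_swap H) hgt)

namespace Model

variable {α β : K} {G : Type*} [AddCommGroup G] (M : Model K α β G) (v : Valuation K Γ₀)

/-- The unordered parallelogram rule for the level function (multiplicative case). -/
theorem ur (h2 : v 2 = 1) (hα0 : α ≠ 0) (hα : v α < 1) (hβ : v β = 1) (P Q : G) :
    (M.lvl v (P + Q) = fold (v α) (M.lvl v P * M.lvl v Q) ∧
        M.lvl v (P - Q) = qt (M.lvl v P) (M.lvl v Q)) ∨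
      (M.lvl v (P + Q) = qt (M.lvl v P) (M.lvl v Q) ∧
        M.lvl v (P - Q) = fold (v α) (M.lvl v P * M.lvl v Q)) := by
  by_cases hP : P = 0
  · -- `P = 0`
    left
    rw [hP, zero_add, zero_sub, URAll.lvl_neg, M.lvl_zero, one_mul,
      URAll.fold_of_le (URAll.le_lvl M v hα Q),
      URAll.qt_one_left (URAll.lvl_ne_zero M v hα0 hα Q) (URAll.lvl_le_one M v hα Q)]
    exact ⟨rfl, rfl⟩
  by_cases hQ : Q = 0
  · -- `Q = 0`
    left
    rw [hQ, add_zero, sub_zero, M.lvl_zero, mul_one,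
      URAll.fold_of_le (URAll.le_lvl M v hα P),
      URAll.qt_one_right (URAll.lvl_ne_zero M v hα0 hα P) (URAll.lvl_le_one M v hα P)]
    exact ⟨rfl, rfl⟩
  obtain ⟨X₁, Y₁, hc₁⟩ := M.exists_coord_of_ne_zero hP
  obtain ⟨X₂, Y₂, hc₂⟩ := M.exists_coord_of_ne_zero hQ
  by_cases hne : X₁ = X₂
  · -- same `X`-coordinate: `Q = P` or `Q = -P`
    rw [← hne] at hc₂
    rcases M.eq_or_eq_neg_of_X_eq hc₁ hc₂ with h | h
    · left
      rw [h, sub_self, M.lvl_zero, URAll.qt_self (URAll.lvl_ne_zero M v hα0 hα P)]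
      exact ⟨URAll.lvl_two M v h2 hα0 hα hβ P, rfl⟩
    · right
      rw [h, add_neg_cancel, sub_neg_eq_add, URAll.lvl_neg, M.lvl_zero,
        URAll.qt_self (URAll.lvl_ne_zero M v hα0 hα P)]
      exact ⟨rfl, URAll.lvl_two M v h2 hα0 hα hβ P⟩
  · -- different `X`-coordinates: the field-level rule
    obtain ⟨Xp, Yp, Xm, Ym, hp, hm, hsum, hprod⟩ := M.exists_coord_add_sub hc₁ hc₂ hne
    have H : URHyp v α β X₁ X₂ Xp Xm := ⟨h2, hα0, hα, hβ, hne, hsum, hprod⟩
    have hur := ur_field H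
    rw [M.lvl_of_coord v hp, M.lvl_of_coord v hm, M.lvl_of_coord v hc₁, M.lvl_of_coord v hc₂]
    exact hur

end Model

end Fermat.Agent.S05
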