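import Fermat.Agent.S05.Core.Defs
import Fermat.Agent.S05.Core.Formulas
import Fermat.Agent.S05.Core.Dbl

/-!
# S05 core: two points on the same level near the node (multiplicative case).
(one worker; statement frozen)

`P = (X₁, Y₁)`, `Q = (X₂, Y₂)` with `ε = v α < v X₁ = v X₂ < 1`.  Then `tᵢ = Yᵢ/Xᵢ` are units with
`tᵢ² = Xᵢ - α - β + αβ/Xᵢ ≡ -β`, so `v (t₁ - t₂) < 1` or `v (t₁ + t₂) < 1`.
If `v (t₁ - t₂) < 1` ("same branch") then `lvl (P + Q) < 1`: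
* `X₁ ≠ X₂`: `Λ = (Y₁ - Y₂)/(X₁ - X₂) = t₁ + (X₂ - αβ/X₁)/(t₁ + t₂)` (from
  `t₁² - t₂² = (X₁ - X₂)(1 - αβ/(X₁X₂))`), so `Λ ≡ t₁`, and `X(P+Q) = Λ² + α + β - X₁ - X₂` has `v < 1`;
* `X₁ = X₂`: then `Y₂ = Y₁` (as `v (2 t₁) = 1`), `Q = P`, and `lvl (P + P) = fold ε (s²) < 1` by
  `exists_coord_two` + `dbl_field` (`ε < s = v X₁ < 1`).
If `v (t₁ + t₂) < 1`: apply this to `-Q` (`Model.coord_neg`).
-/

set_option autoImplicit false

namespace Fermat.Agent.S05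

namespace Branch

variable {K : Type*} [Field K] {Γ₀ : Type*} [LinearOrderedCommGroupWithZero Γ₀]
  (v : Valuation K Γ₀)

/-- The maximal ideal absorbs multiplication by integral elements. -/
theorem lt_one_mul {x y : K} (hx : v x < 1) (hy : v y ≤ 1) : v (x * y) < 1 := by
  rw [map_mul]
  calc v x * v y ≤ v x * 1 := mul_le_mul' le_rfl hy
    _ = v x := mul_one _
    _ < 1 := hx

/-- An element whose square is a unit is a unit. -/
theorem eq_one_of_sq {x : K} (h : v (x ^ 2) = 1) : v x = 1 := by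
  rw [map_pow] at h
  rcases lt_trichotomy (v x) 1 with hlt | heq | hgt
  · exfalso
    have h' : v x ^ 2 < 1 := by
      calc v x ^ 2 = v x * v x := sq _
        _ ≤ v x * 1 := mul_le_mul' le_rfl hlt.le
        _ = v x := mul_one _
        _ < 1 := hlt
    exact absurd h h'.ne
  · exact heq
  · exfalso
    have h' : 1 < v x ^ 2 := by
      calc 1 < v x := hgt
        _ = v x * 1 := (mul_one _).symm
        _ ≤ v x * v x := mul_le_mul' le_rfl hgt.le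
        _ = v x ^ 2 := (sq _).symm
    exact absurd h h'.ne'

/-- If a product lies in the maximal ideal, so does one of the factors. -/
theorem lt_one_or_of_mul {x y : K} (h : v (x * y) < 1) : v x < 1 ∨ v y < 1 := by
  by_contra hc
  have hx : 1 ≤ v x := not_lt.mp fun hlt => hc (Or.inl hlt)
  have hy : 1 ≤ v y := not_lt.mp fun hlt => hc (Or.inr hlt)
  have h' : (1 : Γ₀) * 1 ≤ v x * v y := mul_le_mul' hx hy
  rw [one_mul, ← map_mul] at h'
  exact absurd h (not_lt.mpr h')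

variable {α β X₁ X₂ t₁ t₂ : K}

/-- `X₁ ≠ 0` because `0 ≤ v α < v X₁`. -/
theorem X_ne_zero (hε : v α < v X₁) : X₁ ≠ 0 := by
  intro h0
  rw [h0, map_zero] at hε
  exact not_lt_zero hε

/-- `αβ/X₁` lies in the maximal ideal. -/
theorem val_w_lt_one (hβ : v β = 1) (hε : v α < v X₁) : v (α * β / X₁) < 1 := by
  have hvX1 : v X₁ ≠ 0 := (Valuation.ne_zero_iff v).mpr (X_ne_zero v hε)
  rw [map_div₀, map_mul, hβ, mul_one, div_lt_one₀ (zero_lt_iff.mpr hvX1)]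
  exact hε

/-- `t₁² ≡ -β` modulo the maximal ideal. -/
theorem val_sq_add_lt_one (hα : v α < 1) (hβ : v β = 1) (h1 : v X₁ < 1) (hε : v α < v X₁)
    (ht1 : t₁ ^ 2 * X₁ = (X₁ - α) * (X₁ - β)) : v (t₁ ^ 2 + β) < 1 := by
  have hX1 : X₁ ≠ 0 := X_ne_zero v hε
  have e1 : t₁ ^ 2 + β = X₁ - α + α * β / X₁ := by
    field_simp
    linear_combination ht1
  rw [e1]
  exact Valuation.map_add_lt v (Valuation.map_sub_lt v h1 hα) (val_w_lt_one v hβ hε)

/-- `t₁` is a unit. -/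
theorem val_t_eq_one (hα : v α < 1) (hβ : v β = 1) (h1 : v X₁ < 1) (hε : v α < v X₁)
    (ht1 : t₁ ^ 2 * X₁ = (X₁ - α) * (X₁ - β)) : v t₁ = 1 := by
  apply eq_one_of_sq
  have hm1 := val_sq_add_lt_one v hα hβ h1 hε ht1
  have e : t₁ ^ 2 = (t₁ ^ 2 + β) - β := by ring
  rw [e, Valuation.map_sub_eq_of_lt_right _ (by rw [hβ]; exact hm1), hβ]

/-- `2 t₁` is a unit. -/
theorem val_two_t_eq_one (h2 : v 2 = 1) (hα : v α < 1) (hβ : v β = 1) (h1 : v X₁ < 1)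
    (hε : v α < v X₁) (ht1 : t₁ ^ 2 * X₁ = (X₁ - α) * (X₁ - β)) : v (2 * t₁) = 1 := by
  rw [map_mul, h2, val_t_eq_one v hα hβ h1 hε ht1, mul_one]

/-- On the same branch, `t₁ + t₂` is a unit. -/
theorem val_sum_eq_one (h2 : v 2 = 1) (hα : v α < 1) (hβ : v β = 1) (h1 : v X₁ < 1)
    (hε : v α < v X₁) (ht1 : t₁ ^ 2 * X₁ = (X₁ - α) * (X₁ - β)) (ht : v (t₁ - t₂) < 1) :
    v (t₁ + t₂) = 1 := by
  have hv2t := val_two_t_eq_one v h2 hα hβ h1 hε ht1
  have e : t₁ + t₂ = 2 * t₁ - (t₁ - t₂) := by ring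
  rw [e, Valuation.map_sub_eq_of_lt_left _ (by rw [hv2t]; exact ht), hv2t]

/-- Either `t₁ ≡ t₂` or `t₁ ≡ -t₂` modulo the maximal ideal. -/
theorem same_or_opposite (hα : v α < 1) (hβ : v β = 1) (hX : v X₁ = v X₂) (h1 : v X₁ < 1)
    (hε : v α < v X₁) (ht1 : t₁ ^ 2 * X₁ = (X₁ - α) * (X₁ - β))
    (ht2 : t₂ ^ 2 * X₂ = (X₂ - α) * (X₂ - β)) :
    v (t₁ - t₂) < 1 ∨ v (t₁ + t₂) < 1 := by
  apply lt_one_or_of_mul
  have hm1 := val_sq_add_lt_one v hα hβ h1 hε ht1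
  have hm2 := val_sq_add_lt_one v hα hβ (hX ▸ h1) (hX ▸ hε) ht2
  have e : (t₁ - t₂) * (t₁ + t₂) = (t₁ ^ 2 + β) - (t₂ ^ 2 + β) := by ring
  rw [e]
  exact Valuation.map_sub_lt v hm1 hm2

/-- Field-level core: for `Λ = t₁ + (X₂ - αβ/X₁)/(t₁ + t₂)` on the same branch, the value
`Λ² + α + β - X₁ - X₂` lies in the maximal ideal. -/
theorem core (h2 : v 2 = 1) (hα : v α < 1) (hβ : v β = 1) (hX : v X₁ = v X₂) (h1 : v X₁ < 1)
    (hε : v α < v X₁) (ht1 : t₁ ^ 2 * X₁ = (X₁ - α) * (X₁ - β)) (ht : v (t₁ - t₂) < 1) :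
    v ((t₁ + (X₂ - α * β / X₁) / (t₁ + t₂)) ^ 2 + α + β - X₁ - X₂) < 1 := by
  have hm1 := val_sq_add_lt_one v hα hβ h1 hε ht1
  have hv2t := val_two_t_eq_one v h2 hα hβ h1 hε ht1
  have hsum := val_sum_eq_one v h2 hα hβ h1 hε ht1 ht
  have h1' : v X₂ < 1 := hX ▸ h1
  have hδ : v ((X₂ - α * β / X₁) / (t₁ + t₂)) < 1 := by
    rw [map_div₀, hsum, div_one]
    exact Valuation.map_sub_lt v h1' (val_w_lt_one v hβ hε)
  generalize (X₂ - α * β / X₁) / (t₁ + t₂) = δ at hδ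
  have e2 : (t₁ + δ) ^ 2 + α + β - X₁ - X₂
      = (t₁ ^ 2 + β) + δ * (2 * t₁ + δ) + α - X₁ - X₂ := by ring
  rw [e2]
  have h3 : v (2 * t₁ + δ) ≤ 1 := Valuation.map_add_le v hv2t.le hδ.le
  exact Valuation.map_sub_lt v (Valuation.map_sub_lt v
    (Valuation.map_add_lt v (Valuation.map_add_lt v hm1 (lt_one_mul v hδ h3)) hα) h1) h1'

variable {G : Type*} [AddCommGroup G] (M : Model K α β G)

/-- Same branch (`t₁ ≡ t₂`) implies that `P + Q` has level `< 1`. -/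
theorem lvl_add_lt_one (h2 : v 2 = 1) (hα : v α < 1) (hβ : v β = 1) {P Q : G}
    {X₁ Y₁ X₂ Y₂ : K} (hP : M.coord P = some (X₁, Y₁)) (hQ : M.coord Q = some (X₂, Y₂))
    (hX : v X₁ = v X₂) (h1 : v X₁ < 1) (hε : v α < v X₁) (ht : v (Y₁ / X₁ - Y₂ / X₂) < 1) :
    M.lvl v (P + Q) < 1 := by
  have hX1 : X₁ ≠ 0 := X_ne_zero v hε
  have hX2 : X₂ ≠ 0 := X_ne_zero v (X₁ := X₂) (hX ▸ hε)
  have heq1 := M.equation hP
  have heq2 := M.equation hQ
  have ht1 : (Y₁ / X₁) ^ 2 * X₁ = (X₁ - α) * (X₁ - β) := by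
    field_simp
    linear_combination heq1
  have ht2 : (Y₂ / X₂) ^ 2 * X₂ = (X₂ - α) * (X₂ - β) := by
    field_simp
    linear_combination heq2
  have key := core v h2 hα hβ hX h1 hε ht1 ht
  have hsum : Y₁ / X₁ + Y₂ / X₂ ≠ 0 := by
    have hs := val_sum_eq_one v h2 hα hβ h1 hε ht1 ht
    intro h0
    rw [h0, map_zero] at hs
    exact zero_ne_one hs
  have hv2t := val_two_t_eq_one v h2 hα hβ h1 hε ht1
  have h2K : (2 : K) ≠ 0 := by
    intro h0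
    rw [h0, map_zero] at h2
    exact zero_ne_one h2
  have hY1 : Y₁ ≠ 0 := by
    intro h0
    rw [h0, zero_div, mul_zero, map_zero] at hv2t
    exact zero_ne_one hv2t
  by_cases hne : X₁ = X₂
  · subst hne
    have h3 : (Y₂ - Y₁) * (Y₂ + Y₁) = 0 := by linear_combination heq2 - heq1
    rcases mul_eq_zero.mp h3 with h | h
    · have hY : Y₂ = Y₁ := sub_eq_zero.mp h
      subst hY
      have hQP : Q = P := M.coord_injective (hQ.trans hP.symm)
      subst hQP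
      obtain ⟨Y₃, h3⟩ := M.coord_two hQ hY1
      rw [M.lvl_of_coord v h3]
      refine max_lt hα (min_lt_of_right_lt ?_)
      have e : (3 * X₁ ^ 2 - 2 * (α + β) * X₁ + α * β) / (2 * Y₂)
          = Y₂ / X₁ + (X₁ - α * β / X₁) / (Y₂ / X₁ + Y₂ / X₁) := by
        rw [← two_mul]
        field_simp
        linear_combination (-2 : K) * heq1
      have e' : ((3 * X₁ ^ 2 - 2 * (α + β) * X₁ + α * β) / (2 * Y₂)) ^ 2 + α + β - 2 * X₁
          = (Y₂ / X₁ + (X₁ - α * β / X₁) / (Y₂ / X₁ + Y₂ / X₁)) ^ 2 + α + β - X₁ - X₁ := by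
        rw [e]
        ring
      rw [e']
      exact key
    · exfalso
      have hY : Y₂ = -Y₁ := eq_neg_of_add_eq_zero_left h
      have e : Y₁ / X₁ - Y₂ / X₁ = 2 * (Y₁ / X₁) := by
        rw [hY]
        ring
      rw [e, hv2t] at ht
      exact lt_irrefl _ ht
  · obtain ⟨Y₃, h3⟩ := M.coord_add hP hQ hne
    rw [M.lvl_of_coord v h3]
    refine max_lt hα (min_lt_of_right_lt ?_)
    have hne' : X₁ - X₂ ≠ 0 := sub_ne_zero.mpr hne
    have e : (Y₁ - Y₂) / (X₁ - X₂)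
        = Y₁ / X₁ + (X₂ - α * β / X₁) / (Y₁ / X₁ + Y₂ / X₂) := by
      have hsum' : Y₁ * X₂ + Y₂ * X₁ ≠ 0 := by
        intro h0
        apply hsum
        field_simp
        linear_combination h0
      field_simp
      linear_combination (X₂ ^ 2 : K) * heq1 - X₁ ^ 2 * heq2
    rw [e]
    exact key

end Branch

namespace Model

variable {K : Type*} [Field K] {α β : K} {G : Type*} [AddCommGroup G] (M : Model K α β G)
variable {Γ₀ : Type*} [LinearOrderedCommGroupWithZero Γ₀] (v : Valuation K Γ₀)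

theorem branch (h2 : v 2 = 1) (hα0 : α ≠ 0) (hα : v α < 1) (hβ : v β = 1) {P Q : G}
    {X₁ Y₁ X₂ Y₂ : K} (hP : M.coord P = some (X₁, Y₁)) (hQ : M.coord Q = some (X₂, Y₂))
    (hX : v X₁ = v X₂) (h1 : v X₁ < 1) (hε : v α < v X₁) :
    M.lvl v (P + Q) < 1 ∨ M.lvl v (P - Q) < 1 := by
  have _hα0 : α ≠ 0 := hα0
  have hX1 : X₁ ≠ 0 := Branch.X_ne_zero v hε
  have hX2 : X₂ ≠ 0 := Branch.X_ne_zero v (X₁ := X₂) (hX ▸ hε)
  have heq1 := M.equation hP
  have heq2 := M.equation hQ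
  have ht1 : (Y₁ / X₁) ^ 2 * X₁ = (X₁ - α) * (X₁ - β) := by
    field_simp
    linear_combination heq1
  have ht2 : (Y₂ / X₂) ^ 2 * X₂ = (X₂ - α) * (X₂ - β) := by
    field_simp
    linear_combination heq2
  rcases Branch.same_or_opposite v hα hβ hX h1 hε ht1 ht2 with h | h
  · exact Or.inl (Branch.lvl_add_lt_one v M h2 hα hβ hP hQ hX h1 hε h)
  · right
    have h' : v (Y₁ / X₁ - -Y₂ / X₂) < 1 := by
      rw [neg_div, sub_neg_eq_add]
      exact h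
    have h3 := Branch.lvl_add_lt_one v M h2 hα hβ hP (M.coord_neg hQ) hX h1 hε h'
    rw [← sub_eq_add_neg] at h3
    exact h3

end Model

end Fermat.Agent.S05
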