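import Mathlib

/-!
# S05, abstract core: definitions (owner: helper20; statements frozen).

`Model K α β G`: the abelian group `G` is (abstractly) the group of points of the curve
`Y² = X (X - α) (X - β)` over the field `K`: every nonzero element has coordinates `(X, Y)`
on the curve, and we know the `X`-coordinate of `P + Q` (chord rule) and of `P + P` (tangent rule).
Nothing else about the group law is used.

For a valuation `v : Valuation K Γ₀` (multiplicative notation: `v x ≤ 1` iff `x` is integral,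
`v x < 1` iff `x` is in the maximal ideal, `v x = 1` iff `x` is a unit):
* `Model.G1 v`  : the "kernel of reduction" `{0} ∪ {P | 1 < v X(P)}`;
* `Model.lvl v` : the level `max (v α) (min 1 (v X(P)))`, and `1` for `P = 0`
  (used in the multiplicative case `v α < 1`; `lvl = 1` means nonsingular reduction).
-/

set_option autoImplicit false

namespace Fermat.Agent.S05

/-- `G` is the group of points of `Y² = X (X - α) (X - β)` over `K` (coordinates + chord/tangent
rules for the `X`-coordinate). -/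
structure Model (K : Type*) [Field K] (α β : K) (G : Type*) [AddCommGroup G] where
  /-- the coordinates of a point; `none` for the point at infinity -/
  coord : G → Option (K × K)
  coord_eq_none_iff : ∀ P, coord P = none ↔ P = 0
  coord_injective : Function.Injective coord
  equation : ∀ {P X Y}, coord P = some (X, Y) → Y ^ 2 = X * (X - α) * (X - β)
  exists_of_equation : ∀ X Y : K, Y ^ 2 = X * (X - α) * (X - β) → ∃ P, coord P = some (X, Y)
  coord_neg : ∀ {P X Y}, coord P = some (X, Y) → coord (-P) = some (X, -Y)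
  coord_add : ∀ {P Q X₁ Y₁ X₂ Y₂}, coord P = some (X₁, Y₁) → coord Q = some (X₂, Y₂) → X₁ ≠ X₂ →
    ∃ Y₃, coord (P + Q) = some (((Y₁ - Y₂) / (X₁ - X₂)) ^ 2 + α + β - X₁ - X₂, Y₃)
  coord_two : ∀ {P X Y}, coord P = some (X, Y) → Y ≠ 0 →
    ∃ Y₃, coord (P + P) =
      some (((3 * X ^ 2 - 2 * (α + β) * X + α * β) / (2 * Y)) ^ 2 + α + β - 2 * X, Y₃)

namespace Model

variable {K : Type*} [Field K] {α β : K} {G : Type*} [AddCommGroup G] (M : Model K α β G)
variable {Γ₀ : Type*} [LinearOrderedCommGroupWithZero Γ₀] (v : Valuation K Γ₀)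

/-- The kernel of reduction: the point at infinity and the points with non-integral `X`. -/
def G1 : Set G := {P | P = 0 ∨ ∃ X Y, M.coord P = some (X, Y) ∧ 1 < v X}

/-- The level of a point: `1` at infinity, otherwise `v X` clipped to the interval `[v α, 1]`. -/
noncomputable def lvl (P : G) : Γ₀ :=
  match M.coord P with
  | none => 1
  | some (X, _) => max (v α) (min 1 (v X))

theorem coord_zero : M.coord 0 = none := (M.coord_eq_none_iff 0).mpr rfl

theorem exists_coord_of_ne_zero {P : G} (h : P ≠ 0) : ∃ X Y, M.coord P = some (X, Y) := by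
  cases hc : M.coord P with
  | none => exact absurd ((M.coord_eq_none_iff P).mp hc) h
  | some XY => exact ⟨XY.1, XY.2, rfl⟩

theorem ne_zero_of_coord {P : G} {X Y : K} (h : M.coord P = some (X, Y)) : P ≠ 0 := by
  intro h0
  rw [h0, M.coord_zero] at h
  cases h

/-- Chord rule for `P - Q`. -/
theorem coord_sub {P Q : G} {X₁ Y₁ X₂ Y₂ : K} (hP : M.coord P = some (X₁, Y₁))
    (hQ : M.coord Q = some (X₂, Y₂)) (hne : X₁ ≠ X₂) :
    ∃ Y₃, M.coord (P - Q) = some (((Y₁ + Y₂) / (X₁ - X₂)) ^ 2 + α + β - X₁ - X₂, Y₃) := by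
  have h := M.coord_add hP (M.coord_neg hQ) hne
  rw [sub_neg_eq_add, ← sub_eq_add_neg] at h
  exact h

/-- Two points with the same `X`-coordinate are equal or opposite. -/
theorem eq_or_eq_neg_of_X_eq {P Q : G} {X Y₁ Y₂ : K} (hP : M.coord P = some (X, Y₁))
    (hQ : M.coord Q = some (X, Y₂)) : Q = P ∨ Q = -P := by
  have h1 := M.equation hP
  have h2 := M.equation hQ
  have h3 : (Y₂ - Y₁) * (Y₂ + Y₁) = 0 := by linear_combination h2 - h1
  rcases mul_eq_zero.mp h3 with h | h
  · left
    apply M.coord_injective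
    rw [hP, hQ, sub_eq_zero.mp h]
  · right
    apply M.coord_injective
    rw [M.coord_neg hP, hQ, eq_neg_of_add_eq_zero_left h]

/-- A point with `Y = 0` is `2`-torsion. -/
theorem add_self_eq_zero_of_Y_eq_zero {P : G} {X : K} (hP : M.coord P = some (X, 0)) :
    P + P = 0 := by
  have h : -P = P := by
    apply M.coord_injective
    rw [M.coord_neg hP, hP, neg_zero]
  nth_rewrite 1 [← h]
  exact neg_add_cancel P

theorem lvl_zero : M.lvl v 0 = 1 := by
  unfold lvl
  rw [M.coord_zero]

theorem lvl_of_coord {P : G} {X Y : K} (h : M.coord P = some (X, Y)) :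
    M.lvl v P = max (v α) (min 1 (v X)) := by
  unfold lvl
  rw [h]

theorem zero_mem_G1 : (0 : G) ∈ M.G1 v := Or.inl rfl

theorem mem_G1_of_coord {P : G} {X Y : K} (h : M.coord P = some (X, Y)) (hX : 1 < v X) :
    P ∈ M.G1 v := Or.inr ⟨X, Y, h, hX⟩

theorem one_lt_of_mem_G1 {P : G} {X Y : K} (hP : P ∈ M.G1 v) (h : M.coord P = some (X, Y)) :
    1 < v X := by
  rcases hP with h0 | ⟨X', Y', h', hX⟩
  · exact absurd h0 (M.ne_zero_of_coord h)
  · rw [h] at h'
    cases h'
    exact hX

end Model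

/-- `fold ε u = u` if `ε ≤ u`, and `ε² / u` otherwise (reflection of the level at `ε`). -/
noncomputable def fold {Γ₀ : Type*} [LinearOrderedCommGroupWithZero Γ₀] (ε u : Γ₀) : Γ₀ :=
  if ε ≤ u then u else ε ^ 2 / u

/-- The "quotient" of two levels: the one of `s / t`, `t / s` that is `≤ 1`. -/
noncomputable def qt {Γ₀ : Type*} [LinearOrderedCommGroupWithZero Γ₀] (s t : Γ₀) : Γ₀ :=
  min (s / t) (t / s)

/-- Clipping of a valuation to `[ε, 1]`. -/
noncomputable def clip {Γ₀ : Type*} [LinearOrderedCommGroupWithZero Γ₀] (ε u : Γ₀) : Γ₀ :=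
  max ε (min 1 u)

/-- Hypotheses of the field-level unordered rule: `r₁, r₂` are the `X`-coordinates of `P ± Q`
(in some order) when `X₁ ≠ X₂` are the `X`-coordinates of `P`, `Q` (multiplicative case). -/
structure URHyp {K : Type*} [Field K] {Γ₀ : Type*} [LinearOrderedCommGroupWithZero Γ₀]
    (v : Valuation K Γ₀) (α β X₁ X₂ r₁ r₂ : K) : Prop where
  h2 : v 2 = 1
  hα0 : α ≠ 0
  hα : v α < 1
  hβ : v β = 1
  hne : X₁ ≠ X₂
  hsum : r₁ + r₂ =
    2 * ((X₁ + X₂) * (X₁ * X₂ + α * β) - 2 * (α + β) * X₁ * X₂) / (X₁ - X₂) ^ 2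
  hprod : r₁ * r₂ = (X₁ * X₂ - α * β) ^ 2 / (X₁ - X₂) ^ 2

/-- Conclusion of the unordered rule: the clipped valuations `c₁, c₂` of `r₁, r₂` are, in some
order, `fold (s * t)` and `qt s t`, where `s, t` are the clipped valuations `a, b` of `X₁, X₂`. -/
def URConcl {Γ₀ : Type*} [LinearOrderedCommGroupWithZero Γ₀] (ε a b c₁ c₂ : Γ₀) : Prop :=
  (clip ε c₁ = fold ε (clip ε a * clip ε b) ∧ clip ε c₂ = qt (clip ε a) (clip ε b)) ∨
  (clip ε c₁ = qt (clip ε a) (clip ε b) ∧ clip ε c₂ = fold ε (clip ε a * clip ε b))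

end Fermat.Agent.S05
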